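import Fermat.Agent.Coh.NmTrans

/-!
# Changing the `ℤ_p`-extension of a class formation
-/

set_option autoImplicit false
set_option linter.unusedSectionVars false
set_option linter.style.haveILetI false

namespace Fermat.Agent.Coh

namespace AltD

variable {p : ℕ} [hp : Fact p.Prime] {Γ : Type*} [Group Γ] {𝓤 : Fam Γ}

instance instNeZeroPow (n : ℕ) : NeZero (p ^ n) := ⟨pow_ne_zero _ hp.out.ne_zero⟩

variable (d : Γ → ℤ_[p]) (d_mul : ∀ g h, d (g * h) = d g + d h)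
  (d_sm : ∀ n : ℕ, ∃ U ∈ 𝓤, ∀ u ∈ U, (p : ℤ_[p]) ^ n ∣ d u)

/-- reduction of `d` modulo `p ^ n` -/
noncomputable def psi (T : Subgroup Γ) (n : ℕ) : Chr (𝓤.res T) (ZMod (p ^ n)) :=
  ⟨fun g => PadicInt.toZModPow n (d g), by
    obtain ⟨W, hW, hWn⟩ := d_sm n
    refine ⟨_, ⟨W, hW, rfl⟩, fun g u hu => ?_⟩
    change PadicInt.toZModPow n (d ((g : Γ) * (u : Γ))) = _
    rw [d_mul, map_add, (CFData.toZModPow_eq_zero_iff n (d u)).mpr (hWn _ hu), add_zero],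
    fun g h => by
      change PadicInt.toZModPow n (d ((g : Γ) * (h : Γ))) = _
      rw [d_mul, map_add]⟩

theorem psi_apply (T : Subgroup Γ) (n : ℕ) (g : T) :
    psi d d_mul d_sm T n g = PadicInt.toZModPow n (d g) := rfl

/-- reduction of a hom modulo `p` -/
noncomputable def psi1 (T : Subgroup Γ) (q : T → ℤ_[p]) (q_mul : ∀ g h, q (g * h) = q g + q h)
    (q_sm : ∃ U ∈ 𝓤, ∀ u : T, (u : Γ) ∈ U → (p : ℤ_[p]) ∣ q u) : Chr (𝓤.res T) (ZMod p) :=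
  ⟨fun g => PadicInt.toZMod (q g), by
    obtain ⟨W, hW, hWn⟩ := q_sm
    refine ⟨_, ⟨W, hW, rfl⟩, fun g u hu => ?_⟩
    change PadicInt.toZMod (q (g * u)) = _
    rw [q_mul, map_add, (CFData.toZMod_eq_zero_iff (q u)).mpr (hWn _ hu), add_zero],
    fun g h => by
      change PadicInt.toZMod (q (g * h)) = _
      rw [q_mul, map_add]⟩

theorem val_toZMod_eq (y : ℤ_[p]) (r : ℕ) :
    (PadicInt.toZModPow (r + 1) ((p : ℤ_[p]) ^ r * y)).val = p ^ r * (PadicInt.toZMod y).val := by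
  set a := (PadicInt.toZMod y).val with ha
  have h1 : (p : ℤ_[p]) ∣ y - (a : ℤ_[p]) := by
    rw [← CFData.toZMod_eq_zero_iff, map_sub, map_natCast, ha, ZMod.natCast_zmod_val, sub_self]
  have h2 : (p : ℤ_[p]) ^ (r + 1) ∣ (p : ℤ_[p]) ^ r * y - ((p ^ r * a : ℕ) : ℤ_[p]) := by
    have : (p : ℤ_[p]) ^ r * y - ((p ^ r * a : ℕ) : ℤ_[p]) =
      (p : ℤ_[p]) ^ r * (y - (a : ℤ_[p])) := by push_cast; ring
    rw [this, pow_succ]
    exact mul_dvd_mul_left _ h1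
  rw [← CFData.toZModPow_eq_zero_iff, map_sub, map_natCast, sub_eq_zero] at h2
  rw [h2, ZMod.val_natCast, Nat.mod_eq_of_lt]
  rw [pow_succ]
  exact Nat.mul_lt_mul_of_pos_left (ZMod.val_lt _) (pow_pos hp.out.pos _)

variable {A : Type*} [AddCommGroup A] {α : Representation ℤ Γ A} (D : CFData p 𝓤 α)

include D in
theorem top_isOpen : 𝓤.IsOpen (⊤ : Subgroup Γ) := (D.lev_isOpen 0).mono le_top

section conv

variable (hd : ∃ g, ¬ (p : ℤ_[p]) ∣ d g) (v₀ : ↥(FF α (⊤ : Subgroup Γ)) →+ ℤ_[p])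
  (K : ∀ n (b : ↥(FF α (⊤ : Subgroup Γ))), (p : ℤ_[p]) ^ n ∣ v₀ b →
    sym (rep α ⊤) (psi d d_mul d_sm ⊤ n) b = 0)

include D hd K in
theorem conv (n : ℕ) (b : ↥(FF α (⊤ : Subgroup Γ)))
    (hb : sym (rep α ⊤) (psi d d_mul d_sm ⊤ n) b = 0) : (p : ℤ_[p]) ^ n ∣ v₀ b := by
  -- suppose not
  by_contra hne
  have hn0 : n ≠ 0 := by
    rintro rfl
    exact hne (by rw [pow_zero]; exact one_dvd _)
  obtain ⟨m, rfl⟩ := Nat.exists_eq_succ_of_ne_zero hn0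
  -- write `v₀ b = p ^ k * w`
  have hex : ∃ k, k ≤ m ∧ ∃ w : ℤ_[p], ¬ (p : ℤ_[p]) ∣ w ∧ v₀ b = (p : ℤ_[p]) ^ k * w := by
    classical
    have hP : ∃ k, ¬ (p : ℤ_[p]) ^ (k + 1) ∣ v₀ b := ⟨m, hne⟩
    refine ⟨Nat.find hP, Nat.find_min' hP hne, ?_⟩
    have h1 : (p : ℤ_[p]) ^ Nat.find hP ∣ v₀ b := by
      by_cases h0 : Nat.find hP = 0
      · rw [h0, pow_zero]
        exact one_dvd _
      · have h1 := Nat.find_min hP (Nat.sub_lt (Nat.pos_of_ne_zero h0) one_pos)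
        push Not at h1
        have e : Nat.find hP - 1 + 1 = Nat.find hP := by omega
        rwa [e] at h1
    obtain ⟨w, hw⟩ := h1
    refine ⟨w, fun hpw => Nat.find_spec hP ?_, hw⟩
    obtain ⟨w', hw'⟩ := hpw
    exact ⟨w', hw.trans (by rw [hw', pow_succ, mul_assoc])⟩
  obtain ⟨k, hk, w, hpw, hw⟩ := hex
  -- the character of order `p`
  set χ₁ : Chr (𝓤.res ⊤) (ZMod p) := psi1 (⊤ : Subgroup Γ) (fun g => d g)
    (fun g h => d_mul g h) (by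
      obtain ⟨U, hU, h⟩ := d_sm 1
      exact ⟨U, hU, fun u hu => by simpa using h u hu⟩) with hχ₁
  have h1 : χ₁ ≠ 0 := by
    obtain ⟨g, hg⟩ := hd
    intro h
    apply hg
    rw [← CFData.toZMod_eq_zero_iff]
    have : χ₁ ⟨g, Subgroup.mem_top _⟩ = 0 := by rw [h]; rfl
    exact this
  obtain ⟨a, ha⟩ := D.exists_sym_ne_zero (top_isOpen D) χ₁ h1
  apply ha
  obtain ⟨u, hu⟩ := CFData.isUnit_of_not_dvd hpw
  set c := (PadicInt.toZMod (v₀ a * ((u⁻¹ : ℤ_[p]ˣ) : ℤ_[p]))).val with hc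
  have h2 : (p : ℤ_[p]) ∣ v₀ a - c * w := by
    rw [← CFData.toZMod_eq_zero_iff, map_sub, map_mul, map_natCast, hc, ZMod.natCast_zmod_val,
      ← map_mul, ← hu, mul_assoc, Units.inv_mul, mul_one, sub_self]
  have h3 : sym (rep α ⊤) (psi d d_mul d_sm ⊤ (m + 1)) (p ^ m • a - (c * p ^ (m - k)) • b) = 0 := by
    apply K
    rw [map_sub, map_nsmul, map_nsmul, nsmul_eq_mul, nsmul_eq_mul, hw]
    push_cast
    have e : (c : ℤ_[p]) * (p : ℤ_[p]) ^ (m - k) * ((p : ℤ_[p]) ^ k * w) =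
        (p : ℤ_[p]) ^ m * (c * w) := by
      have : (p : ℤ_[p]) ^ m = (p : ℤ_[p]) ^ (m - k) * (p : ℤ_[p]) ^ k := by
        rw [← pow_add, Nat.sub_add_cancel hk]
      rw [this]; ring
    rw [e, ← mul_sub, pow_succ]
    exact mul_dvd_mul_left _ h2
  rw [map_sub, map_nsmul, map_nsmul, hb, smul_zero, sub_zero, ← sym_nsmul_left] at h3
  rw [← h3]
  refine (sym_level (pow_succ p m) (pow_pos hp.out.pos m) χ₁ _ (fun g => ?_) a).symm
  rw [Chr.nsmul_apply, psi_apply]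
  change _ = p ^ m * (PadicInt.toZMod (d g)).val
  rw [← val_toZMod_eq, map_mul, nsmul_eq_mul]
  congr 2
  simp

include D hd K in
theorem dvd_nmr (U : Subgroup Γ) (hU : 𝓤.IsOpen U) (a : ↥(FF α U)) :
    (p : ℤ_[p]) ^ fOf d U ∣ v₀ (nmr α le_top hU a) := by
  have hd' : ∃ g, d g ≠ 0 := by
    obtain ⟨g, hg⟩ := hd
    exact ⟨g, fun h => hg (by rw [h]; exact dvd_zero _)⟩
  apply conv d d_mul d_sm D hd v₀ K
  rw [← cr_sym α le_top hU (psi d d_mul d_sm ⊤ _) (0 : Chr (𝓤.res U) (ZMod (p ^ fOf d U)))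
    (fun g => ?_), sym_zero_left, map_zero]
  rw [Chr.zero_apply, psi_apply, eq_comm, CFData.toZModPow_eq_zero_iff]
  exact fOf_dvd d d_mul hd' hU g g.2

include D hd K in
theorem exists_not_dvd_nmr (U : Subgroup Γ) (hU : 𝓤.IsOpen U) :
    ∃ a : ↥(FF α U), ¬ (p : ℤ_[p]) ^ (fOf d U + 1) ∣ v₀ (nmr α le_top hU a) := by
  have hd' : ∃ g, d g ≠ 0 := by
    obtain ⟨g, hg⟩ := hd
    exact ⟨g, fun h => hg (by rw [h]; exact dvd_zero _)⟩
  have hq : ∀ g : U, ∃ q : ℤ_[p], d g = (p : ℤ_[p]) ^ fOf d U * q := fun g =>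
    fOf_dvd d d_mul hd' hU g g.2
  choose q hq using hq
  have q_mul : ∀ g h, q (g * h) = q g + q h := by
    intro g h
    apply mul_left_cancel₀ (CFData.pow_ne (p := p) (fOf d U))
    rw [mul_add, ← hq, ← hq, ← hq]
    exact d_mul g h
  have q_sm : ∃ W ∈ 𝓤, ∀ u : U, (u : Γ) ∈ W → (p : ℤ_[p]) ∣ q u := by
    obtain ⟨W, hW, h⟩ := d_sm (fOf d U + 1)
    refine ⟨W, hW, fun u hu => ?_⟩
    have h1 := h u hu
    rw [hq, pow_succ] at h1
    exact (mul_dvd_mul_iff_left (CFData.pow_ne (p := p) (fOf d U))).mp h1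
  set χ₁ := psi1 U q q_mul q_sm with hχ₁
  have h1 : χ₁ ≠ 0 := by
    obtain ⟨u, hu, hu'⟩ := fOf_ex d d_mul hd' hU
    intro h
    apply hu'
    have h2 : χ₁ ⟨u, hu⟩ = 0 := by rw [h]; rfl
    have h3 : (p : ℤ_[p]) ∣ q ⟨u, hu⟩ := (CFData.toZMod_eq_zero_iff _).mp h2
    rw [show d u = _ from hq ⟨u, hu⟩, pow_succ]
    exact mul_dvd_mul_left _ h3
  obtain ⟨a, ha⟩ := D.exists_sym_ne_zero hU χ₁ h1
  refine ⟨a, fun hdvd => ha ?_⟩
  have h2 := K _ _ hdvd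
  have h4 : sym (rep α U) (psi d d_mul d_sm U (fOf d U + 1)) a = sym (rep α U) χ₁ a := by
    refine sym_level (pow_succ p (fOf d U)) (pow_pos hp.out.pos _) χ₁ _ (fun g => ?_) a
    rw [psi_apply, hq]
    exact val_toZMod_eq _ _
  rw [← cr_sym α le_top hU (psi d d_mul d_sm ⊤ _) (psi d d_mul d_sm U _)
    (fun g => rfl), h4] at h2
  have h5 := D.inv_cr le_top hU (top_isOpen D) ⟨_, CFData.sym_mem_tor χ₁ a⟩
  have h6 : CFData.crTor le_top hU ⟨_, CFData.sym_mem_tor χ₁ a⟩ = 0 := Subtype.ext h2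
  rw [h6, map_zero, eq_comm] at h5
  have h7 := D.inv_injective hU (h5.trans (map_zero _).symm)
  exact congrArg Subtype.val h7

/-- Class formation data for another `ℤ_p`-extension. -/
noncomputable def alt : CFData p 𝓤 α :=
  CFData.ofTop d d_mul α v₀ (dvd_nmr d d_mul d_sm D hd v₀ K) D.sm d_sm
    (by
      obtain ⟨g, hg⟩ := hd
      exact ⟨g, fun h => hg (by rw [h]; exact dvd_zero _)⟩)
    (exists_not_dvd_nmr d d_mul d_sm D hd v₀ K) D.h1 D.Γ₀ D.Γ₀_open D.Γ₀_normal D.Γ₀_index D.idx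

theorem alt_d : (alt d d_mul d_sm D hd v₀ K).d = d := rfl

theorem alt_v (U : Subgroup Γ) (hU : 𝓤.IsOpen U) (a : ↥(FF α U)) :
    (p : ℤ_[p]) ^ (alt d d_mul d_sm D hd v₀ K).f U * (alt d d_mul d_sm D hd v₀ K).v U a =
      v₀ (nmr α le_top hU a) := by
  exact CFData.ofTop_v d d_mul α v₀ _ _ _ _ _ _ _ _ _ _ _ U hU a

end conv

end AltD

end Fermat.Agent.Coh
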