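import Fermat.Agent.Coh.Rel

/-!
# Class formations: the invariant map on the `p`-torsion of `H²`
-/

set_option autoImplicit false
set_option linter.unusedSectionVars false
set_option linter.style.haveILetI false

namespace Fermat.Agent.Coh

/-- The data of a class formation "at `p`". -/
structure CFData (p : ℕ) [Fact p.Prime] {Γ : Type*} [Group Γ] (𝓤 : Fam Γ) {A : Type*}
    [AddCommGroup A] (α : Representation ℤ Γ A) where
  sm : SmRep 𝓤 α
  /-- the `ℤ_p`-extension -/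
  d : Γ → ℤ_[p]
  d_mul : ∀ g h, d (g * h) = d g + d h
  d_sm : ∀ n : ℕ, ∃ U ∈ 𝓤, ∀ u ∈ U, (p : ℤ_[p]) ^ n ∣ d u
  /-- `d(U) = p ^ f U ℤ_p` -/
  f : Subgroup Γ → ℕ
  f_dvd : ∀ U, 𝓤.IsOpen U → ∀ u ∈ U, (p : ℤ_[p]) ^ (f U) ∣ d u
  f_ex : ∀ U, 𝓤.IsOpen U → ∃ u ∈ U, ¬ (p : ℤ_[p]) ^ (f U + 1) ∣ d u
  /-- the valuations -/
  v : (U : Subgroup Γ) → ↥(FF α U) →+ ℤ_[p]
  v_nm : ∀ (U₁ U₂ : Subgroup Γ) (h : U₁ ≤ U₂) (hU : 𝓤.IsOpen U₁) (b : ↥(FF α U₁)),
    v U₂ (nmr α h hU b) = (p : ℤ_[p]) ^ (f U₁ - f U₂) * v U₁ b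
  v_ex : ∀ U, 𝓤.IsOpen U → ∃ a, ¬ (p : ℤ_[p]) ∣ v U a
  h1 : ∀ U, 𝓤.IsOpen U → ∀ y : HI 𝓤 α U, ∃ c : ℕ, c.Coprime p ∧ c • y = 0
  /-- a subgroup of index prime to `p` -/
  Γ₀ : Subgroup Γ
  Γ₀_open : 𝓤.IsOpen Γ₀
  Γ₀_normal : Γ₀.Normal
  Γ₀_index : Γ₀.index.Coprime p
  idx : ∀ (U₁ U₂ : Subgroup Γ) (h : U₁ ≤ U₂) (hU : 𝓤.IsOpen U₁), U₂ ≤ Γ₀ →
    (U₁.subgroupOf U₂).Normal → U₁.relIndex U₂ = p →
    (LinearMap.range (nmr α h hU)).toAddSubgroup.index = p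

namespace CFData

variable {p : ℕ} [hp : Fact p.Prime] {Γ : Type*} [Group Γ] {𝓤 : Fam Γ} {A : Type*}
    [AddCommGroup A] {α : Representation ℤ Γ A} (D : CFData p 𝓤 α)

theorem p_ne_zero : (p : ℤ_[p]) ≠ 0 := by
  exact_mod_cast hp.out.ne_zero

theorem pow_ne (n : ℕ) : (p : ℤ_[p]) ^ n ≠ 0 := pow_ne_zero _ p_ne_zero

theorem d_one : D.d 1 = 0 := by
  have := D.d_mul 1 1
  simpa using this

theorem d_inv (g : Γ) : D.d g⁻¹ = - D.d g := by
  have := D.d_mul g⁻¹ g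
  rw [inv_mul_cancel, D.d_one] at this
  exact (neg_eq_of_add_eq_zero_left this.symm).symm

theorem d_pow (g : Γ) (n : ℕ) : D.d (g ^ n) = n * D.d g := by
  induction n with
  | zero => simp [D.d_one]
  | succ n ih => rw [pow_succ, D.d_mul, ih]; push_cast; ring

/-- the layers of the `ℤ_p`-extension -/
def lev (n : ℕ) : Subgroup Γ where
  carrier := {g | (p : ℤ_[p]) ^ n ∣ D.d g}
  one_mem' := by
    change (p : ℤ_[p]) ^ n ∣ D.d 1
    rw [D.d_one]
    exact dvd_zero _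
  mul_mem' {a b} ha hb := by
    change (p : ℤ_[p]) ^ n ∣ D.d (a * b)
    rw [D.d_mul]
    exact dvd_add ha hb
  inv_mem' {a} ha := by
    change (p : ℤ_[p]) ^ n ∣ D.d a⁻¹
    rw [D.d_inv]
    exact (dvd_neg).mpr ha

theorem mem_lev {n : ℕ} {g : Γ} : g ∈ D.lev n ↔ (p : ℤ_[p]) ^ n ∣ D.d g := Iff.rfl

theorem lev_normal (n : ℕ) : (D.lev n).Normal := ⟨fun u hu g => by
  rw [mem_lev] at hu ⊢
  rw [D.d_mul, D.d_mul, D.d_inv]
  have : D.d g + D.d u + -D.d g = D.d u := by ring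
  rwa [this]⟩

theorem lev_isOpen (n : ℕ) : 𝓤.IsOpen (D.lev n) := by
  obtain ⟨U, hU, h⟩ := D.d_sm n
  exact ⟨U, hU, h⟩

theorem lev_anti {m n : ℕ} (h : m ≤ n) : D.lev n ≤ D.lev m := fun _ hg =>
  (pow_dvd_pow _ h).trans hg

variable {T U : Subgroup Γ} (hT : 𝓤.IsOpen T) (hU : 𝓤.IsOpen U)

include hT in
theorem f_unique {n : ℕ} (h1 : ∀ u ∈ T, (p : ℤ_[p]) ^ n ∣ D.d u)
    (h2 : ∃ u ∈ T, ¬ (p : ℤ_[p]) ^ (n + 1) ∣ D.d u) : D.f T = n := by
  rcases lt_trichotomy (D.f T) n with h | h | h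
  · obtain ⟨u, hu, hu'⟩ := D.f_ex T hT
    exact absurd ((pow_dvd_pow _ (by omega)).trans (h1 u hu)) hu'
  · exact h
  · obtain ⟨u, hu, hu'⟩ := h2
    exact absurd ((pow_dvd_pow _ (by omega)).trans (D.f_dvd T hT u hu)) hu'

include hT hU in
theorem f_mono (h : U ≤ T) : D.f T ≤ D.f U := by
  by_contra hlt
  obtain ⟨u, hu, hu'⟩ := D.f_ex U hU
  exact absurd ((pow_dvd_pow _ (by omega)).trans (D.f_dvd T hT u (h hu))) hu'

/-- the character before reduction -/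
noncomputable def q (g : T) : ℤ_[p] := (D.f_dvd T hT g g.2).choose

theorem q_spec (g : T) : D.d g = (p : ℤ_[p]) ^ (D.f T) * D.q hT g :=
  (D.f_dvd T hT g g.2).choose_spec

theorem q_mul (g h : T) : D.q hT (g * h) = D.q hT g + D.q hT h := by
  apply mul_left_cancel₀ (pow_ne (p := p) (D.f T))
  rw [mul_add, ← q_spec, ← q_spec, ← q_spec]
  exact D.d_mul g h

theorem dvd_q_iff (n : ℕ) (g : T) : (p : ℤ_[p]) ^ n ∣ D.q hT g ↔ (g : Γ) ∈ D.lev (D.f T + n) := by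
  rw [mem_lev, q_spec D hT, pow_add]
  exact (mul_dvd_mul_iff_left (pow_ne (p := p) (D.f T))).symm

theorem toZModPow_eq_zero_iff (n : ℕ) (x : ℤ_[p]) :
    PadicInt.toZModPow n x = 0 ↔ (p : ℤ_[p]) ^ n ∣ x := by
  rw [← RingHom.mem_ker, PadicInt.ker_toZModPow, Ideal.mem_span_singleton]

instance (n : ℕ) : NeZero (p ^ n) := ⟨pow_ne_zero _ hp.out.ne_zero⟩

/-- the characters of the `ℤ_p`-extension -/
noncomputable def chi (n : ℕ) : Chr (𝓤.res T) (ZMod (p ^ n)) :=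
  ⟨fun g => PadicInt.toZModPow n (D.q hT g), by
    obtain ⟨W, hW, hWn⟩ := D.lev_isOpen (D.f T + n)
    refine ⟨_, ⟨W, hW, rfl⟩, fun g u hu => ?_⟩
    simp only
    rw [q_mul, map_add, (toZModPow_eq_zero_iff n (D.q hT u)).mpr, add_zero]
    rw [dvd_q_iff]
    exact hWn hu, fun g h => by simp only; rw [q_mul, map_add]⟩

theorem chi_apply (n : ℕ) (g : T) : D.chi hT n g = PadicInt.toZModPow n (D.q hT g) := rfl

theorem chi_eq_zero_iff (n : ℕ) (g : T) :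
    D.chi hT n g = 0 ↔ (g : Γ) ∈ D.lev (D.f T + n) := by
  rw [chi_apply, toZModPow_eq_zero_iff, dvd_q_iff]

theorem chi_pow (n : ℕ) (g : T) (k : ℕ) : D.chi hT n (g ^ k) = k • D.chi hT n g := by
  induction k with
  | zero => simp [(D.chi hT n).map_one]
  | succ k ih => rw [pow_succ, (D.chi hT n).map_mul, ih, add_smul, one_smul]

theorem exists_chi_eq_one (n : ℕ) : ∃ σ : T, D.chi hT n σ = 1 := by
  obtain ⟨u, hu, hu'⟩ := D.f_ex T hT
  have h1 : ¬ (p : ℤ_[p]) ^ 1 ∣ D.q hT ⟨u, hu⟩ := by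
    rw [dvd_q_iff]
    exact hu'
  rw [pow_one] at h1
  have h2 : IsUnit (D.q hT ⟨u, hu⟩) := by
    rw [PadicInt.isUnit_iff]
    by_contra hne
    apply h1
    rw [← PadicInt.norm_lt_one_iff_dvd]
    exact lt_of_le_of_ne (PadicInt.norm_le_one _) hne
  have h3 : IsUnit (D.chi hT n ⟨u, hu⟩) := h2.map (PadicInt.toZModPow n)
  obtain ⟨c, hc⟩ := h3
  refine ⟨⟨u, hu⟩ ^ ((c⁻¹ : (ZMod (p ^ n))ˣ) : ZMod (p ^ n)).val, ?_⟩
  rw [chi_pow, ← hc, nsmul_eq_mul, ZMod.natCast_zmod_val, Units.inv_mul]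

/-- the layer `T_n` -/
def lay (T : Subgroup Γ) (n : ℕ) : Subgroup Γ := T ⊓ D.lev (D.f T + n)

theorem lay_le (T : Subgroup Γ) (n : ℕ) : D.lay T n ≤ T := inf_le_left

include hT in
theorem lay_isOpen (n : ℕ) : 𝓤.IsOpen (D.lay T n) := hT.inf (D.lev_isOpen _)

theorem mem_lay {n : ℕ} {g : Γ} : g ∈ D.lay T n ↔ g ∈ T ∧ g ∈ D.lev (D.f T + n) := Iff.rfl

instance lay_normal (n : ℕ) : ((D.lay T n).subgroupOf T).Normal := by
  have := D.lev_normal (D.f T + n)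
  have h : (D.lay T n).subgroupOf T = (D.lev (D.f T + n)).subgroupOf T := by
    ext g
    simp [Subgroup.mem_subgroupOf, mem_lay]
  rw [h]
  infer_instance

theorem chi_eq_zero_iff_lay (n : ℕ) (g : T) : D.chi hT n g = 0 ↔ (g : Γ) ∈ D.lay T n := by
  rw [chi_eq_zero_iff, mem_lay]
  exact ⟨fun h => ⟨g.2, h⟩, fun h => h.2⟩

include hT in
theorem f_lay (n : ℕ) : D.f (D.lay T n) = D.f T + n := by
  refine D.f_unique (D.lay_isOpen hT n) (fun u hu => hu.2) ?_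
  obtain ⟨u, hu, hu'⟩ := D.f_ex T hT
  have h0 : D.d (u ^ (p ^ n)) = (p : ℤ_[p]) ^ n * D.d u := by rw [d_pow]; push_cast; ring
  refine ⟨u ^ (p ^ n), ⟨T.pow_mem hu _, ?_⟩, ?_⟩
  · change _ ∈ D.lev _
    rw [mem_lev, h0, add_comm, pow_add]
    exact mul_dvd_mul_left _ (D.f_dvd T hT u hu)
  · rw [h0, show D.f T + n + 1 = n + (D.f T + 1) by ring, pow_add,
      mul_dvd_mul_iff_left (pow_ne (p := p) n)]
    exact hu'

theorem zpowers_lay {n : ℕ} (σ : T) (hσ : D.chi hT n σ = 1) (x : T ⧸ (D.lay T n).subgroupOf T) :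
    x ∈ Subgroup.zpowers (σ : T ⧸ (D.lay T n).subgroupOf T) := by
  obtain ⟨g, rfl⟩ := QuotientGroup.mk_surjective x
  refine ⟨((D.chi hT n g).val : ℤ), ?_⟩
  change (σ : T ⧸ (D.lay T n).subgroupOf T) ^ _ = _
  rw [zpow_natCast, ← QuotientGroup.mk_pow, QuotientGroup.eq, Subgroup.mem_subgroupOf,
    ← chi_eq_zero_iff_lay D hT, Chr.map_mul, Chr.map_inv, chi_pow, hσ, nsmul_one,
    ZMod.natCast_zmod_val, neg_add_cancel]

include hT in
theorem relIndex_lay (n : ℕ) : (D.lay T n).relIndex T = p ^ n := by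
  let F : T →* Multiplicative (ZMod (p ^ n)) :=
    { toFun := fun g => Multiplicative.ofAdd (D.chi hT n g)
      map_one' := by rw [Chr.map_one]; rfl
      map_mul' := fun g h => by rw [Chr.map_mul]; rfl }
  have hker : F.ker = (D.lay T n).subgroupOf T := by
    ext g
    rw [MonoidHom.mem_ker, Subgroup.mem_subgroupOf, ← chi_eq_zero_iff_lay D hT]
    exact Iff.rfl
  have hsurj : Function.Surjective F := by
    intro y
    obtain ⟨σ, hσ⟩ := D.exists_chi_eq_one hT n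
    refine ⟨σ ^ (Multiplicative.toAdd y).val, ?_⟩
    change Multiplicative.ofAdd (D.chi hT n (σ ^ _)) = y
    rw [chi_pow, hσ, nsmul_one, ZMod.natCast_zmod_val]
    rfl
  change ((D.lay T n).subgroupOf T).index = _
  rw [← hker, Subgroup.index_ker, MonoidHom.range_eq_top.mpr hsurj,
    Nat.card_congr (Subgroup.topEquiv (G := Multiplicative (ZMod (p ^ n)))).toEquiv]
  exact Nat.card_zmod _

/-- reduction modulo powers of `p` -/
theorem val_toZModPow_mul (r n : ℕ) (y : ℤ_[p]) :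
    (PadicInt.toZModPow (r + n) ((p : ℤ_[p]) ^ r * y)).val =
      p ^ r * (PadicInt.toZModPow n y).val := by
  set a := (PadicInt.toZModPow n y).val with ha
  have h1 : (p : ℤ_[p]) ^ n ∣ y - (a : ℤ_[p]) := by
    rw [← toZModPow_eq_zero_iff, map_sub, map_natCast, ha, ZMod.natCast_zmod_val, sub_self]
  have h2 : (p : ℤ_[p]) ^ (r + n) ∣ (p : ℤ_[p]) ^ r * y - ((p ^ r * a : ℕ) : ℤ_[p]) := by
    have : (p : ℤ_[p]) ^ r * y - ((p ^ r * a : ℕ) : ℤ_[p]) =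
      (p : ℤ_[p]) ^ r * (y - (a : ℤ_[p])) := by push_cast; ring
    rw [this, pow_add]
    exact mul_dvd_mul_left _ h1
  rw [← toZModPow_eq_zero_iff, map_sub, map_natCast, sub_eq_zero] at h2
  rw [h2, ZMod.val_natCast, Nat.mod_eq_of_lt]
  rw [pow_add]
  exact Nat.mul_lt_mul_of_pos_left (ZMod.val_lt _) (pow_pos hp.out.pos _)

theorem isUnit_of_not_dvd {x : ℤ_[p]} (h : ¬ (p : ℤ_[p]) ∣ x) : IsUnit x := by
  rw [PadicInt.isUnit_iff]
  by_contra hne
  apply h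
  rw [← PadicInt.norm_lt_one_iff_dvd]
  exact lt_of_le_of_ne (PadicInt.norm_le_one _) hne

theorem q_of_le {V T : Subgroup Γ} (h : V ≤ T) (hV : 𝓤.IsOpen V) (hT : 𝓤.IsOpen T) {r : ℕ}
    (hf : D.f V = D.f T + r) (g : V) :
    D.q hT ⟨g, h g.2⟩ = (p : ℤ_[p]) ^ r * D.q hV g := by
  apply mul_left_cancel₀ (pow_ne (p := p) (D.f T))
  rw [← q_spec, ← mul_assoc, ← pow_add, ← hf, ← q_spec]

/-- change of level for the characters of the `ℤ_p`-extension -/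
theorem sym_level_chi {V T : Subgroup Γ} (h : V ≤ T) (hV : 𝓤.IsOpen V) (hT : 𝓤.IsOpen T)
    (r n : ℕ) (hf : D.f V = D.f T + r) (χ' : Chr (𝓤.res V) (ZMod (p ^ (r + n))))
    (hχ' : ∀ g : V, χ' g = D.chi hT (r + n) ⟨g, h g.2⟩) (b : ↥(FF α V)) :
    sym (rep α V) χ' b = sym (rep α V) (D.chi hV n) b :=
  sym_level (pow_add p r n) (pow_pos hp.out.pos r) (D.chi hV n) χ' (fun g => by
    rw [hχ', chi_apply, chi_apply, D.q_of_le h hV hT hf, val_toZModPow_mul]) b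

theorem index_aux {G : Type*} [AddCommGroup G] (N K : AddSubgroup G) (h : N ≤ K)
    (hN : N.index.Prime) (hK : K ≠ ⊤) : K ≤ N := by
  have h1 := AddSubgroup.relIndex_mul_index h
  rcases (Nat.dvd_prime hN).mp ⟨_, (by rw [mul_comm]; exact h1.symm)⟩ with h2 | h2
  · exact absurd (AddSubgroup.index_eq_one.mp h2) hK
  · rw [h2] at h1
    have h3 : N.relIndex K = 1 := by
      have := hN.pos
      nlinarith [h1]
    exact AddSubgroup.relIndex_eq_one.mp h3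

theorem exists_nmr_of_dvd (hT0 : T ≤ D.Γ₀) (b : ↥(FF α T)) (hb : (p : ℤ_[p]) ∣ D.v T b) :
    ∃ b1, nmr α (D.lay_le T 1) (D.lay_isOpen hT 1) b1 = b := by
  let K : AddSubgroup ↥(FF α T) :=
    { carrier := {a | (p : ℤ_[p]) ∣ D.v T a}
      zero_mem' := by
        change (p : ℤ_[p]) ∣ D.v T 0
        rw [map_zero]; exact dvd_zero _
      add_mem' := fun {a b} ha hb => by
        change (p : ℤ_[p]) ∣ D.v T (a + b)
        rw [map_add]; exact dvd_add ha hb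
      neg_mem' := fun {a} ha => by
        change (p : ℤ_[p]) ∣ D.v T (-a)
        rw [map_neg]; exact (dvd_neg).mpr ha }
  have h1 := D.idx _ _ (D.lay_le T 1) (D.lay_isOpen hT 1) hT0 inferInstance
    (by rw [relIndex_lay D hT, pow_one])
  have h2 : (LinearMap.range (nmr α (D.lay_le T 1) (D.lay_isOpen hT 1))).toAddSubgroup ≤ K := by
    rintro _ ⟨b1, rfl⟩
    change (p : ℤ_[p]) ∣ D.v T _
    rw [D.v_nm, f_lay D hT, Nat.add_sub_cancel_left, pow_one]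
    exact dvd_mul_right _ _
  have h3 : K ≠ ⊤ := by
    intro h
    obtain ⟨a, ha⟩ := D.v_ex T hT
    have : a ∈ K := by rw [h]; exact AddSubgroup.mem_top _
    exact ha this
  exact index_aux _ K h2 (by rw [h1]; exact hp.out) h3 hb

/-- (P1), for small subgroups -/
theorem sy_eq_zero_of_dvd₀ (n : ℕ) : ∀ {T : Subgroup Γ} (hT : 𝓤.IsOpen T) (_ : T ≤ D.Γ₀)
    (b : ↥(FF α T)) (_ : (p : ℤ_[p]) ^ n ∣ D.v T b), sym (rep α T) (D.chi hT n) b = 0 := by
  induction n with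
  | zero =>
    intro T hT hT0 b hb
    have h1 : D.chi hT 0 = 0 := by
      apply Chr.ext
      intro g
      have : Subsingleton (ZMod (p ^ 0)) := by rw [pow_zero]; infer_instance
      exact Subsingleton.elim _ _
    rw [h1, sym_zero_left]
  | succ n ih =>
    intro T hT hT0 b hb
    rw [Nat.add_comm n 1] at hb ⊢
    obtain ⟨b1, rfl⟩ := D.exists_nmr_of_dvd hT hT0 b ((dvd_pow_self _ (by omega)).trans hb)
    rw [D.v_nm, f_lay D hT, Nat.add_sub_cancel_left, pow_add,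
      mul_dvd_mul_iff_left (pow_ne (p := p) 1)] at hb
    have h1 := ih (D.lay_isOpen hT 1) ((D.lay_le T 1).trans hT0) b1 hb
    rw [← cr_sym α (D.lay_le T 1) (D.lay_isOpen hT 1) (D.chi hT (1 + n))
      ((D.chi hT (1 + n)).rs (D.lay_le T 1)) (fun g => rfl),
      D.sym_level_chi (D.lay_le T 1) (D.lay_isOpen hT 1) hT 1 n (f_lay D hT 1) _
      (fun g => rfl), h1, map_zero]

/-- (P2) -/
theorem dvd_of_sy_eq_zero (n : ℕ) (b : ↥(FF α T)) (hb : sym (rep α T) (D.chi hT n) b = 0) :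
    (p : ℤ_[p]) ^ n ∣ D.v T b := by
  obtain ⟨σ, hσ⟩ := D.exists_chi_eq_one hT n
  have h1 := cycr_eq_neg_sym (D.lay_le T n) (D.lay_isOpen hT n) σ (D.zpowers_lay hT σ hσ) D.sm
    (D.chi hT n) (D.chi_eq_zero_iff_lay hT n) hσ b
  rw [hb, neg_zero] at h1
  obtain ⟨b', rfl⟩ := exists_nmr_eq (D.lay_le T n) (D.lay_isOpen hT n) σ (D.zpowers_lay hT σ hσ)
    D.sm (D.h1 _ (D.lay_isOpen hT n)) (relIndex_lay D hT n) b h1
  rw [D.v_nm, f_lay D hT, Nat.add_sub_cancel_left]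
  exact dvd_mul_right _ _

/-- (P3) -/
theorem exists_sy_of_rs (n : ℕ) (x : HH 𝓤 α T) (hx : rs 𝓤 α (D.lay_le T n) x = 0) {j : ℕ}
    (hpx : p ^ j • x = 0) : ∃ a, sym (rep α T) (D.chi hT n) a = x := by
  obtain ⟨σ, hσ⟩ := D.exists_chi_eq_one hT n
  obtain ⟨a, ha⟩ := exists_cycr_eq (D.lay_le T n) (D.lay_isOpen hT n) σ (D.zpowers_lay hT σ hσ)
    D.sm (D.h1 _ (D.lay_isOpen hT n)) x hx hpx
  rw [cycr_eq_neg_sym (D.lay_le T n) (D.lay_isOpen hT n) σ (D.zpowers_lay hT σ hσ) D.sm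
    (D.chi hT n) (D.chi_eq_zero_iff_lay hT n) hσ a] at ha
  exact ⟨-a, by rw [map_neg, ha]⟩

include hT in
theorem exists_v (w : ℤ_[p]) : ∃ a0, (p : ℤ_[p]) ∣ D.v T a0 - w := by
  obtain ⟨a1, ha1⟩ := D.v_ex T hT
  obtain ⟨u, hu⟩ := isUnit_of_not_dvd ha1
  refine ⟨(PadicInt.toZModPow 1 (w * ((u⁻¹ : ℤ_[p]ˣ) : ℤ_[p]))).val • a1, ?_⟩
  rw [map_nsmul, nsmul_eq_mul, ← hu, ← pow_one (p : ℤ_[p]), ← toZModPow_eq_zero_iff, map_sub,
    map_mul, map_natCast, ZMod.natCast_zmod_val, ← map_mul, mul_assoc, Units.inv_mul, mul_one,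
    sub_self]

/-- (P4') for a subgroup satisfying (P1) -/
theorem sy_succ_aux (hP1 : ∀ (n : ℕ) (b : ↥(FF α T)), (p : ℤ_[p]) ^ n ∣ D.v T b →
      sym (rep α T) (D.chi hT n) b = 0) (r : ℕ) (a a0 : ↥(FF α T)) (w : ℤ_[p])
    (hw : D.v T a = (p : ℤ_[p]) ^ r * w) (h0 : (p : ℤ_[p]) ∣ D.v T a0 - w) :
    sym (rep α T) (D.chi hT (r + 1)) a = sym (rep α T) (D.chi hT 1) a0 := by
  have h1 : sym (rep α T) (D.chi hT (r + 1)) (a - p ^ r • a0) = 0 := by
    apply hP1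
    rw [map_sub, map_nsmul, nsmul_eq_mul, hw]
    push_cast
    rw [← mul_sub, pow_add, pow_one]
    apply mul_dvd_mul_left
    rw [← neg_sub, dvd_neg]
    exact h0
  rw [map_sub, sub_eq_zero, map_nsmul, ← sym_nsmul_left] at h1
  rw [h1]
  refine sym_level (pow_add p r 1) (pow_pos hp.out.pos r) (D.chi hT 1) _ (fun g => ?_) a0
  rw [Chr.nsmul_apply, chi_apply, chi_apply, ← val_toZModPow_mul, map_mul, nsmul_eq_mul]
  congr 2
  push_cast
  rw [map_pow, map_natCast]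

theorem rs_zero_of_le {U₁ U₂ U₃ : Subgroup Γ} (h : U₁ ≤ U₂) (h' : U₂ ≤ U₃) (x : HH 𝓤 α U₃)
    (hx : rs 𝓤 α h' x = 0) : rs 𝓤 α (h.trans h') x = 0 := by
  rw [← rs_rs 𝓤 α h h', hx, map_zero]

/-- (P4) for a subgroup satisfying (P1) -/
theorem exists_sy_aux (hP1 : ∀ (n : ℕ) (b : ↥(FF α T)), (p : ℤ_[p]) ^ n ∣ D.v T b →
      sym (rep α T) (D.chi hT n) b = 0) (x : HH 𝓤 α T) (hpx : p • x = 0) (n : ℕ)
    (hx : rs 𝓤 α (D.lay_le T n) x = 0) : ∃ a, sym (rep α T) (D.chi hT 1) a = x := by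
  have hx' : rs 𝓤 α (D.lay_le T (n + 1)) x = 0 :=
    rs_zero_of_le (inf_le_inf le_rfl (D.lev_anti (by omega))) (D.lay_le T n) x hx
  obtain ⟨a, rfl⟩ := D.exists_sy_of_rs hT (n + 1) x hx' (j := 1) (by rw [pow_one]; exact hpx)
  rw [← map_nsmul] at hpx
  have h1 := D.dvd_of_sy_eq_zero hT (n + 1) _ hpx
  rw [map_nsmul, nsmul_eq_mul, pow_succ', mul_dvd_mul_iff_left p_ne_zero] at h1
  obtain ⟨w, hw⟩ := h1
  obtain ⟨a0, ha0⟩ := D.exists_v hT w
  exact ⟨a0, (D.sy_succ_aux hT hP1 n a a0 w hw ha0).symm⟩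

theorem exists_zsmul_of_index {G : Type*} [AddCommGroup G] (N : AddSubgroup G)
    (hN : N.index = p) (z : G) (hz : z ∉ N) (y : G) : ∃ k : ℤ, y - k • z ∈ N := by
  have h1 : Nat.card (G ⧸ N) = p := hN
  have h2 : ((z : G) : G ⧸ N) ≠ 0 := by
    rw [Ne, QuotientAddGroup.eq_zero_iff]
    exact hz
  obtain ⟨k, hk⟩ := mem_zmultiples_of_prime_card h1 h2 (g' := ((y : G) : G ⧸ N))
  refine ⟨k, ?_⟩
  rw [← QuotientAddGroup.eq_zero_iff, QuotientAddGroup.mk_sub, QuotientAddGroup.mk_zsmul]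
  rw [sub_eq_zero]
  exact hk.symm

theorem zpowers_of_relIndex {T' T : Subgroup Γ} [(T'.subgroupOf T).Normal]
    (hidx : T'.relIndex T = p) :
    ∃ σ : T, ∀ x : T ⧸ T'.subgroupOf T, x ∈ Subgroup.zpowers (σ : T ⧸ T'.subgroupOf T) := by
  have h1 : Nat.card (T ⧸ T'.subgroupOf T) = p := hidx
  have hfin : Finite (T ⧸ T'.subgroupOf T) := Nat.finite_of_card_ne_zero (by
    rw [h1]; exact hp.out.ne_zero)
  have hnt : Nontrivial (T ⧸ T'.subgroupOf T) := Finite.one_lt_card_iff_nontrivial.mp (by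
    rw [h1]; exact hp.out.one_lt)
  obtain ⟨x, hx⟩ := exists_ne (1 : T ⧸ T'.subgroupOf T)
  obtain ⟨σ, rfl⟩ := QuotientGroup.mk_surjective x
  exact ⟨σ, fun y => mem_zpowers_of_prime_card h1 hx⟩

/-- (P5), the step lemma -/
theorem step {T' : Subgroup Γ} (h : T' ≤ T) (hT' : 𝓤.IsOpen T') (hN : (T'.subgroupOf T).Normal)
    (hidx : T'.relIndex T = p) (hT0 : T ≤ D.Γ₀) (y : HH 𝓤 α T) (hpy : p • y = 0)
    (hy : rs 𝓤 α h y = 0) : ∃ a, sym (rep α T) (D.chi hT 1) a = y := by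
  obtain ⟨σ, hσ⟩ := zpowers_of_relIndex hidx
  obtain ⟨a1, ha1⟩ := D.v_ex T hT
  set z := sym (rep α T) (D.chi hT 1) a1 with hz
  have hz0 : z ≠ 0 := fun h0 => ha1 (by
    have := D.dvd_of_sy_eq_zero hT 1 a1 h0
    rwa [pow_one] at this)
  have hpz : p • z = 0 := by
    rw [hz, ← map_nsmul]
    apply D.sy_eq_zero_of_dvd₀ 1 hT hT0
    rw [map_nsmul, nsmul_eq_mul, pow_one]
    exact dvd_mul_right _ _
  have hrz : rs 𝓤 α h z = 0 := by
    let a1' : ↥(FF α T') := (incMor 𝓤 α h).mapH0 a1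
    rcases (D.f_mono hT hT' h).lt_or_eq with hlt | heq
    · rw [hz, rs_sym α h (D.chi hT 1) 0 (fun g => ?_) a1 a1' rfl, sym_zero_left]
      rw [Chr.zero_apply, eq_comm, chi_eq_zero_iff, mem_lev]
      exact (pow_dvd_pow _ hlt).trans (D.f_dvd T' hT' g g.2)
    · rw [hz, rs_sym α h (D.chi hT 1) (D.chi hT' 1) (fun g => ?_) a1 a1' rfl]
      · apply D.sy_eq_zero_of_dvd₀ 1 hT' (h.trans hT0)
        have h2 := D.v_nm T' T h hT' a1'
        rw [nmr_of_mem α h hT' a1 a1' rfl, hidx, heq, Nat.sub_self, pow_zero, one_mul,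
          map_nsmul, nsmul_eq_mul] at h2
        rw [← h2, pow_one]
        exact dvd_mul_right _ _
      · rw [chi_apply, chi_apply, D.q_of_le h hT' hT (r := 0) (by rw [add_zero, heq]), pow_zero,
          one_mul]
  obtain ⟨az, haz⟩ := exists_cycr_eq h hT' σ hσ D.sm (D.h1 T' hT') z hrz (n := 1)
    (by rw [pow_one]; exact hpz)
  obtain ⟨ay, hay⟩ := exists_cycr_eq h hT' σ hσ D.sm (D.h1 T' hT') y hy (n := 1)
    (by rw [pow_one]; exact hpy)
  have hnot : az ∉ (LinearMap.range (nmr α h hT')).toAddSubgroup := by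
    rintro ⟨b, hb⟩
    apply hz0
    rw [← haz, ← hb]
    exact cycr_nmr h hT' σ hσ D.sm b
  obtain ⟨k, b, hb⟩ := exists_zsmul_of_index _ (D.idx T' T h hT' hT0 hN hidx) az hnot ay
  refine ⟨k • a1, ?_⟩
  rw [map_zsmul, ← hz, ← haz, ← hay, ← map_zsmul, eq_comm, ← sub_eq_zero, ← map_sub, ← hb]
  exact cycr_nmr h hT' σ hσ D.sm b

theorem relIndex_inf_dvd {S T N : Subgroup Γ} (h : S ≤ T) (hN : N.Normal) (_hS : S.FiniteIndex)
    (hNf : N.FiniteIndex) : (S ⊓ N).relIndex (T ⊓ N) ∣ S.relIndex T := by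
  have e1 := Subgroup.relIndex_mul_relIndex (S ⊓ N) S T inf_le_left h
  have e2 := Subgroup.relIndex_mul_relIndex (S ⊓ N) (T ⊓ N) T (inf_le_inf h le_rfl) inf_le_left
  rw [Subgroup.inf_relIndex_left] at e1
  rw [Subgroup.inf_relIndex_left T N] at e2
  have e3 := Subgroup.relIndex_mul_relIndex N (S ⊔ N) (T ⊔ N) le_sup_right (sup_le_sup h le_rfl)
  rw [Subgroup.relIndex_sup_right, Subgroup.relIndex_sup_right] at e3
  have hne : N.relIndex S ≠ 0 := by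
    have : (N.subgroupOf S).FiniteIndex := inferInstance
    exact this.index_ne_zero
  rw [← e2, ← e3] at e1
  have e4 : N.relIndex S * S.relIndex T =
      N.relIndex S * ((S ⊓ N).relIndex (T ⊓ N) * (S ⊔ N).relIndex (T ⊔ N)) := by
    rw [e1]; ring
  have e5 := Nat.eq_of_mul_eq_mul_left (Nat.pos_of_ne_zero hne) e4
  exact ⟨_, e5⟩

theorem normal_inf {S T N : Subgroup Γ} (hST : (S.subgroupOf T).Normal) :
    ((S ⊓ N).subgroupOf (T ⊓ N)).Normal := ⟨fun u hu g => by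
  rw [Subgroup.mem_subgroupOf] at hu ⊢
  have h1 := hST.conj_mem ⟨u, u.2.1⟩ (Subgroup.mem_subgroupOf.mpr hu.1) ⟨g, g.2.1⟩
  exact ⟨h1, N.mul_mem (N.mul_mem g.2.2 u.2.2) (N.inv_mem g.2.2)⟩⟩

/-- (P6), `p`-group case -/
theorem pgroup_case (k : ℕ) : ∀ {T W : Subgroup Γ} (_ : 𝓤.IsOpen T) (_ : 𝓤.IsOpen W)
    (h : W ≤ T) (_ : (W.subgroupOf T).Normal) (_ : W.relIndex T = p ^ k) (_ : T ≤ D.Γ₀)
    (x : HH 𝓤 α T) (_ : p • x = 0) (_ : rs 𝓤 α h x = 0),
    ∃ n, rs 𝓤 α (inf_le_left : T ⊓ D.lev n ≤ T) x = 0 := by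
  induction k with
  | zero =>
    intro T W hT hW h hN hk hT0 x hpx hx
    rw [pow_zero, Subgroup.relIndex_eq_one] at hk
    obtain rfl : W = T := le_antisymm h hk
    rw [rs_refl] at hx
    exact ⟨0, by rw [hx, map_zero]⟩
  | succ k ih =>
    intro T W hT hW h hN hk hT0 x hpx hx
    -- the finite `p`-group quotient
    have hfi : (W.subgroupOf T).FiniteIndex := ⟨by
      change W.relIndex T ≠ 0
      rw [hk]; exact pow_ne_zero _ hp.out.ne_zero⟩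
    have hcard : Nat.card (T ⧸ W.subgroupOf T) = p ^ (k + 1) := hk
    have hfin : Finite (T ⧸ W.subgroupOf T) := Nat.finite_of_card_ne_zero (by
      rw [hcard]; exact pow_ne_zero _ hp.out.ne_zero)
    obtain ⟨Q, hQ⟩ := Sylow.exists_subgroup_card_pow_prime p
      (G := T ⧸ W.subgroupOf T) (n := k) (by rw [hcard]; exact pow_dvd_pow _ (by omega))
    have hQi : Q.index = p := by
      have h1 := Subgroup.card_mul_index Q
      rw [hQ, hcard, pow_succ] at h1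
      exact Nat.eq_of_mul_eq_mul_left (pow_pos hp.out.pos k) h1
    have hQn : Q.Normal := by
      apply Subgroup.normal_of_index_eq_minFac_card
      rw [hQi, hcard, hp.out.pow_minFac (by omega)]
    set V' : Subgroup T := Q.comap (QuotientGroup.mk' (W.subgroupOf T)) with hV'
    have hV'n : V'.Normal := inferInstance
    have hV'i : V'.index = p := by
      rw [hV', Subgroup.index_comap_of_surjective _ (QuotientGroup.mk'_surjective _), hQi]
    set V : Subgroup Γ := V'.map T.subtype with hV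
    have hVsub : V.subgroupOf T = V' := by
      rw [hV]
      exact Subgroup.comap_map_eq_self_of_injective Subtype.val_injective _
    have hVT : V ≤ T := by
      rintro _ ⟨g, _, rfl⟩
      exact g.2
    have hWV : W ≤ V := by
      intro g hg
      refine ⟨⟨g, h hg⟩, ?_, rfl⟩
      change QuotientGroup.mk' (W.subgroupOf T) ⟨g, h hg⟩ ∈ Q
      have : QuotientGroup.mk' (W.subgroupOf T) ⟨g, h hg⟩ = 1 := by
        rw [QuotientGroup.mk'_apply, QuotientGroup.eq_one_iff, Subgroup.mem_subgroupOf]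
        exact hg
      rw [this]
      exact Q.one_mem
    have hVn : (V.subgroupOf T).Normal := by rw [hVsub]; exact hV'n
    have hVi : V.relIndex T = p := by
      change (V.subgroupOf T).index = p
      rw [hVsub, hV'i]
    have hVo : 𝓤.IsOpen V := hW.mono hWV
    have hWi : W.relIndex V = p ^ k := by
      have h1 := Subgroup.relIndex_mul_relIndex W V T hWV hVT
      rw [hVi, hk, pow_succ] at h1
      exact Nat.eq_of_mul_eq_mul_right hp.out.pos h1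
    have hWn : (W.subgroupOf V).Normal := ⟨fun u hu g => by
      rw [Subgroup.mem_subgroupOf] at hu ⊢
      exact hN.conj_mem ⟨u, hVT u.2⟩ (Subgroup.mem_subgroupOf.mpr hu) ⟨g, hVT g.2⟩⟩
    obtain ⟨n, hn⟩ := ih hVo hW hWV hWn hWi (hVT.trans hT0) (rs 𝓤 α hVT x)
      (by rw [← map_nsmul, hpx, map_zero]) (by rw [rs_rs]; exact hx)
    rw [rs_rs] at hn
    -- the step
    set Tn := T ⊓ D.lev n with hTn
    set Vn := V ⊓ D.lev n with hVn'
    have hle : Vn ≤ Tn := inf_le_inf hVT le_rfl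
    have hTno : 𝓤.IsOpen Tn := hT.inf (D.lev_isOpen n)
    have hVno : 𝓤.IsOpen Vn := hVo.inf (D.lev_isOpen n)
    set y := rs 𝓤 α (inf_le_left : Tn ≤ T) x with hy
    have hy0 : rs 𝓤 α hle y = 0 := by rw [hy, rs_rs]; exact hn
    have hpy : p • y = 0 := by rw [hy, ← map_nsmul, hpx, map_zero]
    have hdvd := relIndex_inf_dvd hVT (D.lev_normal n) hVo.finiteIndex (D.lev_isOpen n).finiteIndex
    rw [hVi, Nat.dvd_prime hp.out] at hdvd
    rcases hdvd with h1 | h1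
    · rw [Subgroup.relIndex_eq_one] at h1
      refine ⟨n, ?_⟩
      exact rs_zero_of_le h1 _ x hn
    · obtain ⟨a, ha⟩ := D.step hTno hle hVno (normal_inf hVn) h1 (inf_le_left.trans hT0) y hpy hy0
      refine ⟨max n (D.f Tn + 1), ?_⟩
      have h2 : rs 𝓤 α (D.lay_le Tn 1) y = 0 := by
        rw [← ha, rs_sym α (D.lay_le Tn 1) (D.chi hTno 1) 0 (fun g => ?_) a
          ((incMor 𝓤 α (D.lay_le Tn 1)).mapH0 a) rfl, sym_zero_left]
        rw [Chr.zero_apply, eq_comm, chi_eq_zero_iff_lay]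
        exact g.2
      rw [hy, rs_rs] at h2
      exact rs_zero_of_le (U₂ := D.lay Tn 1) (le_inf (inf_le_inf le_rfl
        (D.lev_anti (le_max_left _ _))) (inf_le_right.trans (D.lev_anti (le_max_right _ _)))) _ x h2

theorem eq_zero_of_coprime {G : Type*} [AddCommGroup G] (x : G) (c n : ℕ) (hcn : c.Coprime n)
    (hc : c • x = 0) (hn : n • x = 0) : x = 0 := by
  obtain ⟨u, v, huv⟩ := Nat.isCoprime_iff_coprime.mpr hcn
  have h3 : (u * (c : ℤ) + v * (n : ℤ)) • x = x := by rw [huv, one_smul]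
  rw [add_smul, mul_smul, mul_smul, natCast_zsmul, natCast_zsmul, hc, hn, smul_zero,
    smul_zero, add_zero] at h3
  exact h3.symm

include hT in
/-- (P7), Sylow reduction -/
theorem exists_split (hT0 : T ≤ D.Γ₀) (x : HH 𝓤 α T) (hpx : p • x = 0) :
    ∃ n, rs 𝓤 α (inf_le_left : T ⊓ D.lev n ≤ T) x = 0 := by
  obtain ⟨W₀, hW₀, hx⟩ := exists_rs_eq_zero (U₂ := T) α D.sm x
  have hW₀n := 𝓤.normal W₀ hW₀
  have hW₀f := 𝓤.finiteIndex W₀ hW₀
  set W := W₀ ⊓ T with hW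
  have hWT : W ≤ T := inf_le_right
  have hWo : 𝓤.IsOpen W := (Fam.isOpen_of_mem hW₀).inf hT
  have hWn : (W.subgroupOf T).Normal := by
    have : W.subgroupOf T = W₀.subgroupOf T := by
      ext g
      simp [hW, Subgroup.mem_subgroupOf]
    rw [this]
    infer_instance
  have hWf := hWo.finiteIndex
  have hfin : Finite (T ⧸ W.subgroupOf T) := inferInstance
  obtain ⟨P⟩ : Nonempty (Sylow p (T ⧸ W.subgroupOf T)) := inferInstance
  set S' : Subgroup T := (P : Subgroup (T ⧸ W.subgroupOf T)).comap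
    (QuotientGroup.mk' (W.subgroupOf T)) with hS'
  have hS'i : S'.index = (P : Subgroup (T ⧸ W.subgroupOf T)).index := by
    rw [hS', Subgroup.index_comap_of_surjective _ (QuotientGroup.mk'_surjective _)]
  set S : Subgroup Γ := S'.map T.subtype with hS
  have hSsub : S.subgroupOf T = S' := by
    rw [hS]
    exact Subgroup.comap_map_eq_self_of_injective Subtype.val_injective _
  have hST : S ≤ T := by
    rintro _ ⟨g, _, rfl⟩
    exact g.2
  have hWS : W ≤ S := by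
    intro g hg
    refine ⟨⟨g, hWT hg⟩, ?_, rfl⟩
    change QuotientGroup.mk' (W.subgroupOf T) ⟨g, hWT hg⟩ ∈ (P : Subgroup (T ⧸ W.subgroupOf T))
    have : QuotientGroup.mk' (W.subgroupOf T) ⟨g, hWT hg⟩ = 1 := by
      rw [QuotientGroup.mk'_apply, QuotientGroup.eq_one_iff, Subgroup.mem_subgroupOf]
      exact hg
    rw [this]
    exact Subgroup.one_mem _
  have hSi : S.relIndex T = (P : Subgroup (T ⧸ W.subgroupOf T)).index := by
    change (S.subgroupOf T).index = _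
    rw [hSsub, hS'i]
  have hSo : 𝓤.IsOpen S := hWo.mono hWS
  have hPi : (P : Subgroup (T ⧸ W.subgroupOf T)).index ≠ 0 := Subgroup.index_ne_zero_of_finite
  obtain ⟨k, hk⟩ := IsPGroup.iff_card.mp P.isPGroup'
  have hWi : W.relIndex S = p ^ k := by
    have h1 := Subgroup.relIndex_mul_relIndex W S T hWS hST
    have h2 := Subgroup.card_mul_index (P : Subgroup (T ⧸ W.subgroupOf T))
    have h3 : Nat.card (T ⧸ W.subgroupOf T) = W.relIndex T := rfl
    rw [hSi, ← h3, ← h2, hk] at h1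
    exact Nat.eq_of_mul_eq_mul_right (Nat.pos_of_ne_zero hPi) h1
  have hWSn : (W.subgroupOf S).Normal := ⟨fun u hu g => by
    rw [Subgroup.mem_subgroupOf] at hu ⊢
    exact hWn.conj_mem ⟨u, hST u.2⟩ (Subgroup.mem_subgroupOf.mpr hu) ⟨g, hST g.2⟩⟩
  obtain ⟨n, hn⟩ := D.pgroup_case k hSo hWo hWS hWSn hWi (hST.trans hT0) (rs 𝓤 α hST x)
    (by rw [← map_nsmul, hpx, map_zero]) (by rw [rs_rs]; exact hx)
  refine ⟨n, ?_⟩
  rw [rs_rs] at hn
  set Tn := T ⊓ D.lev n with hTn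
  set Sn := S ⊓ D.lev n with hSn
  have hle : Sn ≤ Tn := inf_le_inf hST le_rfl
  have hSno : 𝓤.IsOpen Sn := hSo.inf (D.lev_isOpen n)
  set y := rs 𝓤 α (inf_le_left : Tn ≤ T) x with hy
  have hy0 : rs 𝓤 α hle y = 0 := by rw [hy, rs_rs]; exact hn
  have h1 := cr_rs α hle hSno y
  rw [hy0, map_zero] at h1
  have hdvd := relIndex_inf_dvd hST (D.lev_normal n) hSo.finiteIndex (D.lev_isOpen n).finiteIndex
  rw [hSi] at hdvd
  have hcop : (Sn.relIndex Tn).Coprime p := by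
    apply Nat.Coprime.coprime_dvd_left hdvd
    rw [Nat.coprime_comm, hp.out.coprime_iff_not_dvd]
    have : (P : Subgroup (T ⧸ W.subgroupOf T)).FiniteIndex := ⟨hPi⟩
    exact Sylow.not_dvd_index P
  exact eq_zero_of_coprime y _ p hcop h1.symm (by rw [hy, ← map_nsmul, hpx, map_zero])

/-- (P8), for small subgroups -/
theorem exists_sy₀ (hT0 : T ≤ D.Γ₀) (x : HH 𝓤 α T) (hpx : p • x = 0) :
    ∃ a, sym (rep α T) (D.chi hT 1) a = x := by
  obtain ⟨n, hn⟩ := D.exists_split hT hT0 x hpx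
  exact D.exists_sy_aux hT (fun n b hb => D.sy_eq_zero_of_dvd₀ n hT hT0 b hb) x hpx n
    (rs_zero_of_le (inf_le_inf le_rfl (D.lev_anti (by omega))) inf_le_left x hn)

/-! ### general subgroups -/

/-- the small part of a subgroup -/
def sm' (T : Subgroup Γ) : Subgroup Γ := T ⊓ D.Γ₀

theorem sm'_le (T : Subgroup Γ) : D.sm' T ≤ T := inf_le_left

include hT in
theorem sm'_isOpen : 𝓤.IsOpen (D.sm' T) := hT.inf D.Γ₀_open

theorem relIndex_sm' (T : Subgroup Γ) : ((D.sm' T).relIndex T).Coprime p := by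
  have := D.Γ₀_normal
  rw [sm', Subgroup.inf_relIndex_left]
  exact Nat.Coprime.coprime_dvd_left (Subgroup.relIndex_dvd_index_of_normal _ _) D.Γ₀_index

include hT in
theorem f_sm' : D.f (D.sm' T) = D.f T := by
  refine D.f_unique (D.sm'_isOpen hT) (fun u hu => D.f_dvd T hT u hu.1) ?_
  obtain ⟨u, hu, hu'⟩ := D.f_ex T hT
  have := D.Γ₀_normal
  refine ⟨u ^ D.Γ₀.index, ⟨T.pow_mem hu _, Subgroup.pow_index_mem D.Γ₀ u⟩, fun h => hu' ?_⟩
  rw [d_pow] at h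
  have h2 : IsUnit ((D.Γ₀.index : ℕ) : ℤ_[p]) := by
    apply isUnit_of_not_dvd
    intro h3
    have h4 := D.Γ₀_index
    rw [Nat.coprime_comm, hp.out.coprime_iff_not_dvd] at h4
    apply h4
    rw [← PadicInt.norm_lt_one_iff_dvd] at h3
    have h5 : ‖((D.Γ₀.index : ℤ) : ℤ_[p])‖ < 1 := by exact_mod_cast h3
    have h6 := (PadicInt.norm_int_lt_one_iff_dvd _).mp h5
    exact_mod_cast h6
  exact (h2.dvd_mul_left).mp h

include hT in
theorem v_sm' (a : ↥(FF α T)) (a' : ↥(FF α (D.sm' T))) (ha : (a' : A) = a) :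
    D.v (D.sm' T) a' = ((D.sm' T).relIndex T : ℤ_[p]) * D.v T a := by
  have h1 := D.v_nm _ _ (D.sm'_le T) (D.sm'_isOpen hT) a'
  rw [nmr_of_mem α _ _ a a' ha, f_sm' D hT, Nat.sub_self, pow_zero, one_mul, map_nsmul,
    nsmul_eq_mul] at h1
  exact h1.symm

theorem chi_sm' (n : ℕ) (g : D.sm' T) :
    D.chi (D.sm'_isOpen hT) n g = D.chi hT n ⟨g, D.sm'_le T g.2⟩ := by
  rw [chi_apply, chi_apply, D.q_of_le (D.sm'_le T) (D.sm'_isOpen hT) hT (r := 0)
    (by rw [add_zero, f_sm' D hT]), pow_zero, one_mul]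

theorem nsmul_chi (n k : ℕ) (hk : k = p ^ n) : k • D.chi hT n = 0 := by
  subst hk
  apply Chr.ext
  intro g
  rw [Chr.nsmul_apply, nsmul_eq_mul, ZMod.natCast_self, zero_mul, Chr.zero_apply]

/-- (P1) -/
theorem sy_eq_zero_of_dvd (n : ℕ) (b : ↥(FF α T)) (hb : (p : ℤ_[p]) ^ n ∣ D.v T b) :
    sym (rep α T) (D.chi hT n) b = 0 := by
  let b' : ↥(FF α (D.sm' T)) := (incMor 𝓤 α (D.sm'_le T)).mapH0 b
  have h1 : rs 𝓤 α (D.sm'_le T) (sym (rep α T) (D.chi hT n) b) = 0 := by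
    rw [rs_sym α (D.sm'_le T) (D.chi hT n) (D.chi (D.sm'_isOpen hT) n) (D.chi_sm' hT n) b b' rfl]
    apply D.sy_eq_zero_of_dvd₀ n (D.sm'_isOpen hT) (show D.sm' T ≤ D.Γ₀ from inf_le_right)
    rw [D.v_sm' hT b b' rfl]
    exact hb.mul_left _
  have h2 := cr_rs α (D.sm'_le T) (D.sm'_isOpen hT) (sym (rep α T) (D.chi hT n) b)
  rw [h1, map_zero] at h2
  refine eq_zero_of_coprime _ _ (p ^ n) ((D.relIndex_sm' T).pow_right n) h2.symm ?_
  rw [← sym_nsmul_left, D.nsmul_chi hT n _ rfl, sym_zero_left]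

theorem sy_eq_zero_iff (n : ℕ) (b : ↥(FF α T)) :
    sym (rep α T) (D.chi hT n) b = 0 ↔ (p : ℤ_[p]) ^ n ∣ D.v T b :=
  ⟨D.dvd_of_sy_eq_zero hT n b, D.sy_eq_zero_of_dvd hT n b⟩

/-- (P8): every `p`-torsion class is a symbol -/
theorem exists_sy (x : HH 𝓤 α T) (hpx : p • x = 0) :
    ∃ a, sym (rep α T) (D.chi hT 1) a = x := by
  obtain ⟨a0, ha0⟩ := D.exists_sy₀ (D.sm'_isOpen hT) inf_le_right (rs 𝓤 α (D.sm'_le T) x)
    (by rw [← map_nsmul, hpx, map_zero])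
  have h1 := cr_rs α (D.sm'_le T) (D.sm'_isOpen hT) x
  rw [← ha0, cr_sym α (D.sm'_le T) (D.sm'_isOpen hT) (D.chi hT 1) _ (D.chi_sm' hT 1)] at h1
  obtain ⟨u, v, huv⟩ := Nat.isCoprime_iff_coprime.mpr (D.relIndex_sm' T)
  refine ⟨u • nmr α (D.sm'_le T) (D.sm'_isOpen hT) a0, ?_⟩
  rw [map_zsmul, h1]
  have h3 : (u * (((D.sm' T).relIndex T : ℕ) : ℤ) + v * (p : ℤ)) • x = x := by rw [huv, one_smul]
  rw [add_smul, mul_smul, mul_smul, natCast_zsmul, natCast_zsmul, hpx, smul_zero, add_zero] at h3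
  exact h3

/-- (P4') -/
theorem sy_succ (r : ℕ) (a a0 : ↥(FF α T)) (w : ℤ_[p])
    (hw : D.v T a = (p : ℤ_[p]) ^ r * w) (h0 : (p : ℤ_[p]) ∣ D.v T a0 - w) :
    sym (rep α T) (D.chi hT (r + 1)) a = sym (rep α T) (D.chi hT 1) a0 :=
  D.sy_succ_aux hT (D.sy_eq_zero_of_dvd hT) r a a0 w hw h0

/-! ### the invariant -/

theorem toZMod_eq_zero_iff (x : ℤ_[p]) : PadicInt.toZMod x = 0 ↔ (p : ℤ_[p]) ∣ x := by
  rw [← RingHom.mem_ker, PadicInt.ker_toZMod, PadicInt.maximalIdeal_eq_span_p,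
    Ideal.mem_span_singleton]

/-- the `p`-torsion of `H²` -/
def tor (𝓤 : Fam Γ) (α : Representation ℤ Γ A) (p : ℕ) (T : Subgroup Γ) :
    AddSubgroup (HH 𝓤 α T) where
  carrier := {x | p • x = 0}
  zero_mem' := smul_zero _
  add_mem' {a b} ha hb := by
    change p • (a + b) = 0
    rw [smul_add, (show p • a = 0 from ha), (show p • b = 0 from hb), add_zero]
  neg_mem' {a} ha := by
    change p • (-a) = 0
    rw [smul_neg, (show p • a = 0 from ha), neg_zero]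

theorem mem_tor {x : HH 𝓤 α T} : x ∈ tor 𝓤 α p T ↔ p • x = 0 := Iff.rfl

theorem sym_chi_mem_tor (a : ↥(FF α T)) : sym (rep α T) (D.chi hT 1) a ∈ tor 𝓤 α p T := by
  rw [mem_tor, ← sym_nsmul_left, D.nsmul_chi hT 1 p (pow_one p).symm, sym_zero_left]

/-- any choice of a symbol gives the invariant -/
noncomputable def invFun (x : ↥(tor 𝓤 α p T)) : ZMod p :=
  PadicInt.toZMod (D.v T (D.exists_sy hT x.1 x.2).choose)

theorem invFun_eq (x : ↥(tor 𝓤 α p T)) (a : ↥(FF α T))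
    (ha : sym (rep α T) (D.chi hT 1) a = x) : D.invFun hT x = PadicInt.toZMod (D.v T a) := by
  rw [invFun, ← sub_eq_zero, ← map_sub, toZMod_eq_zero_iff, ← map_sub, ← pow_one (p : ℤ_[p]),
    ← D.sy_eq_zero_iff hT, map_sub, (D.exists_sy hT x.1 x.2).choose_spec, ha, sub_self]

/-- the invariant map on the `p`-torsion of `H²(T, A)` -/
noncomputable def inv : ↥(tor 𝓤 α p T) →+ ZMod p where
  toFun := D.invFun hT
  map_zero' := by rw [D.invFun_eq hT 0 0 (by rw [map_zero]; rfl), map_zero, map_zero]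
  map_add' x y := by
    obtain ⟨a, ha⟩ := D.exists_sy hT x.1 x.2
    obtain ⟨b, hb⟩ := D.exists_sy hT y.1 y.2
    rw [D.invFun_eq hT x a ha, D.invFun_eq hT y b hb,
      D.invFun_eq hT (x + y) (a + b) (by rw [map_add, ha, hb]; rfl), map_add, map_add]

theorem inv_eq (x : ↥(tor 𝓤 α p T)) (a : ↥(FF α T))
    (ha : sym (rep α T) (D.chi hT 1) a = x) : D.inv hT x = PadicInt.toZMod (D.v T a) :=
  D.invFun_eq hT x a ha

theorem inv_injective : Function.Injective (D.inv hT) := by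
  rw [injective_iff_map_eq_zero]
  intro x hx
  obtain ⟨a, ha⟩ := D.exists_sy hT x.1 x.2
  rw [D.inv_eq hT x a ha, toZMod_eq_zero_iff] at hx
  apply Subtype.ext
  rw [← ha]
  apply D.sy_eq_zero_of_dvd hT 1
  rw [pow_one]
  exact hx

theorem inv_surjective : Function.Surjective (D.inv hT) := by
  intro c
  obtain ⟨w, hw⟩ := ZMod.ringHom_surjective (PadicInt.toZMod (p := p)) c
  obtain ⟨a0, ha0⟩ := D.exists_v hT w
  refine ⟨⟨sym (rep α T) (D.chi hT 1) a0, D.sym_chi_mem_tor hT a0⟩, ?_⟩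
  rw [D.inv_eq hT _ a0 rfl, ← hw, ← sub_eq_zero, ← map_sub, toZMod_eq_zero_iff]
  exact ha0

/-- corestriction on the torsion -/
noncomputable def crTor {U T : Subgroup Γ} (h : U ≤ T) (hU : 𝓤.IsOpen U) :
    ↥(tor 𝓤 α p U) →+ ↥(tor 𝓤 α p T) where
  toFun x := ⟨cr α h hU x.1, by rw [mem_tor, ← map_nsmul, (mem_tor.mp x.2), map_zero]⟩
  map_zero' := Subtype.ext (map_zero _)
  map_add' x y := Subtype.ext (map_add _ _ _)

/-- The invariant is compatible with corestriction. -/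
theorem inv_cr {U T : Subgroup Γ} (h : U ≤ T) (hU : 𝓤.IsOpen U) (hT : 𝓤.IsOpen T)
    (y : ↥(tor 𝓤 α p U)) : D.inv hT (crTor h hU y) = D.inv hU y := by
  obtain ⟨b, hb⟩ := D.exists_sy hU y.1 y.2
  obtain ⟨r, hr⟩ := Nat.exists_eq_add_of_le (D.f_mono hT hU h)
  obtain ⟨a0, ha0⟩ := D.exists_v hT (D.v U b)
  rw [D.inv_eq hU y b hb]
  rw [D.inv_eq hT (crTor h hU y) a0, ← sub_eq_zero, ← map_sub, toZMod_eq_zero_iff]
  · exact ha0
  · change _ = cr α h hU y.1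
    rw [← hb, ← D.sym_level_chi h hU hT r 1 hr ((D.chi hT (r + 1)).rs h) (fun g => rfl),
      cr_sym α h hU (D.chi hT (r + 1)) _ (fun g => rfl)]
    symm
    refine D.sy_succ hT r _ a0 (D.v U b) ?_ ha0
    rw [D.v_nm, hr, Nat.add_sub_cancel_left]

/-! ### general characters of order `p` -/

/-- the kernel of a character, as a subgroup of the big group -/
def kerS (χ : Chr (𝓤.res T) (ZMod p)) : Subgroup Γ := χ.ker.map T.subtype

theorem mem_kerS {χ : Chr (𝓤.res T) (ZMod p)} {g : Γ} :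
    g ∈ kerS χ ↔ ∃ h : g ∈ T, χ ⟨g, h⟩ = 0 := by
  constructor
  · rintro ⟨g, hg, rfl⟩
    exact ⟨g.2, hg⟩
  · rintro ⟨h, hg⟩
    exact ⟨⟨g, h⟩, hg, rfl⟩

theorem kerS_le (χ : Chr (𝓤.res T) (ZMod p)) : kerS χ ≤ T := fun _ hg =>
  (mem_kerS.mp hg).choose

theorem kerS_subgroupOf (χ : Chr (𝓤.res T) (ZMod p)) : (kerS χ).subgroupOf T = χ.ker :=
  Subgroup.comap_map_eq_self_of_injective Subtype.val_injective _

instance kerS_normal (χ : Chr (𝓤.res T) (ZMod p)) : ((kerS χ).subgroupOf T).Normal := by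
  rw [kerS_subgroupOf]
  infer_instance

include hT in
theorem kerS_isOpen (χ : Chr (𝓤.res T) (ZMod p)) : 𝓤.IsOpen (kerS χ) := by
  obtain ⟨_, ⟨W, hW, rfl⟩, hWχ⟩ := χ.ker_isOpen
  obtain ⟨W', hW', hWT⟩ := hT
  exact ⟨W ⊓ W', 𝓤.inf_mem _ hW _ hW', fun g hg =>
    mem_kerS.mpr ⟨hWT hg.2, hWχ (x := ⟨g, hWT hg.2⟩) hg.1⟩⟩

theorem chr_pow (χ : Chr (𝓤.res T) (ZMod p)) (g : T) (k : ℕ) : χ (g ^ k) = k • χ g := by
  induction k with
  | zero => simp [χ.map_one]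
  | succ k ih => rw [pow_succ, χ.map_mul, ih, add_smul, one_smul]

theorem exists_eq_one {χ : Chr (𝓤.res T) (ZMod p)} (hχ : χ ≠ 0) : ∃ σ, χ σ = 1 := by
  have h1 : ∃ g, χ g ≠ 0 := by
    by_contra hne
    push Not at hne
    exact hχ (Chr.ext hne)
  obtain ⟨g, hg⟩ := h1
  refine ⟨g ^ ((χ g)⁻¹ : ZMod p).val, ?_⟩
  rw [chr_pow, nsmul_eq_mul, ZMod.natCast_zmod_val, inv_mul_cancel₀ hg]

theorem zpowers_chr {χ : Chr (𝓤.res T) (ZMod p)} {σ : T} (hσ : χ σ = 1)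
    (x : T ⧸ (kerS χ).subgroupOf T) : x ∈ Subgroup.zpowers (σ : T ⧸ (kerS χ).subgroupOf T) := by
  obtain ⟨g, rfl⟩ := QuotientGroup.mk_surjective x
  refine ⟨((χ g).val : ℤ), ?_⟩
  change (σ : T ⧸ (kerS χ).subgroupOf T) ^ _ = _
  rw [zpow_natCast, ← QuotientGroup.mk_pow, QuotientGroup.eq, kerS_subgroupOf, Chr.mem_ker,
    Chr.map_mul, Chr.map_inv, chr_pow, hσ, nsmul_one, ZMod.natCast_zmod_val, neg_add_cancel]

theorem relIndex_kerS {χ : Chr (𝓤.res T) (ZMod p)} (hχ : χ ≠ 0) : (kerS χ).relIndex T = p := by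
  let F : T →* Multiplicative (ZMod p) :=
    { toFun := fun g => Multiplicative.ofAdd (χ g)
      map_one' := by rw [Chr.map_one]; rfl
      map_mul' := fun g h => by rw [Chr.map_mul]; rfl }
  have hker : F.ker = (kerS χ).subgroupOf T := by
    rw [kerS_subgroupOf]
    ext g
    exact Iff.rfl
  have hsurj : Function.Surjective F := by
    intro y
    obtain ⟨σ, hσ⟩ := exists_eq_one hχ
    refine ⟨σ ^ (Multiplicative.toAdd y).val, ?_⟩
    change Multiplicative.ofAdd (χ (σ ^ _)) = y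
    rw [chr_pow, hσ, nsmul_one, ZMod.natCast_zmod_val]
    rfl
  change ((kerS χ).subgroupOf T).index = _
  rw [← hker, Subgroup.index_ker, MonoidHom.range_eq_top.mpr hsurj,
    Nat.card_congr (Subgroup.topEquiv (G := Multiplicative (ZMod p))).toEquiv]
  exact Nat.card_zmod _

include D in
/-- A symbol vanishes if and only if the second entry is a norm. -/
theorem sym_eq_zero_iff {χ : Chr (𝓤.res T) (ZMod p)} (hχ : χ ≠ 0) (a : ↥(FF α T)) :
    sym (rep α T) χ a = 0 ↔ ∃ b, nmr α (kerS_le χ) (kerS_isOpen hT χ) b = a := by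
  obtain ⟨σ, hσ⟩ := exists_eq_one hχ
  have h1 := cycr_eq_neg_sym (kerS_le χ) (kerS_isOpen hT χ) σ (zpowers_chr hσ) D.sm χ
    (fun g => by
      rw [mem_kerS]
      exact ⟨fun h => ⟨g.2, h⟩, fun ⟨_, h⟩ => h⟩) hσ a
  constructor
  · intro h2
    rw [h2, neg_zero] at h1
    exact exists_nmr_eq (kerS_le χ) (kerS_isOpen hT χ) σ (zpowers_chr hσ) D.sm
      (D.h1 _ (kerS_isOpen hT χ)) (n := 1) (by rw [relIndex_kerS hχ, pow_one]) a h1
  · rintro ⟨b, rfl⟩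
    rw [cycr_nmr (kerS_le χ) (kerS_isOpen hT χ) σ (zpowers_chr hσ) D.sm b, eq_comm,
      neg_eq_zero] at h1
    exact h1

theorem sym_mem_tor (χ : Chr (𝓤.res T) (ZMod p)) (a : ↥(FF α T)) :
    sym (rep α T) χ a ∈ tor 𝓤 α p T := by
  rw [mem_tor, ← sym_nsmul_left]
  have : p • χ = 0 := Chr.ext fun g => by
    rw [Chr.nsmul_apply, nsmul_eq_mul, ZMod.natCast_self, zero_mul, Chr.zero_apply]
  rw [this, sym_zero_left]

include D in
/-- Nondegeneracy: a nonzero character pairs non-trivially with some invariant element. -/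
theorem exists_sym_ne_zero (hT : 𝓤.IsOpen T) (χ : Chr (𝓤.res T) (ZMod p)) (hχ : χ ≠ 0) :
    ∃ a, sym (rep α T) χ a ≠ 0 := by
  set χ₀ := χ.rs (D.sm'_le T) with hχ₀
  have h0 : χ₀ ≠ 0 := by
    intro h
    apply hχ
    apply Chr.ext
    intro g
    have := D.Γ₀_normal
    have h1 : (g : Γ) ^ D.Γ₀.index ∈ D.sm' T :=
      ⟨T.pow_mem g.2 _, Subgroup.pow_index_mem D.Γ₀ (g : Γ)⟩
    have h2 : χ₀ ⟨_, h1⟩ = 0 := by rw [h]; rfl
    have h3 : χ (g ^ D.Γ₀.index) = 0 := h2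
    rw [chr_pow, nsmul_eq_mul] at h3
    rcases mul_eq_zero.mp h3 with h4 | h4
    · have h5 := D.Γ₀_index
      rw [Nat.coprime_comm, hp.out.coprime_iff_not_dvd] at h5
      exact absurd ((ZMod.natCast_eq_zero_iff _ _).mp h4) h5
    · exact h4
  have hT' := D.sm'_isOpen hT
  have hidx := D.idx _ _ (kerS_le χ₀) (kerS_isOpen hT' χ₀) inf_le_right inferInstance
    (relIndex_kerS h0)
  have hex : ∃ b, b ∉ (LinearMap.range (nmr α (kerS_le χ₀) (kerS_isOpen hT' χ₀))).toAddSubgroup := by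
    by_contra hne
    push Not at hne
    have : (LinearMap.range (nmr α (kerS_le χ₀) (kerS_isOpen hT' χ₀))).toAddSubgroup = ⊤ :=
      (AddSubgroup.eq_top_iff' _).mpr hne
    rw [this, AddSubgroup.index_top] at hidx
    exact hp.out.one_lt.ne hidx
  obtain ⟨b, hb⟩ := hex
  refine ⟨nmr α (D.sm'_le T) hT' b, fun h => hb ?_⟩
  rw [← cr_sym α (D.sm'_le T) hT' χ χ₀ (fun g => rfl)] at h
  have h1 := D.inv_cr (D.sm'_le T) hT' hT ⟨_, sym_mem_tor χ₀ b⟩
  have h2 : crTor (D.sm'_le T) hT' ⟨_, sym_mem_tor χ₀ b⟩ = 0 := Subtype.ext h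
  rw [h2, map_zero, eq_comm] at h1
  have h3 := D.inv_injective hT' (h1.trans (map_zero _).symm)
  have h4 : sym (rep α (D.sm' T)) χ₀ b = 0 := congrArg Subtype.val h3
  obtain ⟨b', hb'⟩ := (D.sym_eq_zero_iff hT' h0 b).mp h4
  exact ⟨b', hb'⟩

end CFData

end Fermat.Agent.Coh
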