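import Mathlib

/-!
# Smooth group cohomology in degrees `0, 1, 2`

`Γ` is a group, `𝓤 : Fam Γ` a family of normal subgroups of finite index playing the role of
open normal subgroups; `ρ : Representation k Γ V` a (smooth) representation.
-/

set_option autoImplicit false

namespace Fermat.Agent.Coh

/-- A family of normal subgroups of finite index, closed under intersection. -/
structure Fam (Γ : Type*) [Group Γ] where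
  /-- the members -/
  carrier : Set (Subgroup Γ)
  nonempty : carrier.Nonempty
  normal : ∀ U ∈ carrier, U.Normal
  finiteIndex : ∀ U ∈ carrier, U.FiniteIndex
  inf_mem : ∀ U ∈ carrier, ∀ V ∈ carrier, U ⊓ V ∈ carrier

namespace Fam

variable {Γ Δ Θ : Type*} [Group Γ] [Group Δ] [Group Θ]

instance : Membership (Subgroup Γ) (Fam Γ) := ⟨fun 𝓤 U => U ∈ 𝓤.carrier⟩

theorem mem_carrier {𝓤 : Fam Γ} {U : Subgroup Γ} : U ∈ 𝓤.carrier ↔ U ∈ 𝓤 := Iff.rfl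

/-- pullback of a family along a homomorphism -/
def comap (f : Δ →* Γ) (𝓤 : Fam Γ) : Fam Δ where
  carrier := {W | ∃ U ∈ 𝓤, U.comap f = W}
  nonempty := by
    obtain ⟨U, hU⟩ := 𝓤.nonempty
    exact ⟨_, U, hU, rfl⟩
  normal := by
    rintro _ ⟨U, hU, rfl⟩
    have := 𝓤.normal U hU
    infer_instance
  finiteIndex := by
    rintro _ ⟨U, hU, rfl⟩
    have := 𝓤.finiteIndex U hU
    refine ⟨fun h => ?_⟩
    rw [Subgroup.index_comap] at h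
    exact (Subgroup.instFiniteIndex_subgroupOf U f.range).index_ne_zero h
  inf_mem := by
    rintro _ ⟨U, hU, rfl⟩ _ ⟨V, hV, rfl⟩
    exact ⟨U ⊓ V, 𝓤.inf_mem U hU V hV, rfl⟩

theorem mem_comap {f : Δ →* Γ} {𝓤 : Fam Γ} {W : Subgroup Δ} :
    W ∈ 𝓤.comap f ↔ ∃ U ∈ 𝓤, U.comap f = W := Iff.rfl

theorem comap_mem {f : Δ →* Γ} {𝓤 : Fam Γ} {U : Subgroup Γ} (hU : U ∈ 𝓤) :
    U.comap f ∈ 𝓤.comap f := ⟨U, hU, rfl⟩

/-- restriction of a family to a subgroup -/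
abbrev res (𝓤 : Fam Γ) (Δ : Subgroup Γ) : Fam Δ := 𝓤.comap Δ.subtype

/-- open subgroups: those containing a member of the family -/
def IsOpen (𝓤 : Fam Γ) (W : Subgroup Γ) : Prop := ∃ U ∈ 𝓤, U ≤ W

theorem isOpen_of_mem {𝓤 : Fam Γ} {U : Subgroup Γ} (hU : U ∈ 𝓤) : 𝓤.IsOpen U := ⟨U, hU, le_rfl⟩

theorem IsOpen.inf {𝓤 : Fam Γ} {U V : Subgroup Γ} (hU : 𝓤.IsOpen U) (hV : 𝓤.IsOpen V) :
    𝓤.IsOpen (U ⊓ V) := by
  obtain ⟨U', hU', h1⟩ := hU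
  obtain ⟨V', hV', h2⟩ := hV
  exact ⟨U' ⊓ V', 𝓤.inf_mem _ hU' _ hV', inf_le_inf h1 h2⟩

theorem IsOpen.mono {𝓤 : Fam Γ} {U V : Subgroup Γ} (hU : 𝓤.IsOpen U) (h : U ≤ V) :
    𝓤.IsOpen V := by
  obtain ⟨U', hU', h1⟩ := hU
  exact ⟨U', hU', h1.trans h⟩

theorem isOpen_top (𝓤 : Fam Γ) : 𝓤.IsOpen ⊤ := by
  obtain ⟨U, hU⟩ := 𝓤.nonempty
  exact ⟨U, hU, le_top⟩

theorem IsOpen.finiteIndex {𝓤 : Fam Γ} {U : Subgroup Γ} (hU : 𝓤.IsOpen U) : U.FiniteIndex := by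
  obtain ⟨U', hU', h1⟩ := hU
  have := 𝓤.finiteIndex U' hU'
  exact Subgroup.finiteIndex_of_le h1

/-- A finite set of members has a lower bound in the family. -/
theorem exists_le_forall {ι : Type*} (𝓤 : Fam Γ) (t : Finset ι) (F : ι → Subgroup Γ)
    (hF : ∀ i ∈ t, F i ∈ 𝓤) : ∃ U ∈ 𝓤, ∀ i ∈ t, U ≤ F i := by
  classical
  induction t using Finset.induction_on with
  | empty =>
    obtain ⟨U, hU⟩ := 𝓤.nonempty
    exact ⟨U, hU, by simp⟩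
  | insert a t ha ih =>
    obtain ⟨U, hU, hUt⟩ := ih fun i hi => hF i (Finset.mem_insert_of_mem hi)
    refine ⟨U ⊓ F a, 𝓤.inf_mem _ hU _ (hF a (Finset.mem_insert_self _ _)), ?_⟩
    intro i hi
    rcases Finset.mem_insert.mp hi with rfl | hi
    · exact inf_le_right
    · exact inf_le_left.trans (hUt i hi)

/-- smooth functions of one variable -/
def Sm1 (𝓤 : Fam Γ) {X : Type*} (f : Γ → X) : Prop :=
  ∃ U ∈ 𝓤, ∀ g, ∀ u ∈ U, f (g * u) = f g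

/-- smooth functions of two variables -/
def Sm2 (𝓤 : Fam Γ) {X : Type*} (f : Γ × Γ → X) : Prop :=
  ∃ U ∈ 𝓤, ∀ g h, ∀ u ∈ U, ∀ v ∈ U, f (g * u, h * v) = f (g, h)

theorem Sm1.const (𝓤 : Fam Γ) {X : Type*} (x : X) : 𝓤.Sm1 (fun _ => x) := by
  obtain ⟨U, hU⟩ := 𝓤.nonempty
  exact ⟨U, hU, fun _ _ _ => rfl⟩

theorem Sm2.const (𝓤 : Fam Γ) {X : Type*} (x : X) : 𝓤.Sm2 (fun _ => x) := by
  obtain ⟨U, hU⟩ := 𝓤.nonempty
  exact ⟨U, hU, fun _ _ _ _ _ _ => rfl⟩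

theorem Sm1.post {𝓤 : Fam Γ} {X Y : Type*} {f : Γ → X} (hf : 𝓤.Sm1 f) (F : X → Y) :
    𝓤.Sm1 (fun g => F (f g)) := by
  obtain ⟨U, hU, h⟩ := hf
  exact ⟨U, hU, fun g u hu => by simp only [h g u hu]⟩

theorem Sm2.post {𝓤 : Fam Γ} {X Y : Type*} {f : Γ × Γ → X} (hf : 𝓤.Sm2 f) (F : X → Y) :
    𝓤.Sm2 (fun g => F (f g)) := by
  obtain ⟨U, hU, h⟩ := hf
  exact ⟨U, hU, fun g g' u hu v hv => by simp only [h g g' u hu v hv]⟩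

theorem Sm1.post₂ {𝓤 : Fam Γ} {X Y Z : Type*} {f : Γ → X} {f' : Γ → Y} (hf : 𝓤.Sm1 f)
    (hf' : 𝓤.Sm1 f') (F : X → Y → Z) : 𝓤.Sm1 (fun g => F (f g) (f' g)) := by
  obtain ⟨U, hU, h⟩ := hf
  obtain ⟨V, hV, h'⟩ := hf'
  exact ⟨U ⊓ V, 𝓤.inf_mem _ hU _ hV, fun g u hu => by simp only [h g u hu.1, h' g u hu.2]⟩

theorem Sm2.post₂ {𝓤 : Fam Γ} {X Y Z : Type*} {f : Γ × Γ → X} {f' : Γ × Γ → Y} (hf : 𝓤.Sm2 f)
    (hf' : 𝓤.Sm2 f') (F : X → Y → Z) : 𝓤.Sm2 (fun g => F (f g) (f' g)) := by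
  obtain ⟨U, hU, h⟩ := hf
  obtain ⟨V, hV, h'⟩ := hf'
  exact ⟨U ⊓ V, 𝓤.inf_mem _ hU _ hV, fun g g' u hu v hv => by
    simp only [h g g' u hu.1 v hv.1, h' g g' u hu.2 v hv.2]⟩

theorem Sm1.finite_range {𝓤 : Fam Γ} {X : Type*} {f : Γ → X} (hf : 𝓤.Sm1 f) :
    (Set.range f).Finite := by
  obtain ⟨U, hU, h⟩ := hf
  have := 𝓤.finiteIndex U hU
  have h1 : Set.range f ⊆ Set.range (fun x : Γ ⧸ U => f x.out) := by
    rintro _ ⟨g, rfl⟩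
    refine ⟨(g : Γ ⧸ U), ?_⟩
    obtain ⟨u, hu⟩ := QuotientGroup.mk_out_eq_mul U g
    simp only
    rw [hu, h g u u.2]
  exact (Set.finite_range _).subset h1

theorem Sm2.finite_range {𝓤 : Fam Γ} {X : Type*} {f : Γ × Γ → X} (hf : 𝓤.Sm2 f) :
    (Set.range f).Finite := by
  obtain ⟨U, hU, h⟩ := hf
  have := 𝓤.finiteIndex U hU
  have h1 : Set.range f ⊆ Set.range (fun x : (Γ ⧸ U) × (Γ ⧸ U) => f (x.1.out, x.2.out)) := by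
    rintro _ ⟨⟨g, g'⟩, rfl⟩
    refine ⟨((g : Γ ⧸ U), (g' : Γ ⧸ U)), ?_⟩
    obtain ⟨u, hu⟩ := QuotientGroup.mk_out_eq_mul U g
    obtain ⟨u', hu'⟩ := QuotientGroup.mk_out_eq_mul U g'
    simp only
    rw [hu, hu', h g g' u u.2 u' u'.2]
  exact (Set.finite_range _).subset h1

/-- left invariance of a smooth function -/
theorem Sm1.left {𝓤 : Fam Γ} {X : Type*} {f : Γ → X} (hf : 𝓤.Sm1 f) :
    ∃ U ∈ 𝓤, ∀ g, ∀ u ∈ U, f (g * u) = f g ∧ f (u * g) = f g := by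
  obtain ⟨U, hU, h⟩ := hf
  refine ⟨U, hU, fun g u hu => ⟨h g u hu, ?_⟩⟩
  have hn := 𝓤.normal U hU
  have h1 : u * g = g * (g⁻¹ * u * g) := by group
  rw [h1, h]
  have := hn.conj_mem u hu g⁻¹
  simpa using this

theorem Sm1.mul_left {𝓤 : Fam Γ} {X : Type*} {f : Γ → X} (hf : 𝓤.Sm1 f) (a : Γ) :
    𝓤.Sm1 (fun g => f (a * g)) := by
  obtain ⟨U, hU, h⟩ := hf
  exact ⟨U, hU, fun g u hu => by simp only [← mul_assoc]; rw [h _ u hu]⟩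

theorem Sm1.mul_right {𝓤 : Fam Γ} {X : Type*} {f : Γ → X} (hf : 𝓤.Sm1 f) (a : Γ) :
    𝓤.Sm1 (fun g => f (g * a)) := by
  obtain ⟨U, hU, h⟩ := hf.left
  refine ⟨U, hU, fun g u hu => ?_⟩
  have h1 : g * u * a = (g * a) * (a⁻¹ * u * a) := by group
  simp only [h1]
  refine (h _ _ ?_).1
  have := (𝓤.normal U hU).conj_mem u hu a⁻¹
  simpa using this

theorem Sm1.comp {𝓤 : Fam Γ} {𝓤' : Fam Δ} {X : Type*} {f : Γ → X} (hf : 𝓤.Sm1 f) (φ : Δ →* Γ)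
    (hφ : ∀ U ∈ 𝓤, ∃ U' ∈ 𝓤', U' ≤ U.comap φ) : 𝓤'.Sm1 (fun g => f (φ g)) := by
  obtain ⟨U, hU, h⟩ := hf
  obtain ⟨U', hU', hle⟩ := hφ U hU
  exact ⟨U', hU', fun g u hu => by simp only [map_mul]; rw [h _ _ (hle hu)]⟩

theorem Sm2.comp {𝓤 : Fam Γ} {𝓤' : Fam Δ} {X : Type*} {f : Γ × Γ → X} (hf : 𝓤.Sm2 f) (φ : Δ →* Γ)
    (hφ : ∀ U ∈ 𝓤, ∃ U' ∈ 𝓤', U' ≤ U.comap φ) : 𝓤'.Sm2 (fun g => f (φ g.1, φ g.2)) := by
  obtain ⟨U, hU, h⟩ := hf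
  obtain ⟨U', hU', hle⟩ := hφ U hU
  exact ⟨U', hU', fun g g' u hu v hv => by
    simp only [map_mul]
    rw [h _ _ _ (hle hu) _ (hle hv)]⟩

/-- a smooth function of two variables from its sections -/
theorem Sm1.sm2_fst {𝓤 : Fam Γ} {X : Type*} {f : Γ → X} (hf : 𝓤.Sm1 f) :
    𝓤.Sm2 (fun g => f g.1) := by
  obtain ⟨U, hU, h⟩ := hf
  exact ⟨U, hU, fun g g' u hu v hv => h g u hu⟩

theorem Sm1.sm2_snd {𝓤 : Fam Γ} {X : Type*} {f : Γ → X} (hf : 𝓤.Sm1 f) :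
    𝓤.Sm2 (fun g => f g.2) := by
  obtain ⟨U, hU, h⟩ := hf
  exact ⟨U, hU, fun g g' u hu v hv => h g' v hv⟩

theorem Sm1.sm2_mul {𝓤 : Fam Γ} {X : Type*} {f : Γ → X} (hf : 𝓤.Sm1 f) :
    𝓤.Sm2 (fun g => f (g.1 * g.2)) := by
  obtain ⟨U, hU, h⟩ := hf.left
  refine ⟨U, hU, fun g g' u hu v hv => ?_⟩
  simp only
  have h1 : g * u * (g' * v) = (g * g') * (g'⁻¹ * u * g' * v) := by group
  rw [h1]
  refine (h _ _ (U.mul_mem ?_ hv)).1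
  have := (𝓤.normal U hU).conj_mem u hu g'⁻¹
  simpa using this

end Fam

section Rep

variable {k : Type*} [CommRing k] {Γ Δ Θ : Type*} [Group Γ] [Group Δ] [Group Θ]
variable {V W X : Type*} [AddCommGroup V] [Module k V] [AddCommGroup W] [Module k W]
  [AddCommGroup X] [Module k X]
variable (𝓤 : Fam Γ) (𝓤' : Fam Δ) (𝓤'' : Fam Θ)
  (ρ : Representation k Γ V) (σ : Representation k Δ W) (τ : Representation k Θ X)

/-- smooth representations -/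
def SmRep (𝓤 : Fam Γ) (ρ : Representation k Γ V) : Prop := ∀ v, ∃ U ∈ 𝓤, ∀ u ∈ U, ρ u v = v

variable {𝓤 ρ} in
theorem SmRep.finite (h : SmRep 𝓤 ρ) {s : Set V} (hs : s.Finite) :
    ∃ U ∈ 𝓤, ∀ u ∈ U, ∀ v ∈ s, ρ u v = v := by
  choose F hF1 hF2 using h
  obtain ⟨U, hU, hUt⟩ := 𝓤.exists_le_forall hs.toFinset F fun v _ => hF1 v
  exact ⟨U, hU, fun u hu v hv => hF2 v u (hUt v (hs.mem_toFinset.mpr hv) hu)⟩

variable {𝓤 ρ} in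
/-- acting on the values of a smooth function -/
theorem SmRep.sm2_act (h : SmRep 𝓤 ρ) {f : Γ → V} (hf : 𝓤.Sm1 f) :
    𝓤.Sm2 (fun g => ρ g.1 (f g.2)) := by
  obtain ⟨U, hU, h1⟩ := h.finite hf.finite_range
  obtain ⟨U', hU', h2⟩ := hf
  refine ⟨U ⊓ U', 𝓤.inf_mem _ hU _ hU', fun g g' u hu v hv => ?_⟩
  simp only
  rw [h2 g' v hv.2, map_mul, Module.End.mul_apply, h1 u hu.1 _ ⟨g', rfl⟩]

variable {𝓤 ρ} in
theorem SmRep.sm1_act (h : SmRep 𝓤 ρ) {f : Γ → V} (hf : 𝓤.Sm1 f) :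
    𝓤.Sm1 (fun g => ρ g (f g)) := by
  obtain ⟨U, hU, h1⟩ := h.finite hf.finite_range
  obtain ⟨U', hU', h2⟩ := hf
  refine ⟨U ⊓ U', 𝓤.inf_mem _ hU _ hU', fun g u hu => ?_⟩
  simp only
  rw [h2 g u hu.2, map_mul, Module.End.mul_apply, h1 u hu.1 _ ⟨g, rfl⟩]

/-- smooth `1`-cochains -/
def C1 (k : Type*) [CommRing k] (V : Type*) [AddCommGroup V] [Module k V] :
    Submodule k (Γ → V) where
  carrier := {f | 𝓤.Sm1 f}
  zero_mem' := Fam.Sm1.const 𝓤 (0 : V)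
  add_mem' hf hg := hf.post₂ hg (· + ·)
  smul_mem' c _ hf := hf.post (c • ·)

/-- smooth `2`-cochains -/
def C2 (k : Type*) [CommRing k] (V : Type*) [AddCommGroup V] [Module k V] :
    Submodule k (Γ × Γ → V) where
  carrier := {f | 𝓤.Sm2 f}
  zero_mem' := Fam.Sm2.const 𝓤 (0 : V)
  add_mem' hf hg := hf.post₂ hg (· + ·)
  smul_mem' c _ hf := hf.post (c • ·)

theorem mem_C1 {f : Γ → V} : f ∈ C1 𝓤 k V ↔ 𝓤.Sm1 f := Iff.rfl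

theorem mem_C2 {f : Γ × Γ → V} : f ∈ C2 𝓤 k V ↔ 𝓤.Sm2 f := Iff.rfl

/-- the differential in degree `0` -/
def d0 : V →ₗ[k] (Γ → V) where
  toFun v g := ρ g v - v
  map_add' v w := by
    funext g
    simp only [map_add, Pi.add_apply]
    abel
  map_smul' c v := by
    funext g
    simp only [map_smul, Pi.smul_apply, RingHom.id_apply, smul_sub]

@[simp] theorem d0_apply (v : V) (g : Γ) : d0 ρ v g = ρ g v - v := rfl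

/-- the differential in degree `1` -/
def d1 : (Γ → V) →ₗ[k] (Γ × Γ → V) where
  toFun c g := ρ g.1 (c g.2) - c (g.1 * g.2) + c g.1
  map_add' v w := by
    funext g
    simp only [map_add, Pi.add_apply]
    abel
  map_smul' c v := by
    funext g
    simp only [map_smul, Pi.smul_apply, RingHom.id_apply, smul_sub, smul_add]

@[simp] theorem d1_apply (c : Γ → V) (g : Γ × Γ) :
    d1 ρ c g = ρ g.1 (c g.2) - c (g.1 * g.2) + c g.1 := rfl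

/-- smooth `1`-cocycles -/
def Z1 : Submodule k (Γ → V) where
  carrier := {f | 𝓤.Sm1 f ∧ ∀ g h, f (g * h) = ρ g (f h) + f g}
  zero_mem' := ⟨Fam.Sm1.const 𝓤 (0 : V), fun g h => by simp⟩
  add_mem' := by
    rintro f f' ⟨hf1, hf2⟩ ⟨hf1', hf2'⟩
    refine ⟨hf1.post₂ hf1' (· + ·), fun g h => ?_⟩
    simp only [Pi.add_apply, hf2, hf2', map_add]
    abel
  smul_mem' := by
    rintro c f ⟨hf1, hf2⟩
    refine ⟨hf1.post (c • ·), fun g h => ?_⟩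
    simp only [Pi.smul_apply, hf2, smul_add, map_smul]

/-- smooth `2`-cocycles -/
def Z2 : Submodule k (Γ × Γ → V) where
  carrier := {f | 𝓤.Sm2 f ∧ ∀ g h j, f (g * h, j) + f (g, h) = ρ g (f (h, j)) + f (g, h * j)}
  zero_mem' := ⟨Fam.Sm2.const 𝓤 (0 : V), fun g h j => by simp⟩
  add_mem' := by
    rintro f f' ⟨hf1, hf2⟩ ⟨hf1', hf2'⟩
    refine ⟨hf1.post₂ hf1' (· + ·), fun g h j => ?_⟩
    simp only [Pi.add_apply, map_add]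
    have e1 := hf2 g h j
    have e2 := hf2' g h j
    have e3 : f (g * h, j) + f' (g * h, j) + (f (g, h) + f' (g, h)) =
      (f (g * h, j) + f (g, h)) + (f' (g * h, j) + f' (g, h)) := by abel
    rw [e3, e1, e2]
    abel
  smul_mem' := by
    rintro c f ⟨hf1, hf2⟩
    refine ⟨hf1.post (c • ·), fun g h j => ?_⟩
    simp only [Pi.smul_apply, map_smul, ← smul_add, hf2]

variable {𝓤 ρ} in
theorem mem_Z1 {f : Γ → V} : f ∈ Z1 𝓤 ρ ↔ 𝓤.Sm1 f ∧ ∀ g h, f (g * h) = ρ g (f h) + f g := Iff.rfl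

variable {𝓤 ρ} in
theorem mem_Z2 {f : Γ × Γ → V} : f ∈ Z2 𝓤 ρ ↔ 𝓤.Sm2 f ∧
    ∀ g h j, f (g * h, j) + f (g, h) = ρ g (f (h, j)) + f (g, h * j) := Iff.rfl

/-- `1`-coboundaries -/
def B1 : Submodule k (Γ → V) := LinearMap.range (d0 ρ)

/-- smooth `2`-coboundaries -/
def B2 : Submodule k (Γ × Γ → V) := (C1 𝓤 k V).map (d1 ρ)

variable {ρ} in
theorem mem_B1 {f : Γ → V} : f ∈ B1 ρ ↔ ∃ v, ∀ g, f g = ρ g v - v := by
  constructor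
  · rintro ⟨v, rfl⟩
    exact ⟨v, fun g => rfl⟩
  · rintro ⟨v, hv⟩
    exact ⟨v, funext fun g => (hv g).symm⟩

variable {𝓤 ρ} in
theorem mem_B2 {f : Γ × Γ → V} : f ∈ B2 𝓤 ρ ↔ ∃ c : Γ → V, 𝓤.Sm1 c ∧
    ∀ g h, f (g, h) = ρ g (c h) - c (g * h) + c g := by
  constructor
  · rintro ⟨c, hc, rfl⟩
    exact ⟨c, hc, fun g h => rfl⟩
  · rintro ⟨c, hc, h⟩
    exact ⟨c, hc, funext fun g => (h g.1 g.2).symm⟩

/-- `H¹` -/
abbrev H1 : Type _ := ↥(Z1 𝓤 ρ) ⧸ (B1 ρ).comap (Z1 𝓤 ρ).subtype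

/-- `H²` -/
abbrev H2 : Type _ := ↥(Z2 𝓤 ρ) ⧸ (B2 𝓤 ρ).comap (Z2 𝓤 ρ).subtype

/-- `H⁰` -/
noncomputable abbrev H0 : Submodule k V := ρ.invariants

theorem mem_H0 {v : V} : v ∈ H0 ρ ↔ ∀ g, ρ g v = v := Iff.rfl

/-- class of a `1`-cocycle -/
abbrev H1.mk : ↥(Z1 𝓤 ρ) →ₗ[k] H1 𝓤 ρ := Submodule.mkQ _

/-- class of a `2`-cocycle -/
abbrev H2.mk : ↥(Z2 𝓤 ρ) →ₗ[k] H2 𝓤 ρ := Submodule.mkQ _

variable {𝓤 ρ}

theorem H1.mk_surjective (x : H1 𝓤 ρ) : ∃ z : ↥(Z1 𝓤 ρ), H1.mk 𝓤 ρ z = x :=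
  Submodule.mkQ_surjective _ x

theorem H2.mk_surjective (x : H2 𝓤 ρ) : ∃ z : ↥(Z2 𝓤 ρ), H2.mk 𝓤 ρ z = x :=
  Submodule.mkQ_surjective _ x

theorem H1.mk_eq_zero {z : ↥(Z1 𝓤 ρ)} :
    H1.mk 𝓤 ρ z = 0 ↔ ∃ v, ∀ g, (z : Γ → V) g = ρ g v - v := by
  rw [Submodule.mkQ_apply, Submodule.Quotient.mk_eq_zero, Submodule.mem_comap]
  exact mem_B1

theorem H2.mk_eq_zero {z : ↥(Z2 𝓤 ρ)} :
    H2.mk 𝓤 ρ z = 0 ↔ ∃ c : Γ → V, 𝓤.Sm1 c ∧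
      ∀ g h, (z : Γ × Γ → V) (g, h) = ρ g (c h) - c (g * h) + c g := by
  rw [Submodule.mkQ_apply, Submodule.Quotient.mk_eq_zero, Submodule.mem_comap]
  exact mem_B2

theorem H1.mk_eq_mk {z z' : ↥(Z1 𝓤 ρ)} :
    H1.mk 𝓤 ρ z = H1.mk 𝓤 ρ z' ↔ ∃ v, ∀ g, (z : Γ → V) g = (z' : Γ → V) g + (ρ g v - v) := by
  rw [← sub_eq_zero, ← map_sub, H1.mk_eq_zero]
  simp only [Submodule.coe_sub, Pi.sub_apply, sub_eq_iff_eq_add, add_comm]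

theorem H2.mk_eq_mk {z z' : ↥(Z2 𝓤 ρ)} :
    H2.mk 𝓤 ρ z = H2.mk 𝓤 ρ z' ↔ ∃ c : Γ → V, 𝓤.Sm1 c ∧
      ∀ g h, (z : Γ × Γ → V) (g, h) = (z' : Γ × Γ → V) (g, h) +
        (ρ g (c h) - c (g * h) + c g) := by
  rw [← sub_eq_zero, ← map_sub, H2.mk_eq_zero]
  simp only [Submodule.coe_sub, Pi.sub_apply, sub_eq_iff_eq_add']

theorem d0_mem_Z1 (hρ : SmRep 𝓤 ρ) (v : V) : d0 ρ v ∈ Z1 𝓤 ρ := by
  refine ⟨?_, fun g h => ?_⟩
  · obtain ⟨U, hU, h⟩ := hρ v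
    exact ⟨U, hU, fun g u hu => by simp [h u hu]⟩
  · simp only [d0_apply, map_mul, Module.End.mul_apply, map_sub]
    abel

theorem d1_sm2 (hρ : SmRep 𝓤 ρ) {c : Γ → V} (hc : 𝓤.Sm1 c) : 𝓤.Sm2 (d1 ρ c) := by
  have h1 := hρ.sm2_act hc
  have h2 := hc.sm2_mul
  have h3 := hc.sm2_fst
  exact (h1.post₂ h2 (· - ·)).post₂ h3 (· + ·)

theorem d1_cocycle (c : Γ → V) (g h j : Γ) :
    d1 ρ c (g * h, j) + d1 ρ c (g, h) = ρ g (d1 ρ c (h, j)) + d1 ρ c (g, h * j) := by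
  simp only [d1_apply, map_mul, Module.End.mul_apply, map_sub, map_add, mul_assoc]
  abel

theorem d1_mem_Z2 (hρ : SmRep 𝓤 ρ) {c : Γ → V} (hc : 𝓤.Sm1 c) : d1 ρ c ∈ Z2 𝓤 ρ :=
  ⟨d1_sm2 hρ hc, d1_cocycle c⟩

theorem Z1.map_one (z : ↥(Z1 𝓤 ρ)) : (z : Γ → V) 1 = 0 := by
  have := z.2.2 1 1
  simpa using this

theorem d1_eq_zero_iff {c : Γ → V} :
    (∀ g h, d1 ρ c (g, h) = 0) ↔ ∀ g h, c (g * h) = ρ g (c h) + c g := by
  refine forall₂_congr fun g h => ?_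
  rw [d1_apply]
  constructor
  · intro e
    have : c (g * h) = ρ g (c h) + c g - (ρ g (c h) - c (g * h) + c g) := by abel
    rw [this, e, sub_zero]
  · intro e
    simp only [e]
    abel

/-! ### functoriality -/

variable (𝓤 ρ)

/-- Morphisms of pairs (group, representation). -/
structure Mor where
  /-- the homomorphism of groups -/
  f : Δ →* Γ
  /-- the linear map -/
  T : V →ₗ[k] W
  comm : ∀ δ v, T (ρ (f δ) v) = σ δ (T v)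
  cont : ∀ U ∈ 𝓤, ∃ U' ∈ 𝓤', U' ≤ U.comap f

variable {𝓤 𝓤' 𝓤'' ρ σ τ}

namespace Mor

variable (m : Mor 𝓤 𝓤' ρ σ) (n : Mor 𝓤' 𝓤'' σ τ)

/-- composition -/
def comp : Mor 𝓤 𝓤'' ρ τ where
  f := m.f.comp n.f
  T := n.T ∘ₗ m.T
  comm θ v := by
    rw [LinearMap.comp_apply, LinearMap.comp_apply, MonoidHom.comp_apply, m.comm, n.comm]
  cont U hU := by
    obtain ⟨U', hU', h'⟩ := m.cont U hU
    obtain ⟨U'', hU'', h''⟩ := n.cont U' hU'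
    exact ⟨U'', hU'', h''.trans (Subgroup.comap_mono h')⟩

/-- identity -/
def id (𝓤 : Fam Γ) (ρ : Representation k Γ V) : Mor 𝓤 𝓤 ρ ρ where
  f := MonoidHom.id Γ
  T := LinearMap.id
  comm _ _ := rfl
  cont U hU := ⟨U, hU, le_rfl⟩

/-- map on `H⁰` -/
noncomputable def mapH0 : ↥(H0 ρ) →ₗ[k] ↥(H0 σ) :=
  (m.T ∘ₗ (H0 ρ).subtype).codRestrict (H0 σ) fun v δ => by
    rw [LinearMap.comp_apply, ← m.comm]
    congr 1
    exact v.2 (m.f δ)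

@[simp] theorem coe_mapH0 (v : ↥(H0 ρ)) : (m.mapH0 v : W) = m.T v := rfl

/-- map on `1`-cocycles -/
def mapZ1 : ↥(Z1 𝓤 ρ) →ₗ[k] ↥(Z1 𝓤' σ) where
  toFun z := ⟨fun δ => m.T ((z : Γ → V) (m.f δ)), by
    refine ⟨(z.2.1.comp m.f m.cont).post m.T, fun g h => ?_⟩
    simp only [map_mul]
    rw [z.2.2, map_add, m.comm]⟩
  map_add' z z' := by
    apply Subtype.ext
    funext δ
    simp
  map_smul' c z := by
    apply Subtype.ext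
    funext δ
    simp

@[simp] theorem mapZ1_apply (z : ↥(Z1 𝓤 ρ)) (δ : Δ) :
    (m.mapZ1 z : Δ → W) δ = m.T ((z : Γ → V) (m.f δ)) := rfl

/-- map on `2`-cocycles -/
def mapZ2 : ↥(Z2 𝓤 ρ) →ₗ[k] ↥(Z2 𝓤' σ) where
  toFun z := ⟨fun δ => m.T ((z : Γ × Γ → V) (m.f δ.1, m.f δ.2)), by
    refine ⟨(z.2.1.comp m.f m.cont).post m.T, fun g h j => ?_⟩
    simp only [map_mul]
    rw [← map_add, z.2.2, map_add, m.comm]⟩
  map_add' z z' := by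
    apply Subtype.ext
    funext δ
    simp
  map_smul' c z := by
    apply Subtype.ext
    funext δ
    simp

@[simp] theorem mapZ2_apply (z : ↥(Z2 𝓤 ρ)) (δ : Δ × Δ) :
    (m.mapZ2 z : Δ × Δ → W) δ = m.T ((z : Γ × Γ → V) (m.f δ.1, m.f δ.2)) := rfl

/-- map on `H¹` -/
def mapH1 : H1 𝓤 ρ →ₗ[k] H1 𝓤' σ :=
  Submodule.mapQ _ _ m.mapZ1 (by
    intro z hz
    rw [Submodule.mem_comap] at hz
    obtain ⟨v, hv⟩ := mem_B1.mp hz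
    rw [Submodule.mem_comap, Submodule.mem_comap]
    apply mem_B1.mpr
    refine ⟨m.T v, fun δ => ?_⟩
    have h1 := hv (m.f δ)
    rw [Submodule.subtype_apply] at h1 ⊢
    rw [mapZ1_apply, h1, map_sub, m.comm])

/-- map on `H²` -/
def mapH2 : H2 𝓤 ρ →ₗ[k] H2 𝓤' σ :=
  Submodule.mapQ _ _ m.mapZ2 (by
    intro z hz
    rw [Submodule.mem_comap] at hz
    obtain ⟨c, hc, h⟩ := mem_B2.mp hz
    rw [Submodule.mem_comap, Submodule.mem_comap]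
    apply mem_B2.mpr
    refine ⟨fun δ => m.T (c (m.f δ)), (hc.comp m.f m.cont).post m.T, fun g g' => ?_⟩
    have h1 := h (m.f g) (m.f g')
    rw [Submodule.subtype_apply] at h1 ⊢
    simp only [map_mul]
    rw [mapZ2_apply, h1, map_add, map_sub, m.comm])

@[simp] theorem mapH1_mk (z : ↥(Z1 𝓤 ρ)) : m.mapH1 (H1.mk 𝓤 ρ z) = H1.mk 𝓤' σ (m.mapZ1 z) := rfl

@[simp] theorem mapH2_mk (z : ↥(Z2 𝓤 ρ)) : m.mapH2 (H2.mk 𝓤 ρ z) = H2.mk 𝓤' σ (m.mapZ2 z) := rfl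

theorem mapH1_comp (x : H1 𝓤 ρ) : (m.comp n).mapH1 x = n.mapH1 (m.mapH1 x) := by
  obtain ⟨z, rfl⟩ := H1.mk_surjective x
  rfl

theorem mapH2_comp (x : H2 𝓤 ρ) : (m.comp n).mapH2 x = n.mapH2 (m.mapH2 x) := by
  obtain ⟨z, rfl⟩ := H2.mk_surjective x
  rfl

theorem mapH1_id (x : H1 𝓤 ρ) : (Mor.id 𝓤 ρ).mapH1 x = x := by
  obtain ⟨z, rfl⟩ := H1.mk_surjective x
  rfl

theorem mapH2_id (x : H2 𝓤 ρ) : (Mor.id 𝓤 ρ).mapH2 x = x := by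
  obtain ⟨z, rfl⟩ := H2.mk_surjective x
  rfl

/-- change of coefficients -/
def coeff {ρ : Representation k Γ V} {σ : Representation k Γ W} (T : V →ₗ[k] W)
    (hT : ∀ g v, T (ρ g v) = σ g (T v)) : Mor 𝓤 𝓤 ρ σ where
  f := MonoidHom.id Γ
  T := T
  comm := hT
  cont U hU := ⟨U, hU, le_rfl⟩

/-- pullback along a homomorphism -/
def pull (f : Δ →* Γ) (𝓤 : Fam Γ) (ρ : Representation k Γ V) :
    Mor 𝓤 (𝓤.comap f) ρ (ρ.comp f) where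
  f := f
  T := LinearMap.id
  comm _ _ := rfl
  cont U hU := ⟨U.comap f, Fam.comap_mem hU, le_rfl⟩

@[simp] theorem coeff_mapZ1 {ρ : Representation k Γ V} {σ : Representation k Γ W} (T : V →ₗ[k] W)
    (hT : ∀ g v, T (ρ g v) = σ g (T v)) (z : ↥(Z1 𝓤 ρ)) (g : Γ) :
    ((coeff T hT : Mor 𝓤 𝓤 ρ σ).mapZ1 z : Γ → W) g = T ((z : Γ → V) g) := rfl

@[simp] theorem coeff_mapZ2 {ρ : Representation k Γ V} {σ : Representation k Γ W} (T : V →ₗ[k] W)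
    (hT : ∀ g v, T (ρ g v) = σ g (T v)) (z : ↥(Z2 𝓤 ρ)) (g : Γ × Γ) :
    ((coeff T hT : Mor 𝓤 𝓤 ρ σ).mapZ2 z : Γ × Γ → W) g = T ((z : Γ × Γ → V) g) := rfl

@[simp] theorem pull_mapZ1 (f : Δ →* Γ) (z : ↥(Z1 𝓤 ρ)) (g : Δ) :
    ((pull f 𝓤 ρ).mapZ1 z : Δ → V) g = (z : Γ → V) (f g) := rfl

@[simp] theorem pull_mapZ2 (f : Δ →* Γ) (z : ↥(Z2 𝓤 ρ)) (g : Δ × Δ) :
    ((pull f 𝓤 ρ).mapZ2 z : Δ × Δ → V) g = (z : Γ × Γ → V) (f g.1, f g.2) := rfl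

/-- restriction to a subgroup -/
abbrev res (𝓤 : Fam Γ) (ρ : Representation k Γ V) (Δ : Subgroup Γ) :
    Mor 𝓤 (𝓤.res Δ) ρ (ρ.comp Δ.subtype) := pull Δ.subtype 𝓤 ρ

end Mor

theorem SmRep.comp {𝓤 : Fam Γ} {ρ : Representation k Γ V} (h : SmRep 𝓤 ρ) (f : Δ →* Γ) :
    SmRep (𝓤.comap f) (ρ.comp f) := by
  intro v
  obtain ⟨U, hU, h1⟩ := h v
  exact ⟨U.comap f, Fam.comap_mem hU, fun u hu => h1 (f u) hu⟩

/-- Every class in `H¹` becomes trivial on some member of the family. -/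
theorem exists_res_H1_eq_zero (x : H1 𝓤 ρ) : ∃ U ∈ 𝓤, (Mor.res 𝓤 ρ U).mapH1 x = 0 := by
  obtain ⟨z, rfl⟩ := H1.mk_surjective x
  obtain ⟨U, hU, h⟩ := z.2.1
  refine ⟨U, hU, ?_⟩
  rw [Mor.mapH1_mk, H1.mk_eq_zero]
  refine ⟨0, fun g => ?_⟩
  have h1 := h 1 g g.2
  rw [one_mul, Z1.map_one] at h1
  simpa [Mor.res, Mor.pull] using h1

/-- Every class in `H²` becomes trivial on some member of the family. -/
theorem exists_res_H2_eq_zero (hρ : SmRep 𝓤 ρ) (x : H2 𝓤 ρ) :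
    ∃ U ∈ 𝓤, (Mor.res 𝓤 ρ U).mapH2 x = 0 := by
  obtain ⟨z, rfl⟩ := H2.mk_surjective x
  obtain ⟨U, hU, h⟩ := z.2.1
  obtain ⟨U', hU', h'⟩ := hρ ((z : Γ × Γ → V) (1, 1))
  refine ⟨U ⊓ U', 𝓤.inf_mem _ hU _ hU', ?_⟩
  rw [Mor.mapH2_mk, H2.mk_eq_zero]
  refine ⟨fun _ => (z : Γ × Γ → V) (1, 1), Fam.Sm1.const _ _, fun g g' => ?_⟩
  have h1 := h 1 1 g g.2.1 g' g'.2.1
  rw [one_mul, one_mul] at h1
  have h2 := h' (g : Γ) g.2.2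
  simp only [Mor.mapZ2_apply, Mor.res, Mor.pull, LinearMap.id_apply, MonoidHom.coe_comp,
    Function.comp_apply, Subgroup.subtype_apply, h1, h2, sub_self, zero_add]

end Rep

end Fermat.Agent.Coh
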