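import Fermat.Agent.Coh.Shapiro

/-!
# Cyclic quotients: the kernel of `H²(Γ) → H²(W)` when `Γ / W` is cyclic
-/

set_option autoImplicit false
set_option linter.unusedSectionVars false

namespace Fermat.Agent.Coh

variable {k : Type*} [CommRing k] {Γ : Type*} [Group Γ]
variable {V : Type*} [AddCommGroup V] [Module k V]

/-- subrepresentation -/
def subRep (ρ : Representation k Γ V) (S : Submodule k V) (hS : ∀ g, S ≤ S.comap (ρ g)) :
    Representation k Γ S where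
  toFun g := (ρ g).restrict (hS g)
  map_one' := by
    ext v
    simp [LinearMap.restrict_apply]
  map_mul' g h := by
    ext v
    simp [LinearMap.restrict_apply]

@[simp] theorem coe_subRep (ρ : Representation k Γ V) (S : Submodule k V)
    (hS : ∀ g, S ≤ S.comap (ρ g)) (g : Γ) (v : S) : (subRep ρ S hS g v : V) = ρ g v := rfl

section

variable (W : Subgroup Γ) [hW : W.Normal] [Fintype (Γ ⧸ W)] (ρ : Representation k Γ V)

/-- the trace kernel -/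
abbrev trKer : Submodule k (Γ ⧸ W → V) := LinearMap.ker (sumLin (k := k) (V := V) W)

theorem trKer_le (g : Γ) : trKer (k := k) (V := V) W ≤
    (trKer (k := k) (V := V) W).comap (indRep W ρ g) := by
  intro φ hφ
  rw [LinearMap.mem_ker] at hφ
  rw [Submodule.mem_comap, LinearMap.mem_ker, sumLin_comm, hφ, map_zero]

/-- the representation on the trace kernel -/
abbrev trKerRep : Representation k Γ (trKer (k := k) (V := V) W) :=
  subRep (indRep W ρ) _ (trKer_le W ρ)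

/-- `0 → K → Ind V → V → 0` -/
def cycSES2 : SES (trKerRep W ρ) (indRep W ρ) ρ where
  i := (trKer (k := k) (V := V) W).subtype
  π := sumLin (k := k) W
  i_comm _ _ := rfl
  π_comm g v := sumLin_comm W ρ g v
  inj := Subtype.val_injective
  surj v := by
    classical
    refine ⟨Pi.single ((1 : Γ) : Γ ⧸ W) v, ?_⟩
    rw [sumLin_apply, Finset.sum_pi_single']
    simp
  exact v hv := ⟨⟨v, hv⟩, rfl⟩
  comp v' := v'.2

variable (σ : Γ)

/-- right translation by `σ` minus the identity -/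
def rtLin : (Γ ⧸ W → V) →ₗ[k] (Γ ⧸ W → V) where
  toFun φ x := φ (x * (σ : Γ ⧸ W)) - φ x
  map_add' φ ψ := by
    funext x
    simp only [Pi.add_apply]
    abel
  map_smul' c φ := by
    funext x
    simp [smul_sub]

@[simp] theorem rtLin_apply (φ : Γ ⧸ W → V) (x : Γ ⧸ W) :
    rtLin (k := k) W σ φ x = φ (x * (σ : Γ ⧸ W)) - φ x := rfl

theorem sumLin_rtLin (φ : Γ ⧸ W → V) : sumLin (k := k) W (rtLin (k := k) W σ φ) = 0 := by
  simp only [sumLin_apply, rtLin_apply, Finset.sum_sub_distrib]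
  rw [sub_eq_zero]
  exact Fintype.sum_equiv (Equiv.mulRight (σ : Γ ⧸ W)) _ _ fun x => rfl

theorem smul_eq_mul_quot (g : Γ) (x : Γ ⧸ W) : g • x = (g : Γ ⧸ W) * x := by
  obtain ⟨y, rfl⟩ := QuotientGroup.mk_surjective x
  rfl

theorem rtLin_comm (g : Γ) (φ : Γ ⧸ W → V) :
    rtLin (k := k) W σ (indRep W ρ g φ) = indRep W ρ g (rtLin (k := k) W σ φ) := by
  funext x
  simp only [rtLin_apply, indRep_apply, map_sub, smul_eq_mul_quot, mul_assoc]

variable (hσ : ∀ x : Γ ⧸ W, x ∈ Subgroup.zpowers (σ : Γ ⧸ W))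

include hσ in
theorem rtLin_eq_zero_iff (φ : Γ ⧸ W → V) :
    rtLin (k := k) W σ φ = 0 ↔ ∃ v, constLin (k := k) W v = φ := by
  constructor
  · intro h
    refine ⟨φ 1, ?_⟩
    have h1 : ∀ x, φ (x * (σ : Γ ⧸ W)) = φ x := fun x => sub_eq_zero.mp (congrFun h x)
    have h2 : ∀ n : ℤ, φ ((σ : Γ ⧸ W) ^ n) = φ 1 := by
      intro n
      induction n with
      | zero => simp
      | succ n ih => rw [zpow_add_one, h1]; exact ih
      | pred n ih =>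
        rw [← ih, ← h1, ← zpow_add_one]
        congr 2
        ring
    funext x
    obtain ⟨n, rfl⟩ := hσ x
    exact (h2 n).symm
  · rintro ⟨v, rfl⟩
    funext x
    simp

include hσ in
theorem exists_rtLin_eq (ψ : Γ ⧸ W → V) (hψ : ∑ x, ψ x = 0) :
    ∃ φ, rtLin (k := k) W σ φ = ψ := by
  classical
  set s : Γ ⧸ W := (σ : Γ ⧸ W) with hs
  set m := orderOf s with hm
  have hm0 : 0 < m := orderOf_pos s
  have hpos : ∀ x : Γ ⧸ W, ∃ i < m, s ^ i = x := by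
    intro x
    have h1 : x ∈ Submonoid.powers s := by
      rw [mem_powers_iff_mem_zpowers]; exact hσ x
    rw [mem_powers_iff_mem_range_orderOf, Finset.mem_image] at h1
    obtain ⟨i, hi, h2⟩ := h1
    exact ⟨i, Finset.mem_range.mp hi, h2⟩
  choose i hi1 hi2 using hpos
  have hinj : ∀ a < m, ∀ b < m, s ^ a = s ^ b → a = b := fun a ha b hb h =>
    pow_injOn_Iio_orderOf ha hb h
  have hsum : ∑ j ∈ Finset.range m, ψ (s ^ j) = 0 := by
    rw [← hψ]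
    refine Finset.sum_bij (fun j _ => s ^ j) (fun _ _ => Finset.mem_univ _) ?_ ?_ (fun _ _ => rfl)
    · intro a ha b hb h
      exact hinj a (Finset.mem_range.mp ha) b (Finset.mem_range.mp hb) h
    · intro x _
      exact ⟨i x, Finset.mem_range.mpr (hi1 x), hi2 x⟩
  refine ⟨fun x => ∑ j ∈ Finset.range (i x), ψ (s ^ j), ?_⟩
  funext x
  rw [rtLin_apply]
  have hx : x * s = s ^ (i x + 1) := by rw [pow_succ, hi2]
  by_cases hlt : i x + 1 < m
  · have h1 : i (x * s) = i x + 1 := hinj _ (hi1 _) _ hlt (by rw [hi2, hx])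
    rw [h1, Finset.sum_range_succ, add_sub_cancel_left, hi2]
  · have h0 : i x + 1 = m := by have := hi1 x; omega
    have h1 : i (x * s) = 0 := hinj _ (hi1 _) _ hm0 (by
      rw [hi2, hx, h0, hm, pow_orderOf_eq_one, pow_zero])
    rw [h1, Finset.range_zero, Finset.sum_empty, zero_sub]
    rw [← h0, Finset.sum_range_succ, hi2] at hsum
    exact neg_eq_of_add_eq_zero_right hsum

/-- `0 → V → Ind V → K → 0` -/
def cycSES1 : SES ρ (indRep W ρ) (trKerRep W ρ) where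
  i := constLin (k := k) W
  π := (rtLin (k := k) W σ).codRestrict _ (sumLin_rtLin W σ)
  i_comm g v := constLin_comm W ρ g v
  π_comm g v := Subtype.ext (rtLin_comm W ρ σ g v)
  inj := constLin_injective W
  surj := by
    rintro ⟨ψ, hψ⟩
    obtain ⟨φ, hφ⟩ := exists_rtLin_eq (k := k) W σ hσ ψ hψ
    exact ⟨φ, Subtype.ext hφ⟩
  exact v hv := (rtLin_eq_zero_iff (k := k) W σ hσ v).mp (congrArg Subtype.val hv)
  comp v' := Subtype.ext ((rtLin_eq_zero_iff (k := k) W σ hσ _).mpr ⟨v', rfl⟩)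

variable {𝓤 : Fam Γ} (hWo : 𝓤.IsOpen W) {ρ} (hρ : SmRep 𝓤 ρ)

/-- the cyclic class attached to an invariant element -/
noncomputable def cyc : ↥(H0 ρ) →ₗ[k] H2 𝓤 ρ :=
  (cycSES1 W ρ σ hσ).delta1 (smRep_indRep hWo hρ) ∘ₗ
    (cycSES2 W ρ).delta0 (smRep_indRep hWo hρ)

end

/-! ### the norm map and the main properties of `cyc` -/

section nm

variable (𝓤 : Fam Γ) (W : Subgroup Γ) [Fintype (Γ ⧸ W)] (ρ : Representation k Γ V)

/-- the norm map -/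
noncomputable def nm : ↥(H0 (ρ.comp W.subtype)) →ₗ[k] ↥(H0 ρ) :=
  (sumMor 𝓤 W ρ).mapH0 ∘ₗ (shEquiv0 𝓤 W ρ).symm.toLinearMap

theorem nm_sh (φ : ↥(H0 (indRep W ρ))) :
    nm 𝓤 W ρ ((sh 𝓤 W ρ).mapH0 φ) = (sumMor 𝓤 W ρ).mapH0 φ := by
  rw [nm, LinearMap.comp_apply]
  congr 1
  exact (shEquiv0 𝓤 W ρ).symm_apply_apply φ

theorem coe_nm (b : ↥(H0 (ρ.comp W.subtype))) :
    (nm 𝓤 W ρ b : V) = ∑ x : Γ ⧸ W, ρ (sec W x) b := by
  obtain ⟨φ, rfl⟩ := (shEquiv0 𝓤 W ρ).surjective b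
  have h1 : nm 𝓤 W ρ (shEquiv0 𝓤 W ρ φ) = (sumMor 𝓤 W ρ).mapH0 φ := nm_sh 𝓤 W ρ φ
  rw [h1]
  change ∑ x, (φ : Γ ⧸ W → V) x = _
  refine Finset.sum_congr rfl fun x _ => ?_
  have h2 := congrFun (φ.2 (sec W x)) x
  rw [indRep_apply, sec_inv_smul] at h2
  exact h2.symm

theorem coe_nm_eq (b : ↥(H0 (ρ.comp W.subtype))) (s : Γ ⧸ W → Γ)
    (hs : ∀ x, ((s x : Γ) : Γ ⧸ W) = x) :
    (nm 𝓤 W ρ b : V) = ∑ x : Γ ⧸ W, ρ (s x) b := by
  rw [coe_nm]
  refine Finset.sum_congr rfl fun x _ => ?_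
  have h1 : ((sec W x : Γ) : Γ ⧸ W) = (s x : Γ) := by rw [mk_sec, hs]
  rw [QuotientGroup.eq] at h1
  have h2 : ρ ((sec W x)⁻¹ * s x) (b : V) = b := b.2 ⟨_, h1⟩
  have h3 : s x = sec W x * ((sec W x)⁻¹ * s x) := by group
  conv_rhs => rw [h3, map_mul, Module.End.mul_apply, h2]

end nm

section main

variable (W : Subgroup Γ) [hW : W.Normal] [Fintype (Γ ⧸ W)] {ρ : Representation k Γ V}
  (σ : Γ) (hσ : ∀ x : Γ ⧸ W, x ∈ Subgroup.zpowers (σ : Γ ⧸ W))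
  {𝓤 : Fam Γ} (hWo : 𝓤.IsOpen W) (hρ : SmRep 𝓤 ρ)

/-- If `H¹(W)` has no `p`-torsion, a class that dies on `W` is cyclic up to a factor prime
to `p`. -/
theorem exists_cyc_eq (p : ℕ)
    (h1 : ∀ y : H1 (𝓤.res W) (ρ.comp W.subtype), ∃ c : ℕ, c.Coprime p ∧ c • y = 0)
    (x : H2 𝓤 ρ) (hx : (Mor.res 𝓤 ρ W).mapH2 x = 0) :
    ∃ c : ℕ, c.Coprime p ∧ ∃ a, cyc W σ hσ hWo hρ a = c • x := by
  have hi := smRep_indRep hWo hρ
  have e1 : ((cycSES1 W ρ σ hσ).iMor 𝓤).mapH2 x = 0 := by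
    apply sh_H2_injective hWo
    rw [map_zero]
    exact (sh_const_H2 𝓤 W ρ x).trans hx
  obtain ⟨w, rfl⟩ := ((cycSES1 W ρ σ hσ).exact_delta1_H2 hi x).mp e1
  obtain ⟨c, hc, hcw⟩ := h1 ((sh 𝓤 W ρ).mapH1 (((cycSES2 W ρ).iMor 𝓤).mapH1 w))
  refine ⟨c, hc, ?_⟩
  have e2 : ((cycSES2 W ρ).iMor 𝓤).mapH1 (c • w) = 0 := by
    apply sh_H1_injective (U := W) (ρ := ρ) (𝓤 := 𝓤)
    rw [map_zero, map_nsmul, map_nsmul]
    exact hcw
  obtain ⟨a, ha⟩ := ((cycSES2 W ρ).exact_delta0_H1 hi (c • w)).mp e2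
  refine ⟨a, ?_⟩
  rw [cyc, LinearMap.comp_apply, ha, map_nsmul]

/-- Norms give trivial cyclic classes. -/
theorem cyc_nm (b : ↥(H0 (ρ.comp W.subtype))) : cyc W σ hσ hWo hρ (nm 𝓤 W ρ b) = 0 := by
  have hi := smRep_indRep hWo hρ
  obtain ⟨φ, rfl⟩ := (shEquiv0 𝓤 W ρ).surjective b
  have h1 : nm 𝓤 W ρ (shEquiv0 𝓤 W ρ φ) = (sumMor 𝓤 W ρ).mapH0 φ := nm_sh 𝓤 W ρ φ
  have h2 : (cycSES2 W ρ).delta0 hi (nm 𝓤 W ρ (shEquiv0 𝓤 W ρ φ)) = 0 := by
    rw [(cycSES2 W ρ).exact_H0_delta0 hi]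
    exact ⟨φ, h1.symm⟩
  rw [cyc, LinearMap.comp_apply, h2, map_zero]

/-- If `H¹(W)` has no `p`-torsion, the kernel of `cyc` consists of norms, up to a factor prime
to `p`. -/
theorem exists_nm_eq_of_cyc (p : ℕ)
    (h1 : ∀ y : H1 (𝓤.res W) (ρ.comp W.subtype), ∃ c : ℕ, c.Coprime p ∧ c • y = 0)
    (a : ↥(H0 ρ)) (ha : cyc W σ hσ hWo hρ a = 0) :
    ∃ c : ℕ, c.Coprime p ∧ ∃ b, nm 𝓤 W ρ b = c • a := by
  have hi := smRep_indRep hWo hρ
  rw [cyc, LinearMap.comp_apply] at ha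
  obtain ⟨y, hy⟩ := ((cycSES1 W ρ σ hσ).exact_H1_delta1 hi _).mp ha
  obtain ⟨c, hc, hcy⟩ := h1 ((sh 𝓤 W ρ).mapH1 y)
  have h2 : c • y = 0 := by
    apply sh_H1_injective (U := W) (ρ := ρ) (𝓤 := 𝓤)
    rw [map_zero, map_nsmul]
    exact hcy
  refine ⟨c, hc, ?_⟩
  have h3 : (cycSES2 W ρ).delta0 hi (c • a) = 0 := by
    rw [map_nsmul, ← hy, ← map_nsmul, h2, map_zero]
  obtain ⟨φ, hφ⟩ := ((cycSES2 W ρ).exact_H0_delta0 hi _).mp h3
  exact ⟨(sh 𝓤 W ρ).mapH0 φ, (nm_sh 𝓤 W ρ φ).trans hφ⟩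

end main

end Fermat.Agent.Coh
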