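import Fermat.Agent.Coh.H1Weak

/-!
# Open subgroups of absolute Galois groups and fields
-/

set_option autoImplicit false
set_option linter.unusedSectionVars false
set_option linter.style.haveILetI false

namespace Fermat.Agent.GalD

open Fermat.Agent.Coh IntermediateField Module

section fam

variable (k Ω : Type*) [Field k] [Field Ω] [Algebra k Ω] [IsGalois k Ω]

/-- the fixing subgroups of finite Galois subextensions -/
def fam : Fam Gal(Ω/k) where
  carrier := {U | ∃ K : IntermediateField k Ω, FiniteDimensional k K ∧ Normal k K ∧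
    K.fixingSubgroup = U}
  nonempty := ⟨_, ⊥, inferInstance, inferInstance, rfl⟩
  normal := by
    rintro _ ⟨K, h1, h2, rfl⟩
    have : IsGalois k K := ⟨⟩
    infer_instance
  finiteIndex := by
    rintro _ ⟨K, h1, h2, rfl⟩
    refine ⟨fun h => ?_⟩
    rw [← finrank_eq_fixingSubgroup_index] at h
    exact (Module.finrank_pos (R := k) (M := K)).ne' h
  inf_mem := by
    rintro _ ⟨K, h1, h2, rfl⟩ _ ⟨K', h1', h2', rfl⟩
    refine ⟨K ⊔ K', ?_, ?_, ?_⟩
    · exact IntermediateField.finiteDimensional_sup K K'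
    · exact IntermediateField.normal_sup k Ω K K'
    · exact IntermediateField.fixingSubgroup_sup

variable {k Ω}

theorem fam_isOpen_of_finite (K : IntermediateField k Ω) [FiniteDimensional k K] :
    (fam k Ω).IsOpen K.fixingSubgroup :=
  ⟨_, ⟨normalClosure k K Ω, inferInstance, inferInstance, rfl⟩,
    fixingSubgroup_le K.le_normalClosure⟩

/-- the fixed field of a subgroup -/
abbrev fld (U : Subgroup Gal(Ω/k)) : IntermediateField k Ω := fixedField U

theorem mem_fld {U : Subgroup Gal(Ω/k)} {x : Ω} : x ∈ fld U ↔ ∀ g ∈ U, g x = x := by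
  rw [fld, mem_fixedField_iff]

theorem fld_mono {U V : Subgroup Gal(Ω/k)} (h : U ≤ V) : fld V ≤ fld U := fun _ hx =>
  mem_fld.mpr fun g hg => mem_fld.mp hx g (h hg)

theorem finiteDimensional_fld {U : Subgroup Gal(Ω/k)} (hU : (fam k Ω).IsOpen U) :
    FiniteDimensional k (fld U) := by
  obtain ⟨_, ⟨K, h1, h2, rfl⟩, hKU⟩ := hU
  have h3 : fld U ≤ K :=
    (fld_mono hKU).trans (le_of_eq (InfiniteGalois.fixedField_fixingSubgroup K))
  exact FiniteDimensional.of_injective (IntermediateField.inclusion h3).toLinearMap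
    (IntermediateField.inclusion_injective h3)

theorem fixingSubgroup_fld {U : Subgroup Gal(Ω/k)} (hU : (fam k Ω).IsOpen U) :
    (fld U).fixingSubgroup = U := by
  obtain ⟨_, ⟨K, h1, h2, rfl⟩, hKU⟩ := hU
  have h3 : IsOpen (U : Set Gal(Ω/k)) :=
    Subgroup.isOpen_mono hKU K.fixingSubgroup_isOpen
  exact InfiniteGalois.fixingSubgroup_fixedField ⟨U, U.isClosed_of_isOpen h3⟩

theorem finrank_fld {U : Subgroup Gal(Ω/k)} (hU : (fam k Ω).IsOpen U) :
    finrank k (fld U) = U.index := by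
  rw [finrank_eq_fixingSubgroup_index, fixingSubgroup_fld hU]

variable (k Ω) in
/-- the representation on the units -/
def unitsRep : Representation ℤ Gal(Ω/k) (Additive Ωˣ) where
  toFun g := (Units.map (g : Ω →* Ω)).toAdditive.toIntLinearMap
  map_one' := by
    ext u
    rfl
  map_mul' g h := by
    ext u
    rfl

/-- the underlying field element -/
def uval (a : Additive Ωˣ) : Ω := ((Additive.toMul a : Ωˣ) : Ω)

theorem uval_injective : Function.Injective (uval (Ω := Ω)) := fun _ _ h => Units.ext h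

@[simp] theorem uval_zero : uval (0 : Additive Ωˣ) = 1 := rfl
@[simp] theorem uval_add (a b : Additive Ωˣ) : uval (a + b) = uval a * uval b := rfl
@[simp] theorem uval_neg (a : Additive Ωˣ) : uval (-a) = (uval a)⁻¹ := Units.val_inv_eq_inv_val _
@[simp] theorem uval_sub (a b : Additive Ωˣ) : uval (a - b) = uval a / uval b := by
  rw [sub_eq_add_neg, uval_add, uval_neg, div_eq_mul_inv]
@[simp] theorem uval_nsmul (n : ℕ) (a : Additive Ωˣ) : uval (n • a) = uval a ^ n := by
  unfold uval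
  rw [toMul_nsmul, Units.val_pow_eq_pow_val]
@[simp] theorem uval_zsmul (n : ℤ) (a : Additive Ωˣ) : uval (n • a) = uval a ^ n := by
  unfold uval
  rw [toMul_zsmul, Units.val_zpow_eq_zpow_val]
theorem uval_ne_zero (a : Additive Ωˣ) : uval a ≠ 0 := Units.ne_zero _
@[simp] theorem uval_unitsRep (g : Gal(Ω/k)) (a : Additive Ωˣ) :
    uval (unitsRep k Ω g a) = g (uval a) := rfl
theorem uval_sum {ι : Type*} (s : Finset ι) (f : ι → Additive Ωˣ) :
    uval (∑ i ∈ s, f i) = ∏ i ∈ s, uval (f i) := by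
  unfold uval
  rw [toMul_sum, Units.coe_prod]

/-- a nonzero element as an element of the additive group of units -/
noncomputable def umk (x : Ω) (hx : x ≠ 0) : Additive Ωˣ := Additive.ofMul (Units.mk0 x hx)

@[simp] theorem uval_umk (x : Ω) (hx : x ≠ 0) : uval (umk x hx) = x := rfl

theorem unitsRep_smooth : SmRep (fam k Ω) (unitsRep k Ω) := by
  intro a
  have hint : IsIntegral k (uval a) := Algebra.IsIntegral.isIntegral (uval a)
  have := adjoin.finiteDimensional hint
  obtain ⟨U, hU, hUle⟩ := fam_isOpen_of_finite k⟮uval a⟯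
  refine ⟨U, hU, fun u hu => ?_⟩
  apply uval_injective
  rw [uval_unitsRep]
  exact hUle hu ⟨uval a, mem_adjoin_simple_self k _⟩

theorem mem_FF_iff {U : Subgroup Gal(Ω/k)} {a : Additive Ωˣ} :
    a ∈ FF (unitsRep k Ω) U ↔ uval a ∈ fld U := by
  rw [mem_FF, mem_fld]
  exact forall₂_congr fun g _ => ⟨fun h => congrArg uval h, fun h => uval_injective h⟩

end fam

section emb

variable {k Ω : Type*} [Field k] [Field Ω] [Algebra k Ω] [IsGalois k Ω]
variable {U₁ U₂ : Subgroup Gal(Ω/k)} (h : U₁ ≤ U₂)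

/-- the upper field as an extension of the lower field -/
abbrev up : IntermediateField (fld U₂) Ω := extendScalars (fld_mono h)

theorem mem_up {x : Ω} : x ∈ up h ↔ x ∈ fld U₁ := Iff.rfl

/-- an element of the subgroup as an automorphism over the fixed field -/
def autOf (g : U₂) : Gal(Ω/(fld U₂)) :=
  { AlgEquiv.toRingEquiv (g : Gal(Ω/k)) with
    commutes' := fun x => mem_fld.mp x.2 g g.2 }

@[simp] theorem autOf_apply (g : U₂) (x : Ω) : autOf g x = (g : Gal(Ω/k)) x := rfl

theorem autOf_surjective (hU₂ : (fam k Ω).IsOpen U₂) (τ : Gal(Ω/(fld U₂))) :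
    ∃ g : U₂, autOf g = τ := by
  have h1 : τ.restrictScalars k ∈ (fld U₂).fixingSubgroup := fun x => τ.commutes x
  rw [fixingSubgroup_fld hU₂] at h1
  refine ⟨⟨τ.restrictScalars k, h1⟩, ?_⟩
  ext x
  rfl

/-- restriction of an element of `U₂` to an embedding of the upper field -/
def embOf (g : U₂) : (up h) →ₐ[fld U₂] Ω := (autOf g : Ω →ₐ[fld U₂] Ω).comp (up h).val

@[simp] theorem embOf_apply (g : U₂) (x : up h) : embOf h g x = (g : Gal(Ω/k)) x := rfl

theorem embOf_eq_iff (hU₁ : (fam k Ω).IsOpen U₁) (g g' : U₂) :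
    embOf h g = embOf h g' ↔ g⁻¹ * g' ∈ U₁.subgroupOf U₂ := by
  rw [Subgroup.mem_subgroupOf]
  constructor
  · intro he
    rw [← fixingSubgroup_fld hU₁]
    intro x
    have h1 := DFunLike.congr_fun he (⟨x, x.2⟩ : up h)
    rw [embOf_apply, embOf_apply] at h1
    change ((g : Gal(Ω/k))⁻¹ * g') (x : Ω) = x
    rw [AlgEquiv.mul_apply]
    change (g : Gal(Ω/k)).symm ((g' : Gal(Ω/k)) (x : Ω)) = x
    rw [AlgEquiv.symm_apply_eq]
    exact h1.symm
  · intro hg
    ext x
    rw [embOf_apply, embOf_apply]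
    have h1 : ((g : Gal(Ω/k))⁻¹ * g') (x : Ω) = x := mem_fld.mp x.2 _ hg
    rw [AlgEquiv.mul_apply] at h1
    change (g : Gal(Ω/k)).symm ((g' : Gal(Ω/k)) (x : Ω)) = x at h1
    rw [AlgEquiv.symm_apply_eq] at h1
    exact h1.symm

theorem embOf_surjective (hU₂ : (fam k Ω).IsOpen U₂) : Function.Surjective (embOf h) := by
  intro τ
  have hn : Normal (fld U₂) Ω := Normal.tower_top_of_normal k (fld U₂) Ω
  let e : Ω →ₐ[fld U₂] Ω := AlgHom.liftNormal τ Ω
  have he : Function.Bijective e := Algebra.IsAlgebraic.algHom_bijective e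
  obtain ⟨g, hg⟩ := autOf_surjective hU₂ (AlgEquiv.ofBijective e he)
  refine ⟨g, ?_⟩
  ext x
  rw [embOf_apply, ← autOf_apply, hg]
  exact AlgHom.liftNormal_commutes τ Ω x

/-- cosets and embeddings -/
noncomputable def embEquiv (hU₁ : (fam k Ω).IsOpen U₁) (hU₂ : (fam k Ω).IsOpen U₂) :
    U₂ ⧸ U₁.subgroupOf U₂ ≃ ((up h) →ₐ[fld U₂] Ω) :=
  Equiv.ofBijective (Quotient.lift (embOf h) fun a b hab =>
    (embOf_eq_iff h hU₁ a b).mpr (QuotientGroup.leftRel_apply.mp hab)) ⟨by
      rintro ⟨a⟩ ⟨b⟩ hab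
      exact Quotient.sound (QuotientGroup.leftRel_apply.mpr ((embOf_eq_iff h hU₁ a b).mp hab)), by
      intro τ
      obtain ⟨g, hg⟩ := embOf_surjective h hU₂ τ
      exact ⟨(g : U₂ ⧸ U₁.subgroupOf U₂), hg⟩⟩

theorem embEquiv_mk (hU₁ : (fam k Ω).IsOpen U₁) (hU₂ : (fam k Ω).IsOpen U₂) (g : U₂) :
    embEquiv h hU₁ hU₂ (g : U₂ ⧸ U₁.subgroupOf U₂) = embOf h g := rfl

theorem finiteDimensional_up (hU₁ : (fam k Ω).IsOpen U₁) : FiniteDimensional (fld U₂) (up h) := by
  have h1 := finiteDimensional_fld hU₁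
  have h2 : FiniteDimensional k (up h) :=
    FiniteDimensional.of_injective (V₂ := fld U₁)
      { toFun := fun x => ⟨x, x.2⟩
        map_add' := fun _ _ => rfl
        map_smul' := fun _ _ => rfl } fun x y hxy => Subtype.ext (congrArg Subtype.val hxy)
  exact FiniteDimensional.right k (fld U₂) (up h)

theorem isSeparable_up : Algebra.IsSeparable (fld U₂) (up h) := by
  have h1 : Algebra.IsSeparable (fld U₂) Ω := Algebra.isSeparable_tower_top_of_isSeparable k _ _
  exact Algebra.isSeparable_tower_bot_of_isSeparable (fld U₂) (up h) Ω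

theorem isGalois_up [hN : (U₁.subgroupOf U₂).Normal] (hU₂ : (fam k Ω).IsOpen U₂) :
    IsGalois (fld U₂) (up h) := by
  have hn : Normal (fld U₂) Ω := Normal.tower_top_of_normal k (fld U₂) Ω
  have h1 := isSeparable_up h
  have h2 : Normal (fld U₂) (up h) := by
    rw [normal_iff_forall_map_le']
    rintro τ _ ⟨x, hx, rfl⟩
    obtain ⟨g, rfl⟩ := autOf_surjective hU₂ τ
    rw [mem_up, mem_fld]
    intro u hu
    have hx' : x ∈ fld U₁ := hx
    have h3 := hN.conj_mem ⟨u, h hu⟩ (Subgroup.mem_subgroupOf.mpr hu) g⁻¹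
    have h4 : (g : Gal(Ω/k))⁻¹ * u * g ∈ U₁ := by
      have := Subgroup.mem_subgroupOf.mp h3
      simpa using this
    have h5 := mem_fld.mp hx' _ h4
    rw [AlgEquiv.mul_apply, AlgEquiv.mul_apply] at h5
    change (g : Gal(Ω/k)).symm (u ((g : Gal(Ω/k)) x)) = x at h5
    rw [AlgEquiv.symm_apply_eq] at h5
    exact h5
  exact ⟨⟩

variable [IsAlgClosed Ω]

theorem finrank_up (hU₁ : (fam k Ω).IsOpen U₁) (hU₂ : (fam k Ω).IsOpen U₂) :
    finrank (fld U₂) (up h) = U₁.relIndex U₂ := by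
  have h1 := finiteDimensional_up h hU₁
  have h2 := isSeparable_up h
  rw [← AlgHom.card (fld U₂) (up h) Ω, ← Nat.card_eq_fintype_card]
  exact (Nat.card_congr (embEquiv h hU₁ hU₂)).symm

/-- The relative norm is the field norm. -/
theorem uval_nmr (hU₁ : (fam k Ω).IsOpen U₁) (hU₂ : (fam k Ω).IsOpen U₂)
    (b : ↥(FF (unitsRep k Ω) U₁)) (x : up h) (hx : (x : Ω) = uval (b : Additive Ωˣ)) :
    uval (nmr (unitsRep k Ω) h hU₁ b : Additive Ωˣ) =
      algebraMap (fld U₂) Ω (Algebra.norm (fld U₂) x) := by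
  have h1 := finiteDimensional_up h hU₁
  have h2 := isSeparable_up h
  letI := relFintype hU₁ U₂
  rw [Algebra.norm_eq_prod_embeddings (fld U₂) Ω x,
    coe_nmr (unitsRep k Ω) h hU₁ b (fun x => ((sec (U₁.subgroupOf U₂) x : U₂) : Gal(Ω/k)))
    (fun x => ⟨(sec (U₁.subgroupOf U₂) x : U₂).2, mk_sec _ x⟩), uval_sum]
  refine Fintype.prod_equiv (embEquiv h hU₁ hU₂) _ _ fun y => ?_
  rw [uval_unitsRep, ← hx]
  conv_rhs => rw [← mk_sec (U₁.subgroupOf U₂) y, embEquiv_mk]
  rw [embOf_apply]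

/-- the invariants as the unit group of the fixed field -/
noncomputable def unitsEquiv (U : Subgroup Gal(Ω/k)) :
    Additive (fld U)ˣ ≃+ ↥(FF (unitsRep k Ω) U) where
  toFun x := ⟨umk ((Additive.toMul x : (fld U)ˣ) : Ω) (by
    rw [Ne, ZeroMemClass.coe_eq_zero]
    exact Units.ne_zero _), by
      rw [mem_FF_iff, uval_umk]
      exact ((Additive.toMul x : (fld U)ˣ) : fld U).2⟩
  invFun a := Additive.ofMul (Units.mk0 ⟨uval (a : Additive Ωˣ), mem_FF_iff.mp a.2⟩ (by
    intro h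
    exact uval_ne_zero (a : Additive Ωˣ) (congrArg Subtype.val h)))
  left_inv x := by
    apply Additive.toMul.injective
    apply Units.ext
    rfl
  right_inv a := by
    apply Subtype.ext
    apply uval_injective
    rfl
  map_add' x y := by
    apply Subtype.ext
    apply uval_injective
    rfl

@[simp] theorem uval_unitsEquiv (U : Subgroup Gal(Ω/k)) (x : Additive (fld U)ˣ) :
    uval (unitsEquiv U x : Additive Ωˣ) = ((Additive.toMul x : (fld U)ˣ) : Ω) := rfl

theorem index_range_nmr (hU₁ : (fam k Ω).IsOpen U₁) (hU₂ : (fam k Ω).IsOpen U₂) :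
    (LinearMap.range (nmr (unitsRep k Ω) h hU₁)).toAddSubgroup.index =
      (Units.map (Algebra.norm (fld U₂) : (up h) →* (fld U₂))).range.index := by
  have h1 : (LinearMap.range (nmr (unitsRep k Ω) h hU₁)).toAddSubgroup.comap
      (unitsEquiv U₂ : Additive (fld U₂)ˣ →+ _) =
      Subgroup.toAddSubgroup (Units.map (Algebra.norm (fld U₂) : (up h) →* (fld U₂))).range := by
    ext x
    constructor
    · rintro ⟨b, hb⟩
      have hb0 : (⟨uval (b : Additive Ωˣ), mem_FF_iff.mp b.2⟩ : up h) ≠ 0 := fun h0 =>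
        uval_ne_zero (b : Additive Ωˣ) (congrArg Subtype.val h0)
      refine ⟨Units.mk0 ⟨uval (b : Additive Ωˣ), mem_FF_iff.mp b.2⟩ hb0, ?_⟩
      apply Units.ext
      apply Subtype.ext
      have h2 := uval_nmr h hU₁ hU₂ b ⟨uval (b : Additive Ωˣ), mem_FF_iff.mp b.2⟩ rfl
      rw [hb] at h2
      exact h2.symm
    · rintro ⟨y, hy⟩
      refine ⟨⟨umk ((y : up h) : Ω) ?_, ?_⟩, ?_⟩
      · rw [Ne, ZeroMemClass.coe_eq_zero]
        exact Units.ne_zero _
      · rw [mem_FF_iff]
        exact (y : up h).2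
      · apply Subtype.ext
        apply uval_injective
        rw [uval_nmr h hU₁ hU₂ _ (y : up h) rfl]
        have h2 : ((Units.map (Algebra.norm (fld U₂) : (up h) →* (fld U₂)) y : (fld U₂)ˣ) :
          fld U₂) = Algebra.norm (fld U₂) (y : up h) := rfl
        rw [← h2, hy]
        rfl
  rw [← Subgroup.index_toAddSubgroup, ← h1, AddSubgroup.index_comap_of_surjective]
  exact (unitsEquiv U₂).surjective

end emb

section h90

variable {k Ω : Type} [Field k] [Field Ω] [Algebra k Ω] [IsGalois k Ω] [IsAlgClosed Ω]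
variable {U₁ U₂ : Subgroup Gal(Ω/k)} (h : U₁ ≤ U₂)

/-- Hilbert 90 in the form needed for class formations. -/
theorem h90_units {p : ℕ} [hp : Fact p.Prime] (hU₁ : (fam k Ω).IsOpen U₁)
    (hN : (U₁.subgroupOf U₂).Normal) (hi : U₁.relIndex U₂ = p) :
    ∃ σ : U₂, (∀ g : U₂, ∃ n : ℤ, (σ ^ n)⁻¹ * g ∈ U₁.subgroupOf U₂) ∧
      ∀ a : ↥(FF (unitsRep k Ω) U₁), nmr (unitsRep k Ω) h hU₁ a = 0 →
        ∃ b : ↥(FF (unitsRep k Ω) U₁), (a : Additive Ωˣ) = unitsRep k Ω σ b - b := by
  have hU₂ : (fam k Ω).IsOpen U₂ := hU₁.mono h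
  obtain ⟨σ, hσ⟩ := CFData.zpowers_of_relIndex (p := p) hi
  refine ⟨σ, fun g => ?_, fun a ha => ?_⟩
  · obtain ⟨n, hn⟩ := hσ g
    refine ⟨n, ?_⟩
    have hn' : ((σ ^ n : U₂) : U₂ ⧸ U₁.subgroupOf U₂) = g := by
      rw [QuotientGroup.mk_zpow]; exact hn
    rw [QuotientGroup.eq] at hn'
    exact hn'
  · have h1 := finiteDimensional_up h hU₁
    have h2 := isGalois_up h hU₂
    have hn : Normal (fld U₂) Ω := Normal.tower_top_of_normal k (fld U₂) Ω
    -- the restriction homomorphism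
    let g : Gal((up h)/(fld U₂)) := (autOf σ).restrictNormal (up h)
    have hgx : ∀ x : up h, ((g x : up h) : Ω) = (σ : Gal(Ω/k)) x := fun x =>
      AlgEquiv.restrictNormal_commutes (autOf σ) (up h) x
    have hgpow : ∀ (n : ℤ) (x : up h), (((g ^ n : Gal((up h)/(fld U₂))) x : up h) : Ω) =
        ((σ ^ n : U₂) : Gal(Ω/k)) x := by
      intro n x
      have e1 : g ^ n = (autOf (σ ^ n)).restrictNormal (up h) := by
        have e2 : autOf (σ ^ n) = (autOf σ) ^ n := by
          let F : U₂ →* Gal(Ω/(fld U₂)) :=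
            { toFun := autOf
              map_one' := rfl
              map_mul' := fun _ _ => rfl }
          exact map_zpow F σ n
        rw [e2]
        exact (map_zpow (AlgEquiv.restrictNormalHom (up h)) (autOf σ) n).symm
      rw [e1]
      exact AlgEquiv.restrictNormal_commutes (autOf (σ ^ n)) (up h) x
    have hg : ∀ τ : Gal((up h)/(fld U₂)), τ ∈ Subgroup.zpowers g := by
      intro τ
      obtain ⟨u, hu⟩ := embOf_surjective h hU₂ ((up h).val.comp (τ : (up h) →ₐ[fld U₂] (up h)))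
      obtain ⟨n, hn⟩ := hσ u
      have hn' : ((σ ^ n : U₂) : U₂ ⧸ U₁.subgroupOf U₂) = u := by
        rw [QuotientGroup.mk_zpow]; exact hn
      rw [QuotientGroup.eq, ← embOf_eq_iff h hU₁, hu] at hn'
      refine ⟨n, ?_⟩
      ext x
      have h3 := DFunLike.congr_fun hn' x
      rw [embOf_apply] at h3
      exact (hgpow n x).trans h3
    have hcyc : IsCyclic (up h ≃ₐ[fld U₂] up h) := ⟨g, hg⟩
    have hx : Algebra.norm (fld U₂)
        (⟨uval (a : Additive Ωˣ), mem_FF_iff.mp a.2⟩ : up h) = 1 := by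
      have h3 := uval_nmr h hU₁ hU₂ a ⟨uval (a : Additive Ωˣ), mem_FF_iff.mp a.2⟩ rfl
      rw [ha] at h3
      have h4 : algebraMap (fld U₂) Ω (Algebra.norm (fld U₂)
        (⟨uval (a : Additive Ωˣ), mem_FF_iff.mp a.2⟩ : up h)) = algebraMap (fld U₂) Ω 1 := by
        rw [map_one, ← h3]
        rfl
      exact (algebraMap (fld U₂) Ω).injective h4
    obtain ⟨y, hy⟩ := groupCohomology.exists_div_of_norm_eq_one hg hx
    have hy0 : ((y : up h) : Ω) ≠ 0 := by
      rw [Ne, ZeroMemClass.coe_eq_zero]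
      exact Units.ne_zero _
    have hyF : umk ((y : up h) : Ω) hy0 ∈ FF (unitsRep k Ω) U₁ := by
      rw [mem_FF_iff]
      exact (y : up h).2
    refine ⟨-⟨umk ((y : up h) : Ω) hy0, hyF⟩, ?_⟩
    · apply uval_injective
      have h5 := congrArg Subtype.val hy
      have h6 : ((y : up h) : Ω) / (σ : Gal(Ω/k)) ((y : up h) : Ω) = uval (a : Additive Ωˣ) := by
        rw [← hgx]
        exact h5
      rw [uval_sub, uval_unitsRep]
      change _ = (σ : Gal(Ω/k)) (uval (-(umk ((y : up h) : Ω) hy0))) /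
        uval (-(umk ((y : up h) : Ω) hy0))
      rw [uval_neg, uval_umk, map_inv₀, ← h6]
      have h7 : (σ : Gal(Ω/k)) ((y : up h) : Ω) ≠ 0 := by
        rw [Ne, map_eq_zero]
        exact hy0
      field_simp

/-- The `p`-part of `H¹` of the units vanishes. -/
theorem weak_h1_units {p : ℕ} [hp : Fact p.Prime] (U : Subgroup Gal(Ω/k))
    (hU : (fam k Ω).IsOpen U) (y : HI (fam k Ω) (unitsRep k Ω) U) :
    ∃ c : ℕ, c.Coprime p ∧ c • y = 0 :=
  weak_h1 unitsRep_smooth ⊤ (Fam.isOpen_top _) inferInstance (by simp)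
    (fun U₁ U₂ h hU _ hN hi => h90_units h hU hN hi) U hU y

end h90

end Fermat.Agent.GalD
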