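import Fermat.Agent.Coh.ClassFormation

/-!
# Vanishing of the `p`-primary part of `H¹` from cyclic layers of degree `p`
-/

set_option autoImplicit false
set_option linter.unusedSectionVars false
set_option linter.style.haveILetI false

namespace Fermat.Agent.Coh

section abs

variable {k : Type*} [CommRing k] {Γ : Type*} [Group Γ] {V : Type*} [AddCommGroup V] [Module k V]
variable {𝓤 : Fam Γ} {ρ : Representation k Γ V} (W : Subgroup Γ) [hW : W.Normal]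
  [Fintype (Γ ⧸ W)] (σ : Γ) (hσ : ∀ x : Γ ⧸ W, x ∈ Subgroup.zpowers (σ : Γ ⧸ W))

include hσ in
/-- The kernel of restriction to a normal subgroup with cyclic quotient vanishes if Hilbert 90
holds for the quotient. -/
theorem H1_eq_zero_of_res (hρ : SmRep 𝓤 ρ)
    (hN : ∀ a : ↥(H0 (ρ.comp W.subtype)), nm 𝓤 W ρ a = 0 →
      ∃ b : ↥(H0 (ρ.comp W.subtype)), (a : V) = ρ σ b - b)
    (y : H1 𝓤 ρ) (hy : (Mor.res 𝓤 ρ W).mapH1 y = 0) : y = 0 := by
  obtain ⟨z, rfl⟩ := H1.mk_surjective y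
  rw [Mor.mapH1_mk, H1.mk_eq_zero] at hy
  obtain ⟨v, hv⟩ := hy
  have hv' : ∀ g ∈ W, (z : Γ → V) g = ρ g v - v := fun g hg => hv ⟨g, hg⟩
  set z' : ↥(Z1 𝓤 ρ) := z - ⟨d0 ρ v, d0_mem_Z1 hρ v⟩ with hz'
  have hz'0 : ∀ g, (z' : Γ → V) g = (z : Γ → V) g - (ρ g v - v) := fun g => rfl
  have hz'W : ∀ g ∈ W, (z' : Γ → V) g = 0 := fun g hg => by rw [hz'0, hv' g hg, sub_self]
  have hmul : ∀ g h, (z' : Γ → V) (g * h) = ρ g ((z' : Γ → V) h) + (z' : Γ → V) g := z'.2.2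
  have hmk : H1.mk 𝓤 ρ z = H1.mk 𝓤 ρ z' := by
    rw [H1.mk_eq_mk]
    exact ⟨v, fun g => by rw [hz'0]; abel⟩
  set a := (z' : Γ → V) σ with ha
  have haW : ∀ g ∈ W, ρ g a = a := by
    intro g hg
    have h1 := hmul g σ
    have h2 := hmul σ (σ⁻¹ * g * σ)
    have h3 : σ⁻¹ * g * σ ∈ W := by
      have := hW.conj_mem g hg σ⁻¹
      rwa [inv_inv] at this
    rw [hz'W _ h3, map_zero, zero_add] at h2
    have h4 : σ * (σ⁻¹ * g * σ) = g * σ := by group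
    rw [h4] at h2
    rw [hz'W g hg, add_zero, h2] at h1
    exact h1.symm
  have hpow : ∀ n : ℕ, (z' : Γ → V) (σ ^ n) = ∑ i ∈ Finset.range n, ρ (σ ^ i) a := by
    intro n
    induction n with
    | zero => rw [pow_zero, Finset.range_zero, Finset.sum_empty]; exact Z1.map_one z'
    | succ n ih =>
      rw [pow_succ, hmul, ih, Finset.sum_range_succ, add_comm]
  set m := orderOf (σ : Γ ⧸ W) with hm
  have hm0 : 0 < m := orderOf_pos _
  have hσm : σ ^ m ∈ W := by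
    rw [← QuotientGroup.eq_one_iff, QuotientGroup.mk_pow, hm, pow_orderOf_eq_one]
  have hpos : ∀ x : Γ ⧸ W, ∃ i < m, ((σ ^ i : Γ) : Γ ⧸ W) = x := by
    intro x
    have h1 : x ∈ Submonoid.powers (σ : Γ ⧸ W) := by
      rw [mem_powers_iff_mem_zpowers]; exact hσ x
    classical
    rw [mem_powers_iff_mem_range_orderOf, Finset.mem_image] at h1
    obtain ⟨i, hi, h2⟩ := h1
    exact ⟨i, Finset.mem_range.mp hi, by rw [QuotientGroup.mk_pow]; exact h2⟩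
  choose i hi1 hi2 using hpos
  let a' : ↥(H0 (ρ.comp W.subtype)) := ⟨a, fun g => haW g g.2⟩
  have hNa : nm 𝓤 W ρ a' = 0 := by
    apply Subtype.ext
    rw [coe_nm_eq 𝓤 W ρ a' (fun x => σ ^ i x) hi2]
    change _ = (0 : V)
    rw [← hz'W _ hσm, hpow m]
    refine Finset.sum_bij (fun x _ => i x) (fun x _ => Finset.mem_range.mpr (hi1 x)) ?_ ?_
      (fun x _ => rfl)
    · intro x _ y _ hxy
      have h5 : i x = i y := hxy
      rw [← hi2 x, ← hi2 y, h5]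
    · intro n hn
      refine ⟨((σ ^ n : Γ) : Γ ⧸ W), Finset.mem_univ _, ?_⟩
      have h5 := hi2 ((σ ^ n : Γ) : Γ ⧸ W)
      rw [QuotientGroup.mk_pow, QuotientGroup.mk_pow] at h5
      exact pow_injOn_Iio_orderOf (hi1 _) (Finset.mem_range.mp hn) h5
  obtain ⟨b, hb⟩ := hN a' hNa
  have hb' : a = ρ σ b - b := hb
  have hbW : ∀ g ∈ W, ρ g (b : V) = b := fun g hg => b.2 ⟨g, hg⟩
  rw [hmk, H1.mk_eq_zero]
  refine ⟨b, fun g => ?_⟩
  -- both sides are cocycles which agree on `W` and on `σ`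
  have hσn : ∀ n : ℕ, (z' : Γ → V) (σ ^ n) = ρ (σ ^ n) (b : V) - b := by
    intro n
    induction n with
    | zero => rw [pow_zero, Z1.map_one, map_one]; simp
    | succ n ih =>
      rw [pow_succ, hmul, ih, ← ha, hb', map_mul, Module.End.mul_apply, map_sub]
      abel
  have h6 := hi2 (g : Γ ⧸ W)
  rw [QuotientGroup.eq] at h6
  have h7 : g = σ ^ i (g : Γ ⧸ W) * ((σ ^ i (g : Γ ⧸ W))⁻¹ * g) := by group
  rw [h7, hmul, hz'W _ h6, map_zero, zero_add, hσn, map_mul, Module.End.mul_apply, hbW _ h6]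

end abs

section rel

variable {k : Type*} [CommRing k] {Γ : Type*} [Group Γ] {V : Type*} [AddCommGroup V] [Module k V]
variable {𝓤 : Fam Γ} {ρ : Representation k Γ V}

theorem rs1_rs1 {U₁ U₂ U₃ : Subgroup Γ} (h : U₁ ≤ U₂) (h' : U₂ ≤ U₃) (x : HI 𝓤 ρ U₃) :
    rs1 𝓤 ρ h (rs1 𝓤 ρ h' x) = rs1 𝓤 ρ (h.trans h') x := by
  obtain ⟨z, rfl⟩ := H1.mk_surjective x
  rfl

theorem res_eq_up1 {U₁ U₂ : Subgroup Γ} (h : U₁ ≤ U₂) (x : HI 𝓤 ρ U₂) :
    (Mor.res (𝓤.res U₂) (rep ρ U₂) (U₁.subgroupOf U₂)).mapH1 x =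
      (upMor 𝓤 ρ h).mapH1 (rs1 𝓤 ρ h x) := by
  obtain ⟨z, rfl⟩ := H1.mk_surjective x
  rfl

variable (ρ) in
/-- relative corestriction in degree `1` -/
noncomputable def cr1 {U₁ U₂ : Subgroup Γ} (h : U₁ ≤ U₂) (hU : 𝓤.IsOpen U₁) :
    HI 𝓤 ρ U₁ →ₗ[k] HI 𝓤 ρ U₂ :=
  letI := relFintype hU U₂
  cor1 (rep ρ U₂) (isOpen_subgroupOf hU U₂) ∘ₗ (upMor 𝓤 ρ h).mapH1

theorem cr1_rs1 {U₁ U₂ : Subgroup Γ} (h : U₁ ≤ U₂) (hU : 𝓤.IsOpen U₁) (x : HI 𝓤 ρ U₂) :
    cr1 ρ h hU (rs1 𝓤 ρ h x) = U₁.relIndex U₂ • x := by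
  letI := relFintype hU U₂
  rw [cr1, LinearMap.comp_apply, ← res_eq_up1, cor1_res]
  rfl

theorem exists_rs1_eq_zero {U₂ : Subgroup Γ} (x : HI 𝓤 ρ U₂) :
    ∃ W ∈ 𝓤, rs1 𝓤 ρ (inf_le_right : W ⊓ U₂ ≤ U₂) x = 0 := by
  obtain ⟨_, ⟨W, hW, rfl⟩, hx⟩ := exists_res_H1_eq_zero x
  refine ⟨W, hW, ?_⟩
  obtain ⟨z, rfl⟩ := H1.mk_surjective x
  rw [Mor.mapH1_mk, H1.mk_eq_zero] at hx
  obtain ⟨c, hcz⟩ := hx
  change H1.mk (𝓤.res (W ⊓ U₂)) (rep ρ (W ⊓ U₂))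
    ((incMor 𝓤 ρ (inf_le_right : W ⊓ U₂ ≤ U₂)).mapZ1 z) = 0
  rw [H1.mk_eq_zero]
  exact ⟨c, fun g => hcz ⟨⟨g, g.2.2⟩, g.2.1⟩⟩

/-- relative version of `H1_eq_zero_of_res` -/
theorem HI_eq_zero_of_rs1 (hρ : SmRep 𝓤 ρ) {U₁ U₂ : Subgroup Γ} (h : U₁ ≤ U₂)
    (hU : 𝓤.IsOpen U₁) [hN : (U₁.subgroupOf U₂).Normal] (σ : U₂)
    (hσ : ∀ x : U₂ ⧸ U₁.subgroupOf U₂, x ∈ Subgroup.zpowers (σ : U₂ ⧸ U₁.subgroupOf U₂))
    (h90 : ∀ a : ↥(FF ρ U₁), nmr ρ h hU a = 0 → ∃ b : ↥(FF ρ U₁), (a : V) = ρ σ b - b)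
    (y : HI 𝓤 ρ U₂) (hy : rs1 𝓤 ρ h y = 0) : y = 0 := by
  letI := relFintype hU U₂
  refine H1_eq_zero_of_res (𝓤 := 𝓤.res U₂) (ρ := rep ρ U₂) (U₁.subgroupOf U₂) σ hσ
    (hρ.comp U₂.subtype) (fun a ha => ?_) y (by rw [res_eq_up1 h, hy, map_zero])
  obtain ⟨b, hb⟩ := h90 ((dnMor 𝓤 ρ h).mapH0 a) ha
  exact ⟨(upMor 𝓤 ρ h).mapH0 b, hb⟩

variable {p : ℕ} [hp : Fact p.Prime]

/-- Hilbert 90 for cyclic layers of degree `p` implies the vanishing of the `p`-part of `H¹`. -/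
theorem weak_h1 (hρ : SmRep 𝓤 ρ) (Γ₀ : Subgroup Γ) (hΓo : 𝓤.IsOpen Γ₀) (hΓn : Γ₀.Normal)
    (hΓi : Γ₀.index.Coprime p)
    (h90 : ∀ (U₁ U₂ : Subgroup Γ) (h : U₁ ≤ U₂) (hU : 𝓤.IsOpen U₁), U₂ ≤ Γ₀ →
      (U₁.subgroupOf U₂).Normal → U₁.relIndex U₂ = p →
      ∃ σ : U₂, (∀ g : U₂, ∃ n : ℤ, (σ ^ n)⁻¹ * g ∈ U₁.subgroupOf U₂) ∧
        ∀ a : ↥(FF ρ U₁), nmr ρ h hU a = 0 → ∃ b : ↥(FF ρ U₁), (a : V) = ρ σ b - b)
    (U : Subgroup Γ) (hU : 𝓤.IsOpen U) (y : HI 𝓤 ρ U) : ∃ c : ℕ, c.Coprime p ∧ c • y = 0 := by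
  -- the cyclic case
  have key : ∀ (U₁ U₂ : Subgroup Γ) (h : U₁ ≤ U₂), 𝓤.IsOpen U₁ → U₂ ≤ Γ₀ →
      (U₁.subgroupOf U₂).Normal → U₁.relIndex U₂ = p → ∀ y : HI 𝓤 ρ U₂,
      rs1 𝓤 ρ h y = 0 → y = 0 := by
    intro U₁ U₂ h hU hU0 hN hi y hy
    obtain ⟨σ, hσ, h9⟩ := h90 U₁ U₂ h hU hU0 hN hi
    refine HI_eq_zero_of_rs1 hρ h hU σ (fun x => ?_) h9 y hy
    obtain ⟨g, rfl⟩ := QuotientGroup.mk_surjective x
    obtain ⟨n, hn⟩ := hσ g
    refine ⟨n, ?_⟩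
    change (σ : U₂ ⧸ U₁.subgroupOf U₂) ^ n = _
    rw [← QuotientGroup.mk_zpow, QuotientGroup.eq]
    exact hn
  -- the `p`-group case
  have pcase : ∀ k : ℕ, ∀ {T W : Subgroup Γ} (_ : 𝓤.IsOpen T) (_ : 𝓤.IsOpen W)
      (h : W ≤ T) (_ : (W.subgroupOf T).Normal) (_ : W.relIndex T = p ^ k) (_ : T ≤ Γ₀)
      (x : HI 𝓤 ρ T) (_ : rs1 𝓤 ρ h x = 0), x = 0 := by
    intro k
    induction k with
    | zero =>
      intro T W hT hW h hN hk hT0 x hx
      rw [pow_zero, Subgroup.relIndex_eq_one] at hk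
      obtain rfl : W = T := le_antisymm h hk
      obtain ⟨z, rfl⟩ := H1.mk_surjective x
      exact hx
    | succ k ih =>
      intro T W hT hW h hN hk hT0 x hx
      have hcard : Nat.card (T ⧸ W.subgroupOf T) = p ^ (k + 1) := hk
      have hfin : Finite (T ⧸ W.subgroupOf T) := Nat.finite_of_card_ne_zero (by
        rw [hcard]; exact pow_ne_zero _ hp.out.ne_zero)
      obtain ⟨Q, hQ⟩ := Sylow.exists_subgroup_card_pow_prime p
        (G := T ⧸ W.subgroupOf T) (n := k) (by rw [hcard]; exact pow_dvd_pow _ (by omega))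
      have hQi : Q.index = p := by
        have h1 := Subgroup.card_mul_index Q
        rw [hQ, hcard, pow_succ] at h1
        exact Nat.eq_of_mul_eq_mul_left (pow_pos hp.out.pos k) h1
      have hQn : Q.Normal := by
        apply Subgroup.normal_of_index_eq_minFac_card
        rw [hQi, hcard, hp.out.pow_minFac (by omega)]
      set V' : Subgroup T := Q.comap (QuotientGroup.mk' (W.subgroupOf T)) with hV'
      have hV'n : V'.Normal := inferInstance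
      have hV'i : V'.index = p := by
        rw [hV', Subgroup.index_comap_of_surjective _ (QuotientGroup.mk'_surjective _), hQi]
      set V₁ : Subgroup Γ := V'.map T.subtype with hV
      have hVsub : V₁.subgroupOf T = V' := by
        rw [hV]
        exact Subgroup.comap_map_eq_self_of_injective Subtype.val_injective _
      have hVT : V₁ ≤ T := by
        rintro _ ⟨g, _, rfl⟩
        exact g.2
      have hWV : W ≤ V₁ := by
        intro g hg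
        refine ⟨⟨g, h hg⟩, ?_, rfl⟩
        change QuotientGroup.mk' (W.subgroupOf T) ⟨g, h hg⟩ ∈ Q
        have : QuotientGroup.mk' (W.subgroupOf T) ⟨g, h hg⟩ = 1 := by
          rw [QuotientGroup.mk'_apply, QuotientGroup.eq_one_iff, Subgroup.mem_subgroupOf]
          exact hg
        rw [this]
        exact Q.one_mem
      have hVn : (V₁.subgroupOf T).Normal := by rw [hVsub]; exact hV'n
      have hVi : V₁.relIndex T = p := by
        change (V₁.subgroupOf T).index = p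
        rw [hVsub, hV'i]
      have hVo : 𝓤.IsOpen V₁ := hW.mono hWV
      have hWi : W.relIndex V₁ = p ^ k := by
        have h1 := Subgroup.relIndex_mul_relIndex W V₁ T hWV hVT
        rw [hVi, hk, pow_succ] at h1
        exact Nat.eq_of_mul_eq_mul_right hp.out.pos h1
      have hWn : (W.subgroupOf V₁).Normal := ⟨fun u hu g => by
        rw [Subgroup.mem_subgroupOf] at hu ⊢
        exact hN.conj_mem ⟨u, hVT u.2⟩ (Subgroup.mem_subgroupOf.mpr hu) ⟨g, hVT g.2⟩⟩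
      refine key V₁ T hVT hVo hT0 hVn hVi x ?_
      exact ih hVo hW hWV hWn hWi (hVT.trans hT0) (rs1 𝓤 ρ hVT x) (by rw [rs1_rs1]; exact hx)
  -- Sylow
  have small : ∀ {T : Subgroup Γ} (_ : 𝓤.IsOpen T) (_ : T ≤ Γ₀) (x : HI 𝓤 ρ T),
      ∃ c : ℕ, c.Coprime p ∧ c • x = 0 := by
    intro T hT hT0 x
    obtain ⟨W₀, hW₀, hx⟩ := exists_rs1_eq_zero (U₂ := T) x
    have hW₀n := 𝓤.normal W₀ hW₀
    have hW₀f := 𝓤.finiteIndex W₀ hW₀
    set W := W₀ ⊓ T with hW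
    have hWT : W ≤ T := inf_le_right
    have hWo : 𝓤.IsOpen W := (Fam.isOpen_of_mem hW₀).inf hT
    have hWn : (W.subgroupOf T).Normal := by
      have : W.subgroupOf T = W₀.subgroupOf T := by
        ext g
        simp [hW, Subgroup.mem_subgroupOf]
      rw [this]
      infer_instance
    have hWf := hWo.finiteIndex
    have hfin : Finite (T ⧸ W.subgroupOf T) := inferInstance
    obtain ⟨P⟩ : Nonempty (Sylow p (T ⧸ W.subgroupOf T)) := inferInstance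
    set S' : Subgroup T := (P : Subgroup (T ⧸ W.subgroupOf T)).comap
      (QuotientGroup.mk' (W.subgroupOf T)) with hS'
    have hS'i : S'.index = (P : Subgroup (T ⧸ W.subgroupOf T)).index := by
      rw [hS', Subgroup.index_comap_of_surjective _ (QuotientGroup.mk'_surjective _)]
    set S : Subgroup Γ := S'.map T.subtype with hS
    have hSsub : S.subgroupOf T = S' := by
      rw [hS]
      exact Subgroup.comap_map_eq_self_of_injective Subtype.val_injective _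
    have hST : S ≤ T := by
      rintro _ ⟨g, _, rfl⟩
      exact g.2
    have hWS : W ≤ S := by
      intro g hg
      refine ⟨⟨g, hWT hg⟩, ?_, rfl⟩
      change QuotientGroup.mk' (W.subgroupOf T) ⟨g, hWT hg⟩ ∈ (P : Subgroup (T ⧸ W.subgroupOf T))
      have : QuotientGroup.mk' (W.subgroupOf T) ⟨g, hWT hg⟩ = 1 := by
        rw [QuotientGroup.mk'_apply, QuotientGroup.eq_one_iff, Subgroup.mem_subgroupOf]
        exact hg
      rw [this]
      exact Subgroup.one_mem _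
    have hSi : S.relIndex T = (P : Subgroup (T ⧸ W.subgroupOf T)).index := by
      change (S.subgroupOf T).index = _
      rw [hSsub, hS'i]
    have hSo : 𝓤.IsOpen S := hWo.mono hWS
    have hPi : (P : Subgroup (T ⧸ W.subgroupOf T)).index ≠ 0 := Subgroup.index_ne_zero_of_finite
    obtain ⟨k, hk⟩ := IsPGroup.iff_card.mp P.isPGroup'
    have hWi : W.relIndex S = p ^ k := by
      have h1 := Subgroup.relIndex_mul_relIndex W S T hWS hST
      have h2 := Subgroup.card_mul_index (P : Subgroup (T ⧸ W.subgroupOf T))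
      have h3 : Nat.card (T ⧸ W.subgroupOf T) = W.relIndex T := rfl
      rw [hSi, ← h3, ← h2, hk] at h1
      exact Nat.eq_of_mul_eq_mul_right (Nat.pos_of_ne_zero hPi) h1
    have hWSn : (W.subgroupOf S).Normal := ⟨fun u hu g => by
      rw [Subgroup.mem_subgroupOf] at hu ⊢
      exact hWn.conj_mem ⟨u, hST u.2⟩ (Subgroup.mem_subgroupOf.mpr hu) ⟨g, hST g.2⟩⟩
    have h4 := pcase k hSo hWo hWS hWSn hWi (hST.trans hT0) (rs1 𝓤 ρ hST x)
      (by rw [rs1_rs1]; exact hx)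
    have h1 := cr1_rs1 hST hSo x
    rw [h4, map_zero] at h1
    refine ⟨S.relIndex T, ?_, h1.symm⟩
    rw [hSi, Nat.coprime_comm, hp.out.coprime_iff_not_dvd]
    have : (P : Subgroup (T ⧸ W.subgroupOf T)).FiniteIndex := ⟨hPi⟩
    exact Sylow.not_dvd_index P
  -- general
  have hle : U ⊓ Γ₀ ≤ U := inf_le_left
  have hUo : 𝓤.IsOpen (U ⊓ Γ₀) := hU.inf hΓo
  obtain ⟨c, hc, hcy⟩ := small hUo inf_le_right (rs1 𝓤 ρ hle y)
  refine ⟨c * (U ⊓ Γ₀).relIndex U, Nat.Coprime.mul_left hc ?_, ?_⟩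
  · rw [Subgroup.inf_relIndex_left]
    exact Nat.Coprime.coprime_dvd_left (Subgroup.relIndex_dvd_index_of_normal _ _) hΓi
  · rw [mul_smul, ← cr1_rs1 hle hUo y, ← map_nsmul, hcy, map_zero]

end rel

end Fermat.Agent.Coh
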