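import Fermat.Agent.Coh.Cochains

/-!
# The long exact sequence of smooth cohomology up to `H²`
-/

set_option autoImplicit false

namespace Fermat.Agent.Coh

variable {k : Type*} [CommRing k] {Γ Δ : Type*} [Group Γ] [Group Δ]
variable {V' V V'' : Type*} [AddCommGroup V'] [Module k V'] [AddCommGroup V] [Module k V]
  [AddCommGroup V''] [Module k V'']

/-- A short exact sequence of representations. -/
structure SES (ρ' : Representation k Γ V') (ρ : Representation k Γ V)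
    (ρ'' : Representation k Γ V'') where
  /-- inclusion -/
  i : V' →ₗ[k] V
  /-- projection -/
  π : V →ₗ[k] V''
  i_comm : ∀ g v, i (ρ' g v) = ρ g (i v)
  π_comm : ∀ g v, π (ρ g v) = ρ'' g (π v)
  inj : Function.Injective i
  surj : Function.Surjective π
  exact : ∀ v, π v = 0 → ∃ v', i v' = v
  comp : ∀ v', π (i v') = 0

namespace SES

variable {ρ' : Representation k Γ V'} {ρ : Representation k Γ V} {ρ'' : Representation k Γ V''}
variable (E : SES ρ' ρ ρ'') {𝓤 : Fam Γ}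

/-- the inclusion as a morphism -/
abbrev iMor (𝓤 : Fam Γ) : Mor 𝓤 𝓤 ρ' ρ := Mor.coeff E.i E.i_comm

/-- the projection as a morphism -/
abbrev πMor (𝓤 : Fam Γ) : Mor 𝓤 𝓤 ρ ρ'' := Mor.coeff E.π E.π_comm

/-- a set theoretic section of the projection -/
noncomputable def lift : V'' → V := Function.surjInv E.surj

@[simp] theorem π_lift (v : V'') : E.π (E.lift v) = v := Function.surjInv_eq E.surj v

open Classical in
/-- a partial inverse of the inclusion -/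
noncomputable def down (v : V) : V' := if h : ∃ v', E.i v' = v then h.choose else 0

theorem i_down {v : V} (hv : E.π v = 0) : E.i (E.down v) = v := by
  have h := E.exact v hv
  rw [down, dif_pos h]
  exact h.choose_spec

@[simp] theorem down_i (v : V') : E.down (E.i v) = v := E.inj (E.i_down (E.comp v))

include E in
theorem smRep_left (hρ : SmRep 𝓤 ρ) : SmRep 𝓤 ρ' := by
  intro v
  obtain ⟨U, hU, h⟩ := hρ (E.i v)
  exact ⟨U, hU, fun u hu => E.inj (by rw [E.i_comm, h u hu])⟩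

include E in
theorem smRep_right (hρ : SmRep 𝓤 ρ) : SmRep 𝓤 ρ'' := by
  intro v
  obtain ⟨w, rfl⟩ := E.surj v
  obtain ⟨U, hU, h⟩ := hρ w
  exact ⟨U, hU, fun u hu => by rw [← E.π_comm, h u hu]⟩

/-! ### the connecting homomorphism in degree `0` -/

variable (hρ : SmRep 𝓤 ρ)

/-- the cocycle attached to a vector whose image is invariant -/
noncomputable def cocycle0 (v : V) (hv : E.π v ∈ H0 ρ'') : ↥(Z1 𝓤 ρ') :=
  ⟨fun g => E.down (ρ g v - v), by
    have h0 : ∀ g, E.π (ρ g v - v) = 0 := fun g => by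
      rw [map_sub, E.π_comm, hv g, sub_self]
    refine ⟨((d0_mem_Z1 hρ v).1).post E.down, fun g h => ?_⟩
    apply E.inj
    rw [map_add, E.i_comm, E.i_down (h0 _), E.i_down (h0 _), E.i_down (h0 _), map_mul,
      Module.End.mul_apply, map_sub]
    abel⟩

theorem i_cocycle0 (v : V) (hv : E.π v ∈ H0 ρ'') (g : Γ) :
    E.i ((E.cocycle0 hρ v hv : Γ → V') g) = ρ g v - v := by
  apply E.i_down
  rw [map_sub, E.π_comm, hv g, sub_self]

/-- `δ⁰` as a function -/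
noncomputable def delta0Fun (w : ↥(H0 ρ'')) : H1 𝓤 ρ' :=
  H1.mk 𝓤 ρ' (E.cocycle0 hρ (E.lift w) (by rw [π_lift]; exact w.2))

theorem delta0Fun_eq (w : ↥(H0 ρ'')) (v : V) (hv : E.π v = w) (z : ↥(Z1 𝓤 ρ'))
    (hz : ∀ g, E.i ((z : Γ → V') g) = ρ g v - v) : E.delta0Fun hρ w = H1.mk 𝓤 ρ' z := by
  rw [delta0Fun, H1.mk_eq_mk]
  refine ⟨E.down (E.lift w - v), fun g => ?_⟩
  apply E.inj
  rw [map_add, i_cocycle0, map_sub, E.i_comm, hz, E.i_down]
  · simp only [map_sub]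
    abel
  · simp [hv]

/-- `δ⁰ : H⁰(V'') → H¹(V')` -/
noncomputable def delta0 : ↥(H0 ρ'') →ₗ[k] H1 𝓤 ρ' where
  toFun w := E.delta0Fun hρ w
  map_add' w w' := by
    have h1 := w.2
    have h2 := w'.2
    rw [← E.π_lift (w : V'')] at h1
    rw [← E.π_lift (w' : V'')] at h2
    rw [E.delta0Fun_eq hρ (w + w') (E.lift w + E.lift w') (by simp)
      (E.cocycle0 hρ _ h1 + E.cocycle0 hρ _ h2) (fun g => by
        rw [Submodule.coe_add, Pi.add_apply, map_add, i_cocycle0, i_cocycle0, map_add]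
        abel), map_add]
    rfl
  map_smul' c w := by
    have h1 := w.2
    rw [← E.π_lift (w : V'')] at h1
    rw [E.delta0Fun_eq hρ (c • w) (c • E.lift w) (by simp)
      (c • E.cocycle0 hρ _ h1) (fun g => by
        rw [Submodule.coe_smul, Pi.smul_apply, map_smul, i_cocycle0, map_smul, smul_sub]),
      map_smul]
    rfl

/-- characterisation of `δ⁰` -/
theorem delta0_eq (w : ↥(H0 ρ'')) (v : V) (hv : E.π v = w) (z : ↥(Z1 𝓤 ρ'))
    (hz : ∀ g, E.i ((z : Γ → V') g) = ρ g v - v) : E.delta0 hρ w = H1.mk 𝓤 ρ' z :=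
  E.delta0Fun_eq hρ w v hv z hz

theorem exact_H0_delta0 (w : ↥(H0 ρ'')) :
    E.delta0 hρ w = 0 ↔ ∃ v : ↥(H0 ρ), (E.πMor 𝓤).mapH0 v = w := by
  constructor
  · intro h
    obtain ⟨e, he⟩ := H1.mk_eq_zero.mp h
    refine ⟨⟨E.lift w - E.i e, fun g => ?_⟩, ?_⟩
    · have := congrArg E.i (he g)
      rw [i_cocycle0, map_sub, E.i_comm, sub_eq_sub_iff_add_eq_add] at this
      rw [map_sub, sub_eq_sub_iff_add_eq_add, this, add_comm]
    · apply Subtype.ext
      change E.π (E.lift w - E.i e) = w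
      rw [map_sub, π_lift, E.comp, sub_zero]
  · rintro ⟨v, rfl⟩
    rw [E.delta0_eq hρ _ (v : V) rfl 0 (fun g => by rw [v.2 g]; simp), map_zero]

theorem exact_delta0_H1 (x : H1 𝓤 ρ') :
    (E.iMor 𝓤).mapH1 x = 0 ↔ ∃ w, E.delta0 hρ w = x := by
  obtain ⟨z, rfl⟩ := H1.mk_surjective x
  rw [Mor.mapH1_mk, H1.mk_eq_zero]
  constructor
  · rintro ⟨v, hv⟩
    have hv' : ∀ g, E.i ((z : Γ → V') g) = ρ g v - v := hv
    refine ⟨⟨E.π v, fun g => ?_⟩, ?_⟩
    · rw [← E.π_comm, ← sub_eq_zero, ← map_sub, ← hv', E.comp]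
    · exact E.delta0_eq hρ _ v rfl z hv'
  · rintro ⟨w, hw⟩
    have h1 : H1.mk 𝓤 ρ' _ = H1.mk 𝓤 ρ' z := hw
    rw [eq_comm, H1.mk_eq_mk] at h1
    obtain ⟨e, he⟩ := h1
    refine ⟨E.lift w + E.i e, fun g => ?_⟩
    change E.i ((z : Γ → V') g) = _
    rw [he, map_add, i_cocycle0, map_sub, E.i_comm, map_add]
    abel

include hρ in
theorem exact_H1 (x : H1 𝓤 ρ) :
    (E.πMor 𝓤).mapH1 x = 0 ↔ ∃ y, (E.iMor 𝓤).mapH1 y = x := by
  obtain ⟨z, rfl⟩ := H1.mk_surjective x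
  rw [Mor.mapH1_mk, H1.mk_eq_zero]
  constructor
  · rintro ⟨v, hv⟩
    have hv' : ∀ g, E.π ((z : Γ → V) g) = ρ'' g v - v := hv
    have h0 : ∀ g, E.π ((z : Γ → V) g - (ρ g (E.lift v) - E.lift v)) = 0 := by
      intro g
      rw [map_sub, hv', map_sub, E.π_comm, π_lift, sub_self]
    refine ⟨H1.mk 𝓤 ρ' ⟨fun g => E.down ((z : Γ → V) g - (ρ g (E.lift v) - E.lift v)), ?_, ?_⟩, ?_⟩
    · exact (z.2.1.post₂ (d0_mem_Z1 hρ (E.lift v)).1 (· - ·)).post E.down
    · intro g h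
      apply E.inj
      rw [map_add, E.i_comm, E.i_down (h0 _), E.i_down (h0 _), E.i_down (h0 _), z.2.2, map_mul,
        Module.End.mul_apply, map_sub, map_sub]
      abel
    · rw [Mor.mapH1_mk, H1.mk_eq_mk]
      refine ⟨-E.lift v, fun g => ?_⟩
      refine (E.i_down (h0 g)).trans ?_
      rw [map_neg]
      abel
  · rintro ⟨y, hy⟩
    obtain ⟨y, rfl⟩ := H1.mk_surjective y
    rw [Mor.mapH1_mk, eq_comm, H1.mk_eq_mk] at hy
    obtain ⟨e, he⟩ := hy
    refine ⟨E.π e, fun g => ?_⟩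
    change E.π ((z : Γ → V) g) = _
    rw [he]
    change E.π (E.i ((y : Γ → V') g) + (ρ g e - e)) = _
    rw [map_add, E.comp, zero_add, map_sub, E.π_comm]

/-! ### the connecting homomorphism in degree `1` -/

/-- the `2`-cocycle attached to a smooth cochain lifting a cocycle -/
noncomputable def cocycle1 (c : Γ → V) (hc : 𝓤.Sm1 c)
    (hc' : ∀ g h, E.π (c (g * h)) = ρ'' g (E.π (c h)) + E.π (c g)) : ↥(Z2 𝓤 ρ') :=
  ⟨fun p => E.down (d1 ρ c p), by
    have h0 : ∀ p, E.π (d1 ρ c p) = 0 := fun p => by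
      rw [d1_apply, map_add, map_sub, E.π_comm, hc']
      abel
    refine ⟨(d1_sm2 hρ hc).post E.down, fun g h j => ?_⟩
    apply E.inj
    rw [map_add, map_add, E.i_comm, E.i_down (h0 _), E.i_down (h0 _), E.i_down (h0 _),
      E.i_down (h0 _), d1_cocycle]⟩

theorem i_cocycle1 (c : Γ → V) (hc : 𝓤.Sm1 c)
    (hc' : ∀ g h, E.π (c (g * h)) = ρ'' g (E.π (c h)) + E.π (c g)) (p : Γ × Γ) :
    E.i ((E.cocycle1 hρ c hc hc' : Γ × Γ → V') p) = d1 ρ c p := by
  apply E.i_down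
  rw [d1_apply, map_add, map_sub, E.π_comm, hc']
  abel

/-- `δ¹` on cocycles as a function -/
noncomputable def delta1Fun (z : ↥(Z1 𝓤 ρ'')) : H2 𝓤 ρ' :=
  H2.mk 𝓤 ρ' (E.cocycle1 hρ (fun g => E.lift ((z : Γ → V'') g)) (z.2.1.post E.lift) (by
    intro g h
    simp only [π_lift, z.2.2]))

theorem delta1Fun_eq (z : ↥(Z1 𝓤 ρ'')) (c : Γ → V) (hc : 𝓤.Sm1 c)
    (hcz : ∀ g, E.π (c g) = (z : Γ → V'') g) (y : ↥(Z2 𝓤 ρ'))
    (hy : ∀ p, E.i ((y : Γ × Γ → V') p) = d1 ρ c p) : E.delta1Fun hρ z = H2.mk 𝓤 ρ' y := by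
  have h0 : ∀ g, E.π (E.lift ((z : Γ → V'') g) - c g) = 0 := fun g => by
    rw [map_sub, π_lift, hcz, sub_self]
  rw [delta1Fun, H2.mk_eq_mk]
  refine ⟨fun g => E.down (E.lift ((z : Γ → V'') g) - c g),
    ((z.2.1.post E.lift).post₂ hc (· - ·)).post E.down, fun g h => ?_⟩
  apply E.inj
  rw [i_cocycle1, map_add, hy, map_add, map_sub, E.i_comm, E.i_down (h0 _), E.i_down (h0 _),
    E.i_down (h0 _)]
  simp only [d1_apply, map_sub]
  abel

/-- `δ¹` on cocycles -/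
noncomputable def delta1Z : ↥(Z1 𝓤 ρ'') →ₗ[k] H2 𝓤 ρ' where
  toFun z := E.delta1Fun hρ z
  map_add' z z' := by
    have hz : ∀ z : ↥(Z1 𝓤 ρ''), ∀ g h, E.π (E.lift ((z : Γ → V'') (g * h))) =
        ρ'' g (E.π (E.lift ((z : Γ → V'') h))) + E.π (E.lift ((z : Γ → V'') g)) := fun z g h => by
      simp only [π_lift, z.2.2]
    rw [E.delta1Fun_eq hρ (z + z')
      (fun g => E.lift ((z : Γ → V'') g) + E.lift ((z' : Γ → V'') g))
      ((z.2.1.post E.lift).post₂ (z'.2.1.post E.lift) (· + ·))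
      (fun g => by simp)
      (E.cocycle1 hρ _ (z.2.1.post E.lift) (hz z) + E.cocycle1 hρ _ (z'.2.1.post E.lift) (hz z'))
      (fun p => by
        rw [Submodule.coe_add, Pi.add_apply, map_add, i_cocycle1, i_cocycle1]
        simp only [d1_apply, map_add]
        abel), map_add]
    rfl
  map_smul' a z := by
    have hz : ∀ z : ↥(Z1 𝓤 ρ''), ∀ g h, E.π (E.lift ((z : Γ → V'') (g * h))) =
        ρ'' g (E.π (E.lift ((z : Γ → V'') h))) + E.π (E.lift ((z : Γ → V'') g)) := fun z g h => by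
      simp only [π_lift, z.2.2]
    rw [E.delta1Fun_eq hρ (a • z)
      (fun g => a • E.lift ((z : Γ → V'') g))
      ((z.2.1.post E.lift).post (a • ·))
      (fun g => by simp)
      (a • E.cocycle1 hρ _ (z.2.1.post E.lift) (hz z))
      (fun p => by
        rw [Submodule.coe_smul, Pi.smul_apply, map_smul, i_cocycle1]
        simp only [d1_apply, map_smul, smul_add, smul_sub]), map_smul]
    rfl

/-- `δ¹ : H¹(V'') → H²(V')` -/
noncomputable def delta1 : H1 𝓤 ρ'' →ₗ[k] H2 𝓤 ρ' :=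
  Submodule.liftQ _ (E.delta1Z hρ) (by
    intro z hz
    rw [Submodule.mem_comap] at hz
    obtain ⟨v, hv⟩ := mem_B1.mp hz
    rw [Submodule.subtype_apply] at hv
    rw [LinearMap.mem_ker]
    change E.delta1Fun hρ z = 0
    rw [E.delta1Fun_eq hρ z (fun g => ρ g (E.lift v) - E.lift v) (d0_mem_Z1 hρ (E.lift v)).1
      (fun g => by rw [map_sub, E.π_comm, π_lift, hv]) 0 (fun p => by
        simp only [d1_apply, map_mul, Module.End.mul_apply, map_sub, ZeroMemClass.coe_zero,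
          Pi.zero_apply, map_zero]
        abel), map_zero])

/-- characterisation of `δ¹` -/
theorem delta1_eq (z : ↥(Z1 𝓤 ρ'')) (c : Γ → V) (hc : 𝓤.Sm1 c)
    (hcz : ∀ g, E.π (c g) = (z : Γ → V'') g) (y : ↥(Z2 𝓤 ρ'))
    (hy : ∀ p, E.i ((y : Γ × Γ → V') p) = d1 ρ c p) :
    E.delta1 hρ (H1.mk 𝓤 ρ'' z) = H2.mk 𝓤 ρ' y :=
  E.delta1Fun_eq hρ z c hc hcz y hy

theorem delta1_mk (z : ↥(Z1 𝓤 ρ'')) : E.delta1 hρ (H1.mk 𝓤 ρ'' z) = E.delta1Fun hρ z := rfl

theorem exact_H1_delta1 (w : H1 𝓤 ρ'') :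
    E.delta1 hρ w = 0 ↔ ∃ y, (E.πMor 𝓤).mapH1 y = w := by
  obtain ⟨z, rfl⟩ := H1.mk_surjective w
  constructor
  · intro h
    obtain ⟨e, he, h⟩ := H2.mk_eq_zero.mp h
    refine ⟨H1.mk 𝓤 ρ ⟨fun g => E.lift ((z : Γ → V'') g) - E.i (e g), ?_, fun g h' => ?_⟩, ?_⟩
    · exact (z.2.1.post E.lift).post₂ (he.post E.i) (· - ·)
    · have := congrArg E.i (h g h')
      rw [i_cocycle1, map_add, map_sub, E.i_comm] at this
      simp only [d1_apply] at this
      rw [map_sub]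
      have h2 : ρ g (E.lift ((z : Γ → V'') h')) - ρ g (E.i (e h')) +
          (E.lift ((z : Γ → V'') g) - E.i (e g)) -
          (E.lift ((z : Γ → V'') (g * h')) - E.i (e (g * h'))) =
          (ρ g (E.lift ((z : Γ → V'') h')) - E.lift ((z : Γ → V'') (g * h')) +
            E.lift ((z : Γ → V'') g)) - (ρ g (E.i (e h')) - E.i (e (g * h')) + E.i (e g)) := by abel
      rw [this, sub_self, sub_eq_zero] at h2
      exact h2.symm
    · rw [Mor.mapH1_mk]
      congr 1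
      apply Subtype.ext
      funext g
      change E.π (E.lift ((z : Γ → V'') g) - E.i (e g)) = _
      rw [map_sub, π_lift, E.comp, sub_zero]
  · rintro ⟨y, hy⟩
    obtain ⟨y, rfl⟩ := H1.mk_surjective y
    rw [← hy, Mor.mapH1_mk]
    rw [E.delta1_eq hρ _ (y : Γ → V) y.2.1 (fun g => rfl) 0 (fun p => by
      rw [d1_apply, y.2.2]
      simp), map_zero]

theorem exact_delta1_H2 (x : H2 𝓤 ρ') :
    (E.iMor 𝓤).mapH2 x = 0 ↔ ∃ w, E.delta1 hρ w = x := by
  obtain ⟨z, rfl⟩ := H2.mk_surjective x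
  rw [Mor.mapH2_mk, H2.mk_eq_zero]
  constructor
  · rintro ⟨c, hc, h⟩
    have hi : ∀ g h', E.i ((z : Γ × Γ → V') (g, h')) = ρ g (c h') - c (g * h') + c g := h
    refine ⟨H1.mk 𝓤 ρ'' ⟨fun g => E.π (c g), hc.post E.π, fun g h' => ?_⟩, ?_⟩
    · have := congrArg E.π (hi g h')
      rw [E.comp, map_add, map_sub, E.π_comm] at this
      have h2 : ρ'' g (E.π (c h')) + E.π (c g) - E.π (c (g * h')) =
        ρ'' g (E.π (c h')) - E.π (c (g * h')) + E.π (c g) := by abel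
      rw [← this, sub_eq_zero] at h2
      exact h2.symm
    · exact E.delta1_eq hρ _ c hc (fun g => rfl) z (fun p => hi p.1 p.2)
  · rintro ⟨w, hw⟩
    obtain ⟨w, rfl⟩ := H1.mk_surjective w
    have h1 : H2.mk 𝓤 ρ' _ = H2.mk 𝓤 ρ' z := hw
    rw [eq_comm, H2.mk_eq_mk] at h1
    obtain ⟨e, he, h⟩ := h1
    refine ⟨fun g => E.lift ((w : Γ → V'') g) + E.i (e g),
      (w.2.1.post E.lift).post₂ (he.post E.i) (· + ·), fun g h' => ?_⟩
    change E.i ((z : Γ × Γ → V') (g, h')) = _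
    rw [h, map_add, i_cocycle1, map_add, map_sub, E.i_comm, d1_apply, map_add]
    simp only
    abel

include hρ in
theorem exact_H2 (x : H2 𝓤 ρ) :
    (E.πMor 𝓤).mapH2 x = 0 ↔ ∃ y, (E.iMor 𝓤).mapH2 y = x := by
  obtain ⟨z, rfl⟩ := H2.mk_surjective x
  rw [Mor.mapH2_mk, H2.mk_eq_zero]
  constructor
  · rintro ⟨c, hc, h⟩
    have hπ : ∀ p : Γ × Γ, E.π ((z : Γ × Γ → V) p) =
      ρ'' p.1 (c p.2) - c (p.1 * p.2) + c p.1 := fun p => h p.1 p.2
    have hcs : 𝓤.Sm1 (fun g => E.lift (c g)) := hc.post E.lift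
    have h0 : ∀ p, E.π ((z : Γ × Γ → V) p - d1 ρ (fun g => E.lift (c g)) p) = 0 := by
      intro p
      rw [map_sub, hπ, d1_apply, map_add, map_sub, E.π_comm, π_lift, π_lift, π_lift, sub_self]
    refine ⟨H2.mk 𝓤 ρ' ⟨fun p => E.down ((z : Γ × Γ → V) p - d1 ρ (fun g => E.lift (c g)) p),
      ?_, ?_⟩, ?_⟩
    · exact (z.2.1.post₂ (d1_sm2 hρ hcs) (· - ·)).post E.down
    · intro g h' j
      apply E.inj
      rw [map_add, map_add, E.i_comm, E.i_down (h0 _), E.i_down (h0 _), E.i_down (h0 _),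
        E.i_down (h0 _), map_sub]
      have h1 := z.2.2 g h' j
      have h2 := d1_cocycle (ρ := ρ) (fun g => E.lift (c g)) g h' j
      rw [sub_add_sub_comm, h1, h2]
      abel
    · rw [Mor.mapH2_mk, H2.mk_eq_mk]
      refine ⟨fun g => -E.lift (c g), hcs.post Neg.neg, fun g h' => ?_⟩
      refine (E.i_down (h0 (g, h'))).trans ?_
      rw [d1_apply, map_neg, sub_neg_eq_add]
      simp only
      abel_nf
  · rintro ⟨y, hy⟩
    obtain ⟨y, rfl⟩ := H2.mk_surjective y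
    rw [Mor.mapH2_mk, eq_comm, H2.mk_eq_mk] at hy
    obtain ⟨e, he, h⟩ := hy
    refine ⟨fun g => E.π (e g), he.post E.π, fun g h' => ?_⟩
    change E.π ((z : Γ × Γ → V) (g, h')) = _
    rw [h]
    change E.π (E.i ((y : Γ × Γ → V') (g, h')) + _) = _
    rw [map_add, E.comp, zero_add, map_add, map_sub, E.π_comm]

end SES

end Fermat.Agent.Coh
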