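import Fermat.Agent.Coh.H1Weak

/-!
# Transitivity of the relative norm and a constructor for class formation data
-/

set_option autoImplicit false
set_option linter.unusedSectionVars false
set_option linter.style.haveILetI false

namespace Fermat.Agent.Coh

section trans

variable {k : Type*} [CommRing k] {Γ : Type*} [Group Γ] {V : Type*} [AddCommGroup V] [Module k V]
variable {𝓤 : Fam Γ} (ρ : Representation k Γ V) {U₁ U₂ U₃ : Subgroup Γ}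

/-- Transitivity of the norm. -/
theorem nmr_nmr (h : U₁ ≤ U₂) (h' : U₂ ≤ U₃) (hU₁ : 𝓤.IsOpen U₁) (hU₂ : 𝓤.IsOpen U₂)
    (b : ↥(FF ρ U₁)) :
    nmr ρ h' hU₂ (nmr ρ h hU₁ b) = nmr ρ (h.trans h') hU₁ b := by
  letI := relFintype hU₁ U₂
  letI := relFintype hU₁ U₃
  letI := relFintype hU₂ U₃
  set s₂₃ : U₃ ⧸ U₂.subgroupOf U₃ → Γ := fun x => ((sec (U₂.subgroupOf U₃) x : U₃) : Γ) with hs₂₃
  set s₁₂ : U₂ ⧸ U₁.subgroupOf U₂ → Γ := fun x => ((sec (U₁.subgroupOf U₂) x : U₂) : Γ) with hs₁₂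
  have m₂₃ : ∀ x, s₂₃ x ∈ U₃ := fun x => (sec (U₂.subgroupOf U₃) x : U₃).2
  have m₁₂ : ∀ x, s₁₂ x ∈ U₂ := fun x => (sec (U₁.subgroupOf U₂) x : U₂).2
  have e₂₃ : ∀ x, (((⟨s₂₃ x, m₂₃ x⟩ : U₃)) : U₃ ⧸ U₂.subgroupOf U₃) = x := fun x => mk_sec _ x
  have e₁₂ : ∀ x, (((⟨s₁₂ x, m₁₂ x⟩ : U₂)) : U₂ ⧸ U₁.subgroupOf U₂) = x := fun x => mk_sec _ x
  let F : (U₃ ⧸ U₂.subgroupOf U₃) × (U₂ ⧸ U₁.subgroupOf U₂) → U₃ ⧸ U₁.subgroupOf U₃ :=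
    fun z => ((⟨s₂₃ z.1 * s₁₂ z.2, U₃.mul_mem (m₂₃ _) (h' (m₁₂ _))⟩ : U₃) :
      U₃ ⧸ U₁.subgroupOf U₃)
  have hF : Function.Bijective F := by
    constructor
    · rintro ⟨x, y⟩ ⟨x', y'⟩ hxy
      have h1 := QuotientGroup.eq.mp hxy
      rw [Subgroup.mem_subgroupOf] at h1
      have h2 : (s₂₃ x * s₁₂ y)⁻¹ * (s₂₃ x' * s₁₂ y') ∈ U₁ := h1
      have h3 : x = x' := by
        rw [← e₂₃ x, ← e₂₃ x', QuotientGroup.eq, Subgroup.mem_subgroupOf]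
        change (s₂₃ x)⁻¹ * s₂₃ x' ∈ U₂
        have h4 : (s₂₃ x)⁻¹ * s₂₃ x' = s₁₂ y * ((s₂₃ x * s₁₂ y)⁻¹ * (s₂₃ x' * s₁₂ y')) *
          (s₁₂ y')⁻¹ := by group
        rw [h4]
        exact U₂.mul_mem (U₂.mul_mem (m₁₂ y) (h h2)) (U₂.inv_mem (m₁₂ y'))
      subst h3
      have h5 : y = y' := by
        rw [← e₁₂ y, ← e₁₂ y', QuotientGroup.eq, Subgroup.mem_subgroupOf]
        change (s₁₂ y)⁻¹ * s₁₂ y' ∈ U₁
        have h4 : (s₁₂ y)⁻¹ * s₁₂ y' = (s₂₃ x * s₁₂ y)⁻¹ * (s₂₃ x * s₁₂ y') := by group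
        rw [h4]
        exact h2
      rw [h5]
    · intro z
      obtain ⟨g, rfl⟩ := QuotientGroup.mk_surjective z
      set x : U₃ ⧸ U₂.subgroupOf U₃ := (g : U₃ ⧸ U₂.subgroupOf U₃) with hx
      have h1 : (s₂₃ x)⁻¹ * (g : Γ) ∈ U₂ := by
        have := e₂₃ x
        conv_rhs at this => rw [hx]
        rw [QuotientGroup.eq, Subgroup.mem_subgroupOf] at this
        exact this
      set y : U₂ ⧸ U₁.subgroupOf U₂ := ((⟨(s₂₃ x)⁻¹ * (g : Γ), h1⟩ : U₂) :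
        U₂ ⧸ U₁.subgroupOf U₂) with hy
      have h2 : (s₁₂ y)⁻¹ * ((s₂₃ x)⁻¹ * (g : Γ)) ∈ U₁ := by
        have := e₁₂ y
        conv_rhs at this => rw [hy]
        rw [QuotientGroup.eq, Subgroup.mem_subgroupOf] at this
        exact this
      refine ⟨(x, y), ?_⟩
      change ((⟨s₂₃ x * s₁₂ y, _⟩ : U₃) : U₃ ⧸ U₁.subgroupOf U₃) = _
      rw [QuotientGroup.eq, Subgroup.mem_subgroupOf]
      change (s₂₃ x * s₁₂ y)⁻¹ * (g : Γ) ∈ U₁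
      have h4 : (s₂₃ x * s₁₂ y)⁻¹ * (g : Γ) = (s₁₂ y)⁻¹ * ((s₂₃ x)⁻¹ * (g : Γ)) := by group
      rw [h4]
      exact h2
  let E := Equiv.ofBijective F hF
  have key : ∀ z, (((⟨s₂₃ (E.symm z).1 * s₁₂ (E.symm z).2,
      U₃.mul_mem (m₂₃ _) (h' (m₁₂ _))⟩ : U₃)) : U₃ ⧸ U₁.subgroupOf U₃) = z := fun z =>
    E.apply_symm_apply z
  apply Subtype.ext
  rw [coe_nmr ρ h' hU₂ _ s₂₃ (fun x => ⟨m₂₃ x, e₂₃ x⟩),
    coe_nmr ρ (h.trans h') hU₁ b (fun z => s₂₃ (E.symm z).1 * s₁₂ (E.symm z).2)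
      (fun z => ⟨_, key z⟩)]
  have h1 : ∀ x, ρ (s₂₃ x) (nmr ρ h hU₁ b : V) = ∑ y, ρ (s₂₃ x * s₁₂ y) (b : V) := by
    intro x
    rw [coe_nmr ρ h hU₁ b s₁₂ (fun x => ⟨m₁₂ x, e₁₂ x⟩), map_sum]
    refine Finset.sum_congr rfl fun y _ => ?_
    rw [map_mul]
    rfl
  rw [Finset.sum_congr rfl fun x _ => h1 x, ← Fintype.sum_prod_type']
  refine Fintype.sum_equiv E _ _ fun z => ?_
  rw [Equiv.symm_apply_apply]

end trans

section constructor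

variable {p : ℕ} [hp : Fact p.Prime] {Γ : Type*} [Group Γ] {𝓤 : Fam Γ}

open Classical in
/-- The exponent `f` attached to `d`. -/
noncomputable def fOf (d : Γ → ℤ_[p]) (U : Subgroup Γ) : ℕ :=
  if h : ∃ n : ℕ, ∃ u ∈ U, ¬ (p : ℤ_[p]) ^ (n + 1) ∣ d u then Nat.find h else 0

theorem exists_not_dvd {x : ℤ_[p]} (hx : x ≠ 0) : ∃ n : ℕ, ¬ (p : ℤ_[p]) ^ (n + 1) ∣ x := by
  by_contra hne
  push Not at hne
  apply hx
  rw [← norm_eq_zero]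
  by_contra hne'
  have hpos : 0 < ‖x‖ := lt_of_le_of_ne (norm_nonneg _) (Ne.symm hne')
  obtain ⟨n, hn⟩ := exists_pow_lt_of_lt_one hpos (show (p : ℝ)⁻¹ < 1 from
    inv_lt_one_of_one_lt₀ (by exact_mod_cast hp.out.one_lt))
  have h1 := (PadicInt.norm_le_pow_iff_mem_span_pow x (n + 1)).mpr
    (Ideal.mem_span_singleton.mpr (hne n))
  rw [zpow_neg, zpow_natCast, ← inv_pow] at h1
  have h2 : ((p : ℝ)⁻¹) ^ (n + 1) ≤ ((p : ℝ)⁻¹) ^ n :=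
    pow_le_pow_of_le_one (by positivity) (inv_le_one_of_one_le₀ (by
      exact_mod_cast hp.out.one_lt.le)) (by omega)
  exact absurd (h1.trans h2) (not_le.mpr hn)

variable (d : Γ → ℤ_[p]) (d_mul : ∀ g h, d (g * h) = d g + d h)

include d_mul in
theorem d_pow' (g : Γ) (n : ℕ) : d (g ^ n) = n * d g := by
  have h1 : d 1 = 0 := by
    have := d_mul 1 1
    simpa using this
  induction n with
  | zero => simp [h1]
  | succ n ih => rw [pow_succ, d_mul, ih]; push_cast; ring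

include d_mul in
theorem exists_fOf (hd : ∃ g, d g ≠ 0) {U : Subgroup Γ} (hU : 𝓤.IsOpen U) :
    ∃ n : ℕ, ∃ u ∈ U, ¬ (p : ℤ_[p]) ^ (n + 1) ∣ d u := by
  obtain ⟨g, hg⟩ := hd
  obtain ⟨W, hW, hWU⟩ := hU
  have hn := 𝓤.normal W hW
  have hf := 𝓤.finiteIndex W hW
  have h1 : d (g ^ W.index) ≠ 0 := by
    rw [d_pow' d d_mul]
    exact mul_ne_zero (by exact_mod_cast hf.index_ne_zero) hg
  obtain ⟨n, hn'⟩ := exists_not_dvd h1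
  exact ⟨n, _, hWU (Subgroup.pow_index_mem W g), hn'⟩

include d_mul in
theorem fOf_dvd (hd : ∃ g, d g ≠ 0) {U : Subgroup Γ} (hU : 𝓤.IsOpen U) (u : Γ) (hu : u ∈ U) :
    (p : ℤ_[p]) ^ fOf d U ∣ d u := by
  classical
  have h := exists_fOf d d_mul hd hU
  rw [fOf, dif_pos h]
  by_cases h0 : Nat.find h = 0
  · rw [h0, pow_zero]
    exact one_dvd _
  · have h1 := Nat.find_min h (Nat.sub_lt (Nat.pos_of_ne_zero h0) one_pos)
    push Not at h1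
    have h2 := h1 u hu
    have e : Nat.find h - 1 + 1 = Nat.find h := by omega
    rwa [e] at h2

include d_mul in
theorem fOf_ex (hd : ∃ g, d g ≠ 0) {U : Subgroup Γ} (hU : 𝓤.IsOpen U) :
    ∃ u ∈ U, ¬ (p : ℤ_[p]) ^ (fOf d U + 1) ∣ d u := by
  classical
  have h := exists_fOf d d_mul hd hU
  rw [fOf, dif_pos h]
  exact Nat.find_spec h

include d_mul in
theorem fOf_mono (hd : ∃ g, d g ≠ 0) {U T : Subgroup Γ} (hU : 𝓤.IsOpen U) (h : U ≤ T) :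
    fOf d T ≤ fOf d U := by
  by_contra hlt
  obtain ⟨u, hu, hu'⟩ := fOf_ex d d_mul hd hU
  exact absurd ((pow_dvd_pow _ (by omega)).trans (fOf_dvd d d_mul hd (hU.mono h) u (h hu))) hu'

variable {A : Type*} [AddCommGroup A] (α : Representation ℤ Γ A)
variable (v₀ : ↥(FF α (⊤ : Subgroup Γ)) →+ ℤ_[p])
  (hv₀ : ∀ U (hU : 𝓤.IsOpen U) (a : ↥(FF α U)), (p : ℤ_[p]) ^ fOf d U ∣
    v₀ (nmr α le_top hU a))

/-- the valuations attached to `v₀` -/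
noncomputable def vOf {U : Subgroup Γ} (hU : 𝓤.IsOpen U) : ↥(FF α U) →+ ℤ_[p] where
  toFun a := (hv₀ U hU a).choose
  map_zero' := by
    apply mul_left_cancel₀ (CFData.pow_ne (p := p) (fOf d U))
    rw [← (hv₀ U hU 0).choose_spec, map_zero, map_zero, mul_zero]
  map_add' a b := by
    apply mul_left_cancel₀ (CFData.pow_ne (p := p) (fOf d U))
    rw [← (hv₀ U hU (a + b)).choose_spec, map_add, map_add, mul_add,
      ← (hv₀ U hU a).choose_spec, ← (hv₀ U hU b).choose_spec]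

theorem vOf_spec {U : Subgroup Γ} (hU : 𝓤.IsOpen U) (a : ↥(FF α U)) :
    (p : ℤ_[p]) ^ fOf d U * vOf d α v₀ hv₀ hU a = v₀ (nmr α le_top hU a) :=
  (hv₀ U hU a).choose_spec.symm

open Classical in
/-- Class formation data from a valuation on the top layer. -/
noncomputable def CFData.ofTop (sm : SmRep 𝓤 α) (d_sm : ∀ n : ℕ, ∃ U ∈ 𝓤, ∀ u ∈ U,
      (p : ℤ_[p]) ^ n ∣ d u) (hd : ∃ g, d g ≠ 0)
    (hv₁ : ∀ U (hU : 𝓤.IsOpen U), ∃ a : ↥(FF α U), ¬ (p : ℤ_[p]) ^ (fOf d U + 1) ∣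
      v₀ (nmr α le_top hU a))
    (h1 : ∀ U, 𝓤.IsOpen U → ∀ y : HI 𝓤 α U, ∃ c : ℕ, c.Coprime p ∧ c • y = 0)
    (Γ₀ : Subgroup Γ) (Γ₀_open : 𝓤.IsOpen Γ₀) (Γ₀_normal : Γ₀.Normal)
    (Γ₀_index : Γ₀.index.Coprime p)
    (idx : ∀ (U₁ U₂ : Subgroup Γ) (h : U₁ ≤ U₂) (hU : 𝓤.IsOpen U₁), U₂ ≤ Γ₀ →
      (U₁.subgroupOf U₂).Normal → U₁.relIndex U₂ = p →
      (LinearMap.range (nmr α h hU)).toAddSubgroup.index = p) : CFData p 𝓤 α where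
  sm := sm
  d := d
  d_mul := d_mul
  d_sm := d_sm
  f := fOf d
  f_dvd _ hU u hu := fOf_dvd d d_mul hd hU u hu
  f_ex _ hU := fOf_ex d d_mul hd hU
  v U := if hU : 𝓤.IsOpen U then vOf d α v₀ hv₀ hU else 0
  v_nm U₁ U₂ h hU₁ b := by
    have hU₂ := hU₁.mono h
    rw [dif_pos hU₁, dif_pos hU₂]
    apply mul_left_cancel₀ (CFData.pow_ne (p := p) (fOf d U₂))
    rw [vOf_spec, nmr_nmr α h le_top hU₁ hU₂, ← mul_assoc, ← pow_add]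
    have hmono := fOf_mono d d_mul hd hU₁ h
    rw [Nat.add_sub_cancel' hmono, vOf_spec]
  v_ex U hU := by
    rw [dif_pos hU]
    obtain ⟨a, ha⟩ := hv₁ U hU
    refine ⟨a, fun h => ha ?_⟩
    rw [← vOf_spec d α v₀ hv₀ hU, pow_succ]
    exact mul_dvd_mul_left _ h
  h1 := h1
  Γ₀ := Γ₀
  Γ₀_open := Γ₀_open
  Γ₀_normal := Γ₀_normal
  Γ₀_index := Γ₀_index
  idx := idx

theorem CFData.ofTop_v (sm : SmRep 𝓤 α) (d_sm : ∀ n : ℕ, ∃ U ∈ 𝓤, ∀ u ∈ U,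
      (p : ℤ_[p]) ^ n ∣ d u) (hd : ∃ g, d g ≠ 0)
    (hv₁ : ∀ U (hU : 𝓤.IsOpen U), ∃ a : ↥(FF α U), ¬ (p : ℤ_[p]) ^ (fOf d U + 1) ∣
      v₀ (nmr α le_top hU a))
    (h1 : ∀ U, 𝓤.IsOpen U → ∀ y : HI 𝓤 α U, ∃ c : ℕ, c.Coprime p ∧ c • y = 0)
    (Γ₀ : Subgroup Γ) (Γ₀_open : 𝓤.IsOpen Γ₀) (Γ₀_normal : Γ₀.Normal)
    (Γ₀_index : Γ₀.index.Coprime p)
    (idx : ∀ (U₁ U₂ : Subgroup Γ) (h : U₁ ≤ U₂) (hU : 𝓤.IsOpen U₁), U₂ ≤ Γ₀ →
      (U₁.subgroupOf U₂).Normal → U₁.relIndex U₂ = p →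
      (LinearMap.range (nmr α h hU)).toAddSubgroup.index = p)
    (U : Subgroup Γ) (hU : 𝓤.IsOpen U) (a : ↥(FF α U)) :
    (p : ℤ_[p]) ^ (CFData.ofTop d d_mul α v₀ hv₀ sm d_sm hd hv₁ h1 Γ₀ Γ₀_open Γ₀_normal Γ₀_index
      idx).f U * (CFData.ofTop d d_mul α v₀ hv₀ sm d_sm hd hv₁ h1 Γ₀ Γ₀_open Γ₀_normal Γ₀_index
      idx).v U a = v₀ (nmr α le_top hU a) := by
  classical
  change (p : ℤ_[p]) ^ fOf d U * (if h : 𝓤.IsOpen U then vOf d α v₀ hv₀ h else 0) a = _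
  rw [dif_pos hU]
  exact vOf_spec d α v₀ hv₀ hU a

end constructor

/-! ### rescaling -/

section scale

variable {p : ℕ} [hp : Fact p.Prime] {Γ : Type*} [Group Γ] {𝓤 : Fam Γ} {A : Type*}
    [AddCommGroup A] {α : Representation ℤ Γ A}

/-- Rescaling the `ℤ_p`-extension by a nonzero `p`-adic integer `p ^ s * u`. -/
noncomputable def CFData.scale (D : CFData p 𝓤 α) (s : ℕ) (u : ℤ_[p]ˣ) : CFData p 𝓤 α where
  sm := D.sm
  d g := (p : ℤ_[p]) ^ s * u * D.d g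
  d_mul g h := by rw [D.d_mul, mul_add]
  d_sm n := by
    obtain ⟨U, hU, h⟩ := D.d_sm n
    exact ⟨U, hU, fun g hg => (h g hg).mul_left _⟩
  f U := D.f U + s
  f_dvd U hU g hg := by
    rw [pow_add, mul_comm ((p : ℤ_[p]) ^ D.f U), mul_assoc]
    exact mul_dvd_mul_left _ ((D.f_dvd U hU g hg).mul_left _)
  f_ex U hU := by
    obtain ⟨g, hg, hg'⟩ := D.f_ex U hU
    refine ⟨g, hg, fun h => hg' ?_⟩
    rw [show D.f U + s + 1 = s + (D.f U + 1) by ring, pow_add, mul_assoc,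
      mul_dvd_mul_iff_left (CFData.pow_ne (p := p) s)] at h
    exact (u.isUnit.dvd_mul_left).mp h
  v U := (AddMonoidHom.mulLeft (u : ℤ_[p])).comp (D.v U)
  v_nm U₁ U₂ h hU b := by
    simp only [AddMonoidHom.coe_comp, Function.comp_apply, AddMonoidHom.coe_mulLeft, D.v_nm,
      Nat.add_sub_add_right]
    ring
  v_ex U hU := by
    obtain ⟨a, ha⟩ := D.v_ex U hU
    refine ⟨a, fun h => ha ?_⟩
    simp only [AddMonoidHom.coe_comp, Function.comp_apply, AddMonoidHom.coe_mulLeft] at h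
    exact (u.isUnit.dvd_mul_left).mp h
  h1 := D.h1
  Γ₀ := D.Γ₀
  Γ₀_open := D.Γ₀_open
  Γ₀_normal := D.Γ₀_normal
  Γ₀_index := D.Γ₀_index
  idx := D.idx

end scale

end Fermat.Agent.Coh
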