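import Mathlib

/-!
# The `p`-adic logarithm on `ℤ_pˣ`, `p` odd

`lam x = lim (x ^ ((p - 1) * p ^ n) - 1) / p ^ (n + 1)`
-/

set_option autoImplicit false

namespace Fermat.Agent.PLog

variable {p : ℕ} [hp : Fact p.Prime]

theorem step (hp2 : p ≠ 2) {R : Type*} [CommRing R] (n : ℕ) (w : R) :
    ∃ c, (1 + (p : R) ^ (n + 1) * w) ^ p =
      1 + (p : R) ^ (n + 2) * (w * (1 + (p : R) ^ (n + 1) * c)) := by
  set z := (p : R) ^ (n + 1) * w with hz
  have h1 := add_pow_prime_eq hp.out (1 : R) z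
  have hp3 : 3 ≤ p := by
    have := hp.out.two_le
    omega
  have h2 : ∃ T, ∑ k ∈ Finset.Ioo 0 p, (1 : R) ^ (k - 1) * z ^ (p - k - 1) * ↑(p.choose k / p) =
      1 + z * T := by
    have hmem : p - 1 ∈ Finset.Ioo 0 p := Finset.mem_Ioo.mpr ⟨by omega, by omega⟩
    rw [← Finset.add_sum_erase _ _ hmem]
    have h3 : (1 : R) ^ (p - 1 - 1) * z ^ (p - (p - 1) - 1) * ↑(p.choose (p - 1) / p) = 1 := by
      have h4 : p - (p - 1) - 1 = 0 := by omega
      have h5 : p.choose (p - 1) = p := by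
        rw [Nat.choose_symm (show 1 ≤ p by omega), Nat.choose_one_right]
      rw [h4, h5, Nat.div_self hp.out.pos]
      simp
    have h4 : z ∣ ∑ k ∈ (Finset.Ioo 0 p).erase (p - 1),
        (1 : R) ^ (k - 1) * z ^ (p - k - 1) * ↑(p.choose k / p) := by
      apply Finset.dvd_sum
      intro k hk
      have hk' := Finset.mem_erase.mp hk
      have hk2 := Finset.mem_Ioo.mp hk'.2
      have : p - k - 1 ≠ 0 := by omega
      exact ((dvd_pow_self z this).mul_left _).mul_right _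
    obtain ⟨T, hT⟩ := h4
    exact ⟨T, by rw [h3, hT]⟩
  obtain ⟨T, hT⟩ := h2
  obtain ⟨q, hq⟩ := Nat.exists_eq_add_of_le hp3
  have h5 : z ^ p = (p : R) ^ (n + 2) * (w * ((p : R) ^ (n + 1) * (w * ((p : R) ^ n * (w * z ^ q))))) := by
    rw [show z ^ p = z ^ (3 + q) from congrArg _ hq, pow_add, hz]
    ring
  refine ⟨w * T + w * ((p : R) ^ n * (w * z ^ q)), ?_⟩
  rw [h1, hT, h5, hz]
  ring

theorem p_ne_zero : (p : ℤ_[p]) ≠ 0 := by
  exact_mod_cast hp.out.ne_zero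

theorem pow_ne (n : ℕ) : (p : ℤ_[p]) ^ n ≠ 0 := pow_ne_zero _ p_ne_zero

theorem exists_sq (x : ℤ_[p]ˣ) (n : ℕ) :
    ∃ L : ℤ_[p], (x : ℤ_[p]) ^ ((p - 1) * p ^ n) = 1 + (p : ℤ_[p]) ^ (n + 1) * L := by
  induction n with
  | zero =>
    have h1 : (p : ℤ_[p]) ∣ (x : ℤ_[p]) ^ (p - 1) - 1 := by
      rw [← Ideal.mem_span_singleton, ← PadicInt.maximalIdeal_eq_span_p, ← PadicInt.ker_toZMod,
        RingHom.mem_ker, map_sub, map_pow, map_one, sub_eq_zero]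
      exact ZMod.pow_card_sub_one_eq_one ((x.isUnit.map (PadicInt.toZMod (p := p))).ne_zero)
    obtain ⟨L, hL⟩ := h1
    refine ⟨L, ?_⟩
    rw [pow_zero, mul_one, zero_add, pow_one, ← hL]
    ring
  | succ n ih =>
    obtain ⟨L, hL⟩ := ih
    have h2 := exists_add_pow_prime_eq hp.out (1 : ℤ_[p]) ((p : ℤ_[p]) ^ (n + 1) * L)
    obtain ⟨r, hr⟩ := h2
    obtain ⟨q, hq⟩ := Nat.exists_eq_add_of_le hp.out.two_le
    refine ⟨(p : ℤ_[p]) ^ n * L ^ 2 * ((p : ℤ_[p]) ^ (n + 1) * L) ^ q + L * r, ?_⟩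
    rw [show (p - 1) * p ^ (n + 1) = (p - 1) * p ^ n * p by rw [pow_succ]; ring, pow_mul, hL, hr,
      show ((p : ℤ_[p]) ^ (n + 1) * L) ^ p = ((p : ℤ_[p]) ^ (n + 1) * L) ^ (2 + q) from
        congrArg _ hq, pow_add]
    ring

/-- the approximations of the logarithm -/
noncomputable def sq (x : ℤ_[p]ˣ) (n : ℕ) : ℤ_[p] := (exists_sq x n).choose

theorem sq_spec (x : ℤ_[p]ˣ) (n : ℕ) :
    (x : ℤ_[p]) ^ ((p - 1) * p ^ n) = 1 + (p : ℤ_[p]) ^ (n + 1) * sq x n :=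
  (exists_sq x n).choose_spec

theorem sq_succ (hp2 : p ≠ 2) (x : ℤ_[p]ˣ) (n : ℕ) :
    ∃ c, sq x (n + 1) = sq x n * (1 + (p : ℤ_[p]) ^ (n + 1) * c) := by
  obtain ⟨c, hc⟩ := step hp2 n (sq x n)
  refine ⟨c, mul_left_cancel₀ (pow_ne (p := p) (n + 1 + 1)) ?_⟩
  rw [← sq_spec, pow_mul] at hc
  have h1 := sq_spec x (n + 1)
  rw [show (p - 1) * p ^ (n + 1) = (p - 1) * p ^ n * p by rw [pow_succ]; ring, pow_mul,
    pow_mul, hc] at h1
  exact (add_left_cancel h1).symm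

theorem sq_eq (hp2 : p ≠ 2) (x : ℤ_[p]ˣ) (n : ℕ) :
    ∃ c, sq x n = sq x 0 * (1 + (p : ℤ_[p]) * c) := by
  induction n with
  | zero => exact ⟨0, by ring⟩
  | succ n ih =>
    obtain ⟨c, hc⟩ := ih
    obtain ⟨c', hc'⟩ := sq_succ hp2 x n
    refine ⟨c + (p : ℤ_[p]) ^ n * c' + (p : ℤ_[p]) ^ (n + 1) * c * c', ?_⟩
    rw [hc', hc, pow_succ]
    ring

theorem sq_cauchy (hp2 : p ≠ 2) (x : ℤ_[p]ˣ) {m n : ℕ} (h : m ≤ n) :
    (p : ℤ_[p]) ^ m ∣ sq x m - sq x n := by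
  obtain ⟨k, rfl⟩ := Nat.exists_eq_add_of_le h
  induction k with
  | zero => simp
  | succ k ih =>
    obtain ⟨c, hc⟩ := sq_succ hp2 x (m + k)
    have h1 : sq x m - sq x (m + (k + 1)) = (sq x m - sq x (m + k)) -
        (p : ℤ_[p]) ^ m * ((p : ℤ_[p]) ^ (k + 1) * c * sq x (m + k)) := by
      rw [← add_assoc, hc]
      ring
    rw [h1]
    exact dvd_sub (ih (by omega)) (dvd_mul_right _ _)

theorem exists_limit (f : ℕ → ℤ_[p]) (hf : ∀ m n, m ≤ n → (p : ℤ_[p]) ^ m ∣ f m - f n) :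
    ∃ x : ℤ_[p], ∀ n, (p : ℤ_[p]) ^ n ∣ f n - x := by
  have h1 : ∀ {m n}, m ≤ n → f m ≡ f n
      [SMOD ((IsLocalRing.maximalIdeal ℤ_[p]) ^ m • ⊤ : Submodule ℤ_[p] ℤ_[p])] := by
    intro m n hmn
    rw [SModEq.sub_mem, smul_eq_mul, Ideal.mul_top, PadicInt.maximalIdeal_eq_span_p,
      Ideal.span_singleton_pow, Ideal.mem_span_singleton]
    exact hf m n hmn
  obtain ⟨x, hx⟩ := IsPrecomplete.prec' (I := IsLocalRing.maximalIdeal ℤ_[p]) f h1
  refine ⟨x, fun n => ?_⟩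
  have h2 := hx n
  rw [SModEq.sub_mem, smul_eq_mul, Ideal.mul_top, PadicInt.maximalIdeal_eq_span_p,
    Ideal.span_singleton_pow, Ideal.mem_span_singleton] at h2
  exact h2

theorem eq_of_forall_dvd {x y : ℤ_[p]} (h : ∀ n, (p : ℤ_[p]) ^ n ∣ x - y) : x = y := by
  rw [← sub_eq_zero, ← norm_eq_zero]
  by_contra hne
  have hpos : 0 < ‖x - y‖ := lt_of_le_of_ne (norm_nonneg _) (Ne.symm hne)
  obtain ⟨n, hn⟩ := exists_pow_lt_of_lt_one hpos (show (p : ℝ)⁻¹ < 1 from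
    inv_lt_one_of_one_lt₀ (by exact_mod_cast hp.out.one_lt))
  have h1 := (PadicInt.norm_le_pow_iff_mem_span_pow (x - y) n).mpr
    (Ideal.mem_span_singleton.mpr (h n))
  rw [zpow_neg, zpow_natCast, ← inv_pow] at h1
  exact absurd h1 (not_le.mpr hn)

open Classical in
/-- The `p`-adic logarithm, up to a unit. -/
noncomputable def lam (x : ℤ_[p]ˣ) : ℤ_[p] :=
  if h : ∃ y, ∀ n, (p : ℤ_[p]) ^ n ∣ sq x n - y then h.choose else 0

theorem lam_spec (hp2 : p ≠ 2) (x : ℤ_[p]ˣ) (n : ℕ) : (p : ℤ_[p]) ^ n ∣ sq x n - lam x := by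
  have h := exists_limit (sq x) fun m n hmn => sq_cauchy hp2 x hmn
  rw [lam, dif_pos h]
  exact h.choose_spec n

theorem lam_mul (hp2 : p ≠ 2) (x y : ℤ_[p]ˣ) : lam (x * y) = lam x + lam y := by
  apply eq_of_forall_dvd
  intro n
  have h1 : sq (x * y) n = sq x n + sq y n + (p : ℤ_[p]) ^ (n + 1) * (sq x n * sq y n) := by
    apply mul_left_cancel₀ (pow_ne (p := p) (n + 1))
    have h2 := sq_spec (x * y) n
    rw [Units.val_mul, mul_pow, sq_spec, sq_spec] at h2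
    linear_combination -h2
  have h2 : lam (x * y) - (lam x + lam y) = -(sq (x * y) n - lam (x * y)) + (sq x n - lam x) +
      (sq y n - lam y) + (p : ℤ_[p]) ^ n * (p * (sq x n * sq y n)) := by
    rw [h1]
    ring
  rw [h2]
  exact dvd_add (dvd_add (dvd_add ((dvd_neg).mpr (lam_spec hp2 _ n)) (lam_spec hp2 _ n))
    (lam_spec hp2 _ n)) (dvd_mul_right _ _)

theorem lam_one (hp2 : p ≠ 2) : lam (1 : ℤ_[p]ˣ) = 0 := by
  have := lam_mul hp2 (1 : ℤ_[p]ˣ) 1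
  rw [mul_one] at this
  exact left_eq_add.mp this

theorem lam_inv (hp2 : p ≠ 2) (x : ℤ_[p]ˣ) : lam x⁻¹ = - lam x := by
  have := lam_mul hp2 x⁻¹ x
  rw [inv_mul_cancel, lam_one hp2] at this
  exact (neg_eq_of_add_eq_zero_left this.symm).symm

theorem lam_pow (hp2 : p ≠ 2) (x : ℤ_[p]ˣ) (n : ℕ) : lam (x ^ n) = n * lam x := by
  induction n with
  | zero => rw [pow_zero, lam_one hp2]; simp
  | succ n ih => rw [pow_succ, lam_mul hp2, ih]; push_cast; ring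

theorem isUnit_one_add (c : ℤ_[p]) : IsUnit (1 + (p : ℤ_[p]) * c) := by
  by_contra h
  have h1 : ‖1 + (p : ℤ_[p]) * c‖ < 1 := by
    rw [PadicInt.isUnit_iff] at h
    exact lt_of_le_of_ne (PadicInt.norm_le_one _) h
  rw [PadicInt.norm_lt_one_iff_dvd] at h1
  have h2 := (dvd_add_left (dvd_mul_right (p : ℤ_[p]) c)).mp h1
  exact PadicInt.p_nonunit (isUnit_of_dvd_one h2)

theorem pow_dvd_lam_iff (hp2 : p ≠ 2) (x : ℤ_[p]ˣ) (n : ℕ) :
    (p : ℤ_[p]) ^ n ∣ lam x ↔ (p : ℤ_[p]) ^ (n + 1) ∣ (x : ℤ_[p]) ^ (p - 1) - 1 := by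
  have h0 := sq_spec x 0
  rw [pow_zero, mul_one, zero_add, pow_one] at h0
  obtain ⟨c, hc⟩ := sq_eq hp2 x n
  have h1 : (p : ℤ_[p]) ^ n ∣ lam x ↔ (p : ℤ_[p]) ^ n ∣ sq x n := by
    have h2 := lam_spec hp2 x n
    constructor
    · intro h
      have := dvd_add h2 h
      rwa [sub_add_cancel] at this
    · intro h
      have := dvd_sub h h2
      rwa [sub_sub_cancel] at this
  rw [h1, hc, (isUnit_one_add c).dvd_mul_right, h0, add_sub_cancel_left, pow_succ',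
    mul_dvd_mul_iff_left p_ne_zero]

theorem lam_eq_zero_iff (hp2 : p ≠ 2) (x : ℤ_[p]ˣ) : lam x = 0 ↔ x ^ (p - 1) = 1 := by
  constructor
  · intro h
    apply Units.ext
    rw [Units.val_pow_eq_pow_val, Units.val_one]
    apply eq_of_forall_dvd
    intro n
    exact (pow_dvd_pow _ (Nat.le_succ n)).trans
      ((pow_dvd_lam_iff hp2 x n).mp (by rw [h]; exact dvd_zero _))
  · intro h
    apply eq_of_forall_dvd
    intro n
    rw [sub_zero, pow_dvd_lam_iff hp2, ← Units.val_pow_eq_pow_val, h, Units.val_one, sub_self]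
    exact dvd_zero _

/-- the unit associated to an integer prime to `p` -/
noncomputable def unitNat {l : ℕ} (h : l.Coprime p) : ℤ_[p]ˣ :=
  (PadicInt.isUnit_iff.mpr (by
    rw [Nat.coprime_comm, hp.out.coprime_iff_not_dvd] at h
    refine le_antisymm (PadicInt.norm_le_one _) (not_lt.mp fun h1 => h ?_)
    have h5 : ‖((l : ℤ) : ℤ_[p])‖ < 1 := by exact_mod_cast h1
    have h6 := (PadicInt.norm_int_lt_one_iff_dvd _).mp h5
    exact_mod_cast h6) : IsUnit (l : ℤ_[p])).unit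

@[simp] theorem coe_unitNat {l : ℕ} (h : l.Coprime p) : (unitNat h : ℤ_[p]) = l := rfl

/-- the logarithm of an integer prime to `p`, `> 1`, is not zero -/
theorem lam_unitNat_ne_zero (hp2 : p ≠ 2) {l : ℕ} (h : l.Coprime p) (hl : 1 < l) :
    lam (unitNat h) ≠ 0 := by
  intro h0
  rw [lam_eq_zero_iff hp2] at h0
  have h1 := congrArg (fun u : ℤ_[p]ˣ => (u : ℤ_[p])) h0
  simp only [Units.val_pow_eq_pow_val, coe_unitNat, Units.val_one] at h1
  have h2 : l ^ (p - 1) = 1 := by exact_mod_cast h1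
  have h3 := Nat.one_lt_pow (n := p - 1) (by have := hp.out.two_le; omega) hl
  omega

/-- There is a unit with logarithm prime to `p`. -/
theorem exists_lam_unit (hp2 : p ≠ 2) : ¬ (p : ℤ_[p]) ∣ lam (unitNat (p := p) (l := 1 + p)
    (by simp)) := by
  rw [← pow_one (p : ℤ_[p]), pow_dvd_lam_iff hp2, coe_unitNat]
  intro h
  have hp3 : 3 ≤ p := by have := hp.out.two_le; omega
  obtain ⟨q, hq⟩ := Nat.exists_eq_add_of_le hp3
  have h1 : (p : ℤ_[p]) ^ 2 ∣ ((1 + p : ℕ) : ℤ_[p]) ^ (p - 1) - 1 - ((p - 1 : ℕ) : ℤ_[p]) * p := by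
    have h2 := add_pow (p : ℤ_[p]) 1 (p - 1)
    have hq' : p - 1 = (q + 1) + 1 := by omega
    rw [Nat.cast_add, Nat.cast_one, add_comm (1 : ℤ_[p]), h2, hq', Finset.sum_range_succ',
      Finset.sum_range_succ']
    simp only [one_pow, mul_one, zero_add, pow_one, pow_zero, Nat.choose_zero_right,
      Nat.choose_one_right, Nat.cast_one]
    have h3 : ∀ S : ℤ_[p], S + (p : ℤ_[p]) * ((q + 1 + 1 : ℕ) : ℤ_[p]) + 1 - 1 -
      ((q + 1 + 1 : ℕ) : ℤ_[p]) * p = S := fun S => by ring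
    rw [h3]
    apply Finset.dvd_sum
    intro k _
    exact (Dvd.intro_left ((p : ℤ_[p]) ^ k) (by ring)).mul_right _
  have h2 := dvd_sub h h1
  have h3 : ((1 + p : ℕ) : ℤ_[p]) ^ (p - 1) - 1 - (((1 + p : ℕ) : ℤ_[p]) ^ (p - 1) - 1 -
      ((p - 1 : ℕ) : ℤ_[p]) * p) = (p : ℤ_[p]) * ((p - 1 : ℕ) : ℤ_[p]) := by ring
  rw [h3, show (1 : ℕ) + 1 = 2 from rfl, pow_two, mul_dvd_mul_iff_left p_ne_zero] at h2
  have h4 : ‖(((p - 1 : ℕ) : ℤ) : ℤ_[p])‖ < 1 := by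
    rw [Int.cast_natCast, PadicInt.norm_lt_one_iff_dvd]
    exact h2
  have h5 := (PadicInt.norm_int_lt_one_iff_dvd _).mp h4
  have h6 : p ∣ p - 1 := by exact_mod_cast h5
  have := Nat.le_of_dvd (by omega) h6
  omega

theorem exists_root (hp2 : p ≠ 2) (m : ℕ) (t : ℤ_[p]) :
    ∃ z : ℤ_[p]ˣ, (z : ℤ_[p]) ^ p = 1 + (p : ℤ_[p]) ^ (m + 2) * t := by
  obtain ⟨c, hc⟩ := step hp2 m t
  set a : ℤ_[p] := 1 + (p : ℤ_[p]) ^ (m + 1) * t with ha
  set F : Polynomial ℤ_[p] := Polynomial.X ^ p - Polynomial.C (1 + (p : ℤ_[p]) ^ (m + 2) * t) with hF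
  have hau : IsUnit a := by
    rw [ha, pow_succ', mul_assoc]
    exact isUnit_one_add _
  have h1 : F.aeval a = (p : ℤ_[p]) ^ 3 * ((p : ℤ_[p]) ^ (2 * m) * (t * t * c)) +
      (p : ℤ_[p]) ^ 3 * ((p : ℤ_[p]) ^ (2 * m) * (t * c - t * t * c)) := by
    rw [hF, map_sub, map_pow, Polynomial.aeval_X, Polynomial.aeval_C, hc]
    simp only [Algebra.algebraMap_self, RingHom.id_apply]
    ring
  have h2 : F.derivative.aeval a = (p : ℤ_[p]) * a ^ (p - 1) := by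
    rw [hF, Polynomial.derivative_sub, Polynomial.derivative_C, sub_zero,
      Polynomial.derivative_X_pow, map_mul, map_pow, Polynomial.aeval_X, Polynomial.aeval_C]
    simp
  have hp1 : (1 : ℝ) < p := by exact_mod_cast hp.out.one_lt
  have h3 : ‖F.aeval a‖ ≤ (p : ℝ) ^ (-(3 : ℤ)) := by
    have : ‖F.aeval a‖ ≤ (p : ℝ) ^ (-((3 : ℕ) : ℤ)) := by
      rw [PadicInt.norm_le_pow_iff_mem_span_pow, Ideal.mem_span_singleton, h1, ← mul_add]
      exact dvd_mul_right _ _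
    exact this
  have h4 : ‖F.derivative.aeval a‖ = (p : ℝ)⁻¹ := by
    rw [h2, norm_mul, PadicInt.norm_p, PadicInt.isUnit_iff.mp (hau.pow _), mul_one]
  have hnorm : ‖F.aeval a‖ < ‖F.derivative.aeval a‖ ^ 2 := by
    refine lt_of_le_of_lt h3 ?_
    rw [h4, inv_pow, ← zpow_natCast, ← zpow_neg]
    exact zpow_lt_zpow_right₀ hp1 (by norm_num)
  obtain ⟨z, hz, -⟩ := hensels_lemma hnorm
  rw [hF, map_sub, map_pow, Polynomial.aeval_X, Polynomial.aeval_C, sub_eq_zero] at hz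
  simp only [Algebra.algebraMap_self, RingHom.id_apply] at hz
  have hzu : IsUnit z := by
    rw [← isUnit_pow_iff hp.out.ne_zero, hz, pow_succ', mul_assoc]
    exact isUnit_one_add _
  exact ⟨hzu.unit, hz⟩

theorem natCast_dvd_cancel {n c : ℕ} (hc : c.Coprime p) {x : ℤ_[p]}
    (h : (p : ℤ_[p]) ^ n ∣ (c : ℤ_[p]) * x) : (p : ℤ_[p]) ^ n ∣ x := by
  have h1 : IsUnit (c : ℤ_[p]) := (unitNat hc).isUnit
  exact (h1.dvd_mul_left).mp h

/-- units with small logarithm are almost `p ^ n`-th powers -/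
theorem exists_pow (hp2 : p ≠ 2) (n : ℕ) (u : ℤ_[p]ˣ) (h : (p : ℤ_[p]) ^ n ∣ lam u) :
    ∃ c : ℕ, c.Coprime p ∧ ∃ w : ℤ_[p]ˣ, u ^ c = w ^ (p ^ n) := by
  induction n generalizing u with
  | zero => exact ⟨1, Nat.coprime_one_left _, u, by simp⟩
  | succ n ih =>
    have h1 := (pow_dvd_lam_iff hp2 u (n + 1)).mp h
    obtain ⟨t, ht⟩ := h1
    obtain ⟨z, hz⟩ := exists_root hp2 n t
    have h2 : z ^ p = u ^ (p - 1) := by
      apply Units.ext
      rw [Units.val_pow_eq_pow_val, Units.val_pow_eq_pow_val, hz,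
        show n + 2 = n + 1 + 1 from rfl, ← ht]
      ring
    have hcop : (p - 1).Coprime p := by
      rw [Nat.coprime_comm, hp.out.coprime_iff_not_dvd]
      intro h6
      have := hp.out.two_le
      have := Nat.le_of_dvd (by omega) h6
      omega
    have h3 : (p : ℤ_[p]) ^ n ∣ lam z := by
      have h4 := congrArg lam h2
      rw [lam_pow hp2, lam_pow hp2] at h4
      have h5 : (p : ℤ_[p]) ^ (n + 1) ∣ (p : ℤ_[p]) * lam z := by
        rw [h4]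
        exact h.mul_left _
      rw [pow_succ', mul_dvd_mul_iff_left p_ne_zero] at h5
      exact h5
    obtain ⟨c, hc, w, hw⟩ := ih z h3
    refine ⟨(p - 1) * c, Nat.Coprime.mul_left hcop hc, w, ?_⟩
    rw [pow_mul, ← h2, ← pow_mul, mul_comm p c, pow_mul, hw, ← pow_mul, pow_succ]

end Fermat.Agent.PLog
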