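import Fermat.Agent.Coh.Symbol

/-!
# Cohomology of the subgroups of a fixed group: relative restriction, corestriction, norm
-/

set_option autoImplicit false
set_option linter.unusedSectionVars false
set_option linter.style.haveILetI false

namespace Fermat.Agent.Coh

section Congr

variable {k : Type*} [CommRing k] {Γ Δ : Type*} [Group Γ] [Group Δ]
variable {V W : Type*} [AddCommGroup V] [Module k V] [AddCommGroup W] [Module k W]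
variable {𝓤 : Fam Γ} {𝓤' : Fam Δ} {ρ : Representation k Γ V} {τ : Representation k Δ W}

theorem Mor.mapH2_congr (m n : Mor 𝓤 𝓤' ρ τ) (h1 : ∀ δ, m.f δ = n.f δ) (h2 : ∀ v, m.T v = n.T v)
    (x : H2 𝓤 ρ) : m.mapH2 x = n.mapH2 x := by
  obtain ⟨z, rfl⟩ := H2.mk_surjective x
  rw [Mor.mapH2_mk, Mor.mapH2_mk]
  congr 1
  apply Subtype.ext
  funext p
  rw [Mor.mapZ2_apply, Mor.mapZ2_apply, h1, h1, h2]

theorem Mor.mapH1_congr (m n : Mor 𝓤 𝓤' ρ τ) (h1 : ∀ δ, m.f δ = n.f δ) (h2 : ∀ v, m.T v = n.T v)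
    (x : H1 𝓤 ρ) : m.mapH1 x = n.mapH1 x := by
  obtain ⟨z, rfl⟩ := H1.mk_surjective x
  rw [Mor.mapH1_mk, Mor.mapH1_mk]
  congr 1
  apply Subtype.ext
  funext p
  rw [Mor.mapZ1_apply, Mor.mapZ1_apply, h1, h2]

end Congr

section Rel

variable {k : Type*} [CommRing k] {Γ : Type*} [Group Γ] {V : Type*} [AddCommGroup V] [Module k V]
variable (𝓤 : Fam Γ) (ρ : Representation k Γ V)

/-- the restriction of a representation to a subgroup -/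
abbrev rep (U : Subgroup Γ) : Representation k U V := ρ.comp U.subtype

/-- second cohomology of a subgroup -/
abbrev HH (U : Subgroup Γ) : Type _ := H2 (𝓤.res U) (rep ρ U)

/-- first cohomology of a subgroup -/
abbrev HI (U : Subgroup Γ) : Type _ := H1 (𝓤.res U) (rep ρ U)

/-- invariants of a subgroup -/
noncomputable abbrev FF (U : Subgroup Γ) : Submodule k V := H0 (rep ρ U)

theorem mem_FF {U : Subgroup Γ} {v : V} : v ∈ FF ρ U ↔ ∀ g ∈ U, ρ g v = v :=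
  ⟨fun h g hg => h ⟨g, hg⟩, fun h g => h g g.2⟩

variable {U₁ U₂ U₃ : Subgroup Γ} (h : U₁ ≤ U₂) (h' : U₂ ≤ U₃)

/-- the inclusion morphism -/
def incMor : Mor (𝓤.res U₂) (𝓤.res U₁) (rep ρ U₂) (rep ρ U₁) where
  f := Subgroup.inclusion h
  T := LinearMap.id
  comm _ _ := rfl
  cont := by
    rintro _ ⟨W, hW, rfl⟩
    exact ⟨_, ⟨W, hW, rfl⟩, fun g hg => hg⟩

/-- relative restriction -/
def rs : HH 𝓤 ρ U₂ →ₗ[k] HH 𝓤 ρ U₁ := (incMor 𝓤 ρ h).mapH2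

/-- relative restriction on `H¹` -/
def rs1 : HI 𝓤 ρ U₂ →ₗ[k] HI 𝓤 ρ U₁ := (incMor 𝓤 ρ h).mapH1

theorem rs_rs (x : HH 𝓤 ρ U₃) : rs 𝓤 ρ h (rs 𝓤 ρ h' x) = rs 𝓤 ρ (h.trans h') x := by
  obtain ⟨z, rfl⟩ := H2.mk_surjective x
  rfl

theorem rs_refl (x : HH 𝓤 ρ U₁) : rs 𝓤 ρ le_rfl x = x := by
  obtain ⟨z, rfl⟩ := H2.mk_surjective x
  rfl

/-- from nested subgroups to subgroups -/
def dnMor : Mor ((𝓤.res U₂).res (U₁.subgroupOf U₂)) (𝓤.res U₁)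
    ((rep ρ U₂).comp (U₁.subgroupOf U₂).subtype) (rep ρ U₁) where
  f := (Subgroup.subgroupOfEquivOfLe h).symm.toMonoidHom
  T := LinearMap.id
  comm _ _ := rfl
  cont := by
    rintro _ ⟨_, ⟨W, hW, rfl⟩, rfl⟩
    exact ⟨_, ⟨W, hW, rfl⟩, fun g hg => hg⟩

/-- from subgroups to nested subgroups -/
def upMor : Mor (𝓤.res U₁) ((𝓤.res U₂).res (U₁.subgroupOf U₂)) (rep ρ U₁)
    ((rep ρ U₂).comp (U₁.subgroupOf U₂).subtype) where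
  f := (Subgroup.subgroupOfEquivOfLe h).toMonoidHom
  T := LinearMap.id
  comm _ _ := rfl
  cont := by
    rintro _ ⟨W, hW, rfl⟩
    exact ⟨_, ⟨_, ⟨W, hW, rfl⟩, rfl⟩, fun g hg => hg⟩

theorem up_dn_H2 (x) : (upMor 𝓤 ρ h).mapH2 ((dnMor 𝓤 ρ h).mapH2 x) = x := by
  obtain ⟨z, rfl⟩ := H2.mk_surjective x
  rfl

theorem dn_up_H2 (x) : (dnMor 𝓤 ρ h).mapH2 ((upMor 𝓤 ρ h).mapH2 x) = x := by
  obtain ⟨z, rfl⟩ := H2.mk_surjective x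
  rfl

theorem up_dn_H1 (x) : (upMor 𝓤 ρ h).mapH1 ((dnMor 𝓤 ρ h).mapH1 x) = x := by
  obtain ⟨z, rfl⟩ := H1.mk_surjective x
  rfl

theorem rs_eq_dn (x : HH 𝓤 ρ U₂) :
    rs 𝓤 ρ h x = (dnMor 𝓤 ρ h).mapH2 ((Mor.res (𝓤.res U₂) (rep ρ U₂) (U₁.subgroupOf U₂)).mapH2 x) := by
  obtain ⟨z, rfl⟩ := H2.mk_surjective x
  rfl

theorem res_eq_up (x : HH 𝓤 ρ U₂) :
    (Mor.res (𝓤.res U₂) (rep ρ U₂) (U₁.subgroupOf U₂)).mapH2 x =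
      (upMor 𝓤 ρ h).mapH2 (rs 𝓤 ρ h x) := by
  obtain ⟨z, rfl⟩ := H2.mk_surjective x
  rfl

variable {𝓤} in
theorem isOpen_subgroupOf (hU : 𝓤.IsOpen U₁) (U₂ : Subgroup Γ) :
    (𝓤.res U₂).IsOpen (U₁.subgroupOf U₂) := by
  obtain ⟨W, hW, hWU⟩ := hU
  exact ⟨_, Fam.comap_mem hW, fun g hg => hWU hg⟩

variable {𝓤} in
/-- finiteness of the relative quotient -/
@[instance_reducible]
noncomputable def relFintype (hU : 𝓤.IsOpen U₁) (U₂ : Subgroup Γ) :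
    Fintype (U₂ ⧸ U₁.subgroupOf U₂) := by
  have := hU.finiteIndex
  exact Fintype.ofFinite _

variable {𝓤} (hU : 𝓤.IsOpen U₁)

/-- relative corestriction -/
noncomputable def cr : HH 𝓤 ρ U₁ →ₗ[k] HH 𝓤 ρ U₂ :=
  letI := relFintype hU U₂
  cor2 (rep ρ U₂) (isOpen_subgroupOf hU U₂) ∘ₗ (upMor 𝓤 ρ h).mapH2

/-- relative norm -/
noncomputable def nmr : ↥(FF ρ U₁) →ₗ[k] ↥(FF ρ U₂) :=
  letI := relFintype hU U₂
  nm (𝓤.res U₂) (U₁.subgroupOf U₂) (rep ρ U₂) ∘ₗ (upMor 𝓤 ρ h).mapH0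

theorem cr_rs (x : HH 𝓤 ρ U₂) : cr ρ h hU (rs 𝓤 ρ h x) = U₁.relIndex U₂ • x := by
  letI := relFintype hU U₂
  rw [cr, LinearMap.comp_apply, ← res_eq_up, cor2_res]
  rfl

theorem coe_nmr (b : ↥(FF ρ U₁)) (s : U₂ ⧸ U₁.subgroupOf U₂ → Γ)
    (hs : ∀ x, ∃ hx : s x ∈ U₂, (((⟨s x, hx⟩ : U₂) : U₂ ⧸ U₁.subgroupOf U₂)) = x) :
    letI := relFintype hU U₂
    (nmr ρ h hU b : V) = ∑ x, ρ (s x) b := by
  letI := relFintype hU U₂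
  change (nm (𝓤.res U₂) (U₁.subgroupOf U₂) (rep ρ U₂) ((upMor 𝓤 ρ h).mapH0 b) : V) = _
  rw [coe_nm_eq (𝓤.res U₂) (U₁.subgroupOf U₂) (rep ρ U₂) _ (fun x => ⟨s x, (hs x).choose⟩)
    (fun x => (hs x).choose_spec)]
  rfl

/-- norm of an invariant element -/
theorem nmr_of_mem (a : ↥(FF ρ U₂)) (b : ↥(FF ρ U₁)) (hab : (b : V) = a) :
    nmr ρ h hU b = U₁.relIndex U₂ • a := by
  letI := relFintype hU U₂
  apply Subtype.ext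
  rw [coe_nmr ρ h hU b (fun x => ((sec (U₁.subgroupOf U₂) x : U₂) : Γ))
    (fun x => ⟨(sec (U₁.subgroupOf U₂) x : U₂).2, mk_sec _ x⟩)]
  have h1 : ∀ x : U₂ ⧸ U₁.subgroupOf U₂, ρ ((sec (U₁.subgroupOf U₂) x : U₂) : Γ) (b : V) = a := by
    intro x
    rw [hab]
    exact a.2 (sec (U₁.subgroupOf U₂) x)
  rw [Finset.sum_congr rfl fun x _ => h1 x, Finset.sum_const, Finset.card_univ,
    ← Nat.card_eq_fintype_card]
  rfl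

variable {m : ℕ} [NeZero m]

/-- relative restriction of characters -/
def Chr.rs {X : Type*} [AddCommGroup X] (χ : Chr (𝓤.res U₂) X) (h : U₁ ≤ U₂) :
    Chr (𝓤.res U₁) X :=
  χ.pull (Subgroup.inclusion h) (incMor 𝓤 (Representation.trivial ℤ Γ ℤ) h).cont

@[simp] theorem Chr.rs_apply {X : Type*} [AddCommGroup X] (χ : Chr (𝓤.res U₂) X) (h : U₁ ≤ U₂)
    (g : U₁) : (χ.rs h) g = χ ⟨g, h g.2⟩ := rfl

theorem rs_sym (χ : Chr (𝓤.res U₂) (ZMod m)) (χ' : Chr (𝓤.res U₁) (ZMod m))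
    (hχ : ∀ g : U₁, χ' g = χ ⟨g, h g.2⟩) (a : ↥(FF ρ U₂)) (a' : ↥(FF ρ U₁)) (ha : (a' : V) = a) :
    rs 𝓤 ρ h (sym (rep ρ U₂) χ a) = sym (rep ρ U₁) χ' a' :=
  Mor.mapH2_sym (incMor 𝓤 ρ h) χ χ' hχ a a' ha

theorem cr_sym (χ : Chr (𝓤.res U₂) (ZMod m)) (χ' : Chr (𝓤.res U₁) (ZMod m))
    (hχ : ∀ g : U₁, χ' g = χ ⟨g, h g.2⟩) (b : ↥(FF ρ U₁)) :
    cr ρ h hU (sym (rep ρ U₁) χ' b) = sym (rep ρ U₂) χ (nmr ρ h hU b) := by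
  letI := relFintype hU U₂
  rw [cr, LinearMap.comp_apply, nmr, LinearMap.comp_apply]
  rw [Mor.mapH2_sym (upMor 𝓤 ρ h) χ' (χ.res (U₁.subgroupOf U₂)) (fun g => (hχ ⟨((g : U₂) : Γ), g.2⟩).symm) b
    ((upMor 𝓤 ρ h).mapH0 b) rfl]
  exact cor2_sym _ _ _

theorem exists_rs_eq_zero (hρ : SmRep 𝓤 ρ) (x : HH 𝓤 ρ U₂) :
    ∃ W ∈ 𝓤, rs 𝓤 ρ (inf_le_right : W ⊓ U₂ ≤ U₂) x = 0 := by
  obtain ⟨_, ⟨W, hW, rfl⟩, hx⟩ := exists_res_H2_eq_zero (hρ.comp U₂.subtype) x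
  refine ⟨W, hW, ?_⟩
  obtain ⟨z, rfl⟩ := H2.mk_surjective x
  rw [Mor.mapH2_mk, H2.mk_eq_zero] at hx
  obtain ⟨c, hc, hcz⟩ := hx
  change H2.mk (𝓤.res (W ⊓ U₂)) (rep ρ (W ⊓ U₂))
    ((incMor 𝓤 ρ (inf_le_right : W ⊓ U₂ ≤ U₂)).mapZ2 z) = 0
  rw [H2.mk_eq_zero]
  let e : ↥(W ⊓ U₂) →* ↥(W.comap U₂.subtype) :=
    { toFun := fun g => ⟨⟨g, g.2.2⟩, g.2.1⟩
      map_one' := rfl
      map_mul' := fun _ _ => rfl }
  refine ⟨fun g => c (e g), hc.comp e ?_, fun g g' => ?_⟩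
  · rintro _ ⟨_, ⟨W', hW', rfl⟩, rfl⟩
    exact ⟨_, ⟨W', hW', rfl⟩, fun g hg => hg⟩
  · simp only [map_mul]
    exact hcz (e g) (e g')

section cyc

variable [hN : (U₁.subgroupOf U₂).Normal] (σ : U₂)
  (hσ : ∀ x : U₂ ⧸ U₁.subgroupOf U₂, x ∈ Subgroup.zpowers (σ : U₂ ⧸ U₁.subgroupOf U₂))
  (hρ : SmRep 𝓤 ρ) {p : ℕ}
  (h1 : ∀ y : HI 𝓤 ρ U₁, ∃ c : ℕ, c.Coprime p ∧ c • y = 0)

variable {ρ}

/-- relative version of `cyc` -/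
noncomputable def cycr : ↥(FF ρ U₂) →ₗ[k] HH 𝓤 ρ U₂ :=
  letI := relFintype hU U₂
  cyc (U₁.subgroupOf U₂) σ hσ (isOpen_subgroupOf hU U₂) (hρ.comp U₂.subtype)

include h h1 in
theorem weak_up (y : H1 ((𝓤.res U₂).res (U₁.subgroupOf U₂))
    ((rep ρ U₂).comp (U₁.subgroupOf U₂).subtype)) : ∃ c : ℕ, c.Coprime p ∧ c • y = 0 := by
  obtain ⟨c, hc, hcy⟩ := h1 ((dnMor 𝓤 ρ h).mapH1 y)
  refine ⟨c, hc, ?_⟩
  have h2 := congrArg (upMor 𝓤 ρ h).mapH1 hcy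
  rw [map_zero, map_nsmul, up_dn_H1] at h2
  exact h2

include h h1 in
theorem exists_cycr_eq (x : HH 𝓤 ρ U₂) (hx : rs 𝓤 ρ h x = 0) {n : ℕ} (hpx : p ^ n • x = 0) :
    ∃ a, cycr hU σ hσ hρ a = x := by
  letI := relFintype hU U₂
  obtain ⟨c, hc, a, ha⟩ := exists_cyc_eq (U₁.subgroupOf U₂) σ hσ (isOpen_subgroupOf hU U₂)
    (hρ.comp U₂.subtype) p (weak_up h h1) x (by rw [res_eq_up 𝓤 ρ h, hx, map_zero])
  have hc' : IsCoprime (c : ℤ) ((p ^ n : ℕ) : ℤ) := Nat.isCoprime_iff_coprime.mpr (hc.pow_right n)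
  obtain ⟨u, v, huv⟩ := hc'
  refine ⟨u • a, ?_⟩
  rw [map_zsmul]
  change u • cyc (U₁.subgroupOf U₂) σ hσ (isOpen_subgroupOf hU U₂) (hρ.comp U₂.subtype) a = x
  rw [ha]
  have h3 : (u * (c : ℤ) + v * ((p ^ n : ℕ) : ℤ)) • x = x := by rw [huv, one_smul]
  rw [add_smul, mul_smul, mul_smul, natCast_zsmul, natCast_zsmul, hpx, smul_zero, add_zero] at h3
  exact h3

include h in
theorem cycr_nmr (b : ↥(FF ρ U₁)) : cycr hU σ hσ hρ (nmr ρ h hU b) = 0 := by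
  letI := relFintype hU U₂
  exact cyc_nm (U₁.subgroupOf U₂) σ hσ (isOpen_subgroupOf hU U₂) (hρ.comp U₂.subtype) _

include h h1 in
theorem exists_nmr_eq {n : ℕ} (hn : U₁.relIndex U₂ = p ^ n) (a : ↥(FF ρ U₂))
    (ha : cycr hU σ hσ hρ a = 0) : ∃ b, nmr ρ h hU b = a := by
  letI := relFintype hU U₂
  obtain ⟨c, hc, b, hb⟩ := exists_nm_eq_of_cyc (U₁.subgroupOf U₂) σ hσ (isOpen_subgroupOf hU U₂)
    (hρ.comp U₂.subtype) p (weak_up h h1) a ha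
  have hc' : IsCoprime (c : ℤ) ((p ^ n : ℕ) : ℤ) := Nat.isCoprime_iff_coprime.mpr (hc.pow_right n)
  obtain ⟨u, v, huv⟩ := hc'
  -- `b` and `a` as elements of the invariants of `U₁`
  let b' : ↥(FF ρ U₁) := (dnMor 𝓤 ρ h).mapH0 b
  let a' : ↥(FF ρ U₁) := (incMor 𝓤 ρ h).mapH0 a
  have hb' : nmr ρ h hU b' = c • a := hb
  have ha' : nmr ρ h hU a' = p ^ n • a := by
    rw [nmr_of_mem ρ h hU a a' rfl, hn]
  refine ⟨u • b' + v • a', ?_⟩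
  rw [map_add, map_zsmul, map_zsmul, hb', ha', ← natCast_zsmul, ← natCast_zsmul, smul_smul,
    smul_smul, ← add_smul, huv, one_smul]

include h in
theorem cycr_eq_neg_sym (χ : Chr (𝓤.res U₂) (ZMod m)) (hχU : ∀ g : U₂, χ g = 0 ↔ (g : Γ) ∈ U₁)
    (hχσ : χ σ = 1) (a : ↥(FF ρ U₂)) :
    cycr hU σ hσ hρ a = - sym (rep ρ U₂) χ a := by
  letI := relFintype hU U₂
  exact cyc_eq_neg_sym σ hσ (isOpen_subgroupOf hU U₂) (hρ.comp U₂.subtype) χ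
    (fun g => (hχU g).trans Subgroup.mem_subgroupOf.symm) hχσ a

end cyc

end Rel

end Fermat.Agent.Coh
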