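import Fermat.Agent.Coh.LES

/-!
# Induced modules and Shapiro's lemma for smooth cohomology in degrees `≤ 2`
-/

set_option autoImplicit false

namespace Fermat.Agent.Coh

variable {k : Type*} [CommRing k] {Γ : Type*} [Group Γ]
variable {V W : Type*} [AddCommGroup V] [Module k V] [AddCommGroup W] [Module k W]

/-- The representation of `Γ` on functions `Γ ⧸ U → V`, isomorphic to the induced representation
`Ind_U^Γ (ρ|_U)`. -/
def indRep (U : Subgroup Γ) (ρ : Representation k Γ V) : Representation k Γ (Γ ⧸ U → V) where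
  toFun g :=
    { toFun := fun φ x => ρ g (φ (g⁻¹ • x))
      map_add' := fun φ ψ => by
        funext x
        simp
      map_smul' := fun c φ => by
        funext x
        simp }
  map_one' := by
    ext φ x
    simp
  map_mul' g h := by
    ext φ x
    simp [mul_smul]

@[simp] theorem indRep_apply (U : Subgroup Γ) (ρ : Representation k Γ V) (g : Γ) (φ : Γ ⧸ U → V)
    (x : Γ ⧸ U) : indRep U ρ g φ x = ρ g (φ (g⁻¹ • x)) := rfl

section cosets

variable (U : Subgroup Γ)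

open Classical in
/-- section of `Γ → Γ ⧸ U` with value `1` at the trivial coset -/
noncomputable def sec (x : Γ ⧸ U) : Γ := if x = ((1 : Γ) : Γ ⧸ U) then 1 else x.out

@[simp] theorem mk_sec (x : Γ ⧸ U) : ((sec U x : Γ) : Γ ⧸ U) = x := by
  unfold sec
  split_ifs with h
  · exact h.symm
  · exact QuotientGroup.out_eq' x

@[simp] theorem sec_one : sec U ((1 : Γ) : Γ ⧸ U) = 1 := by
  simp [sec]

/-- the factor set -/
noncomputable def fac (g : Γ) (x : Γ ⧸ U) : U :=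
  ⟨(sec U x)⁻¹ * g * sec U (g⁻¹ • x), by
    rw [mul_assoc, ← QuotientGroup.eq]
    rw [← smul_eq_mul g, ← MulAction.Quotient.smul_coe, mk_sec, mk_sec, smul_inv_smul]⟩

theorem coe_fac (g : Γ) (x : Γ ⧸ U) : (fac U g x : Γ) = (sec U x)⁻¹ * g * sec U (g⁻¹ • x) := rfl

theorem sec_mul_fac (g : Γ) (x : Γ ⧸ U) : sec U x * (fac U g x : Γ) = g * sec U (g⁻¹ • x) := by
  rw [coe_fac]; group

theorem fac_mul (g h : Γ) (x : Γ ⧸ U) : fac U (g * h) x = fac U g x * fac U h (g⁻¹ • x) := by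
  apply Subtype.ext
  rw [Subgroup.coe_mul, coe_fac, coe_fac, coe_fac, mul_inv_rev, mul_smul]
  group

theorem sec_inv_smul (x : Γ ⧸ U) : (sec U x)⁻¹ • x = ((1 : Γ) : Γ ⧸ U) := by
  rw [inv_smul_eq_iff]
  conv_lhs => rw [← mk_sec U x]
  rw [MulAction.Quotient.smul_coe, smul_eq_mul, mul_one]

theorem coe_inv_smul_one (u : U) : (u : Γ)⁻¹ • ((1 : Γ) : Γ ⧸ U) = ((1 : Γ) : Γ ⧸ U) := by
  rw [inv_smul_eq_iff, MulAction.Quotient.smul_coe, smul_eq_mul, mul_one, QuotientGroup.eq]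
  simp

theorem fac_one (u : U) : fac U (u : Γ) ((1 : Γ) : Γ ⧸ U) = u := by
  apply Subtype.ext
  rw [coe_fac, coe_inv_smul_one, sec_one, inv_one, one_mul, mul_one]

theorem fac_of_normal {W : Subgroup Γ} (hW : W.Normal) (hWU : W ≤ U) (w : Γ) (hw : w ∈ W)
    (x : Γ ⧸ U) : w • x = x := by
  obtain ⟨g, rfl⟩ := QuotientGroup.mk_surjective x
  rw [MulAction.Quotient.smul_coe, smul_eq_mul, QuotientGroup.eq]
  have h1 : (w * g)⁻¹ * g = g⁻¹ * w⁻¹ * g := by group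
  rw [h1]
  apply hWU
  have := hW.conj_mem w⁻¹ (W.inv_mem hw) g⁻¹
  simpa using this

theorem fac_mul_right {W : Subgroup Γ} (hW : W.Normal) (hWU : W ≤ U) (g w : Γ) (hw : w ∈ W)
    (x : Γ ⧸ U) : ∃ w' : U, (w' : Γ) ∈ W ∧ fac U (g * w) x = fac U g x * w' := by
  refine ⟨fac U w (g⁻¹ • x), ?_, fac_mul U g w x⟩
  rw [coe_fac, fac_of_normal U hW hWU w⁻¹ (W.inv_mem hw)]
  have := hW.conj_mem w hw (sec U (g⁻¹ • x))⁻¹
  simpa using this

end cosets

section Sh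

variable {𝓤 : Fam Γ} {U : Subgroup Γ} (hU : 𝓤.IsOpen U) {ρ : Representation k Γ V}

include hU in
theorem smRep_indRep (hρ : SmRep 𝓤 ρ) : SmRep 𝓤 (indRep U ρ) := by
  intro φ
  have := hU.finiteIndex
  obtain ⟨W, hW, hWU⟩ := hU
  obtain ⟨W', hW', h⟩ := hρ.finite (Set.finite_range φ)
  refine ⟨W ⊓ W', 𝓤.inf_mem _ hW _ hW', fun u hu => ?_⟩
  funext x
  rw [indRep_apply, fac_of_normal U (𝓤.normal W hW) hWU _ (W.inv_mem hu.1)]
  exact h u hu.2 _ ⟨x, rfl⟩

/-- The Shapiro morphism: restrict to `U` and evaluate at the trivial coset. -/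
def sh (𝓤 : Fam Γ) (U : Subgroup Γ) (ρ : Representation k Γ V) :
    Mor 𝓤 (𝓤.res U) (indRep U ρ) (ρ.comp U.subtype) where
  f := U.subtype
  T := LinearMap.proj ((1 : Γ) : Γ ⧸ U)
  comm u φ := by
    simp only [LinearMap.proj_apply, Subgroup.coe_subtype, indRep_apply, MonoidHom.coe_comp,
      Function.comp_apply]
    rw [coe_inv_smul_one]
  cont W hW := ⟨_, Fam.comap_mem hW, le_rfl⟩

@[simp] theorem sh_mapZ1 (z : ↥(Z1 𝓤 (indRep U ρ))) (u : U) :
    ((sh 𝓤 U ρ).mapZ1 z : U → V) u = (z : Γ → (Γ ⧸ U → V)) u ((1 : Γ) : Γ ⧸ U) := rfl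

@[simp] theorem sh_mapZ2 (z : ↥(Z2 𝓤 (indRep U ρ))) (u : U × U) :
    ((sh 𝓤 U ρ).mapZ2 z : U × U → V) u =
      (z : Γ × Γ → (Γ ⧸ U → V)) (u.1, u.2) ((1 : Γ) : Γ ⧸ U) := rfl

theorem sh_H0_injective : Function.Injective (sh 𝓤 U ρ).mapH0 := by
  rw [← LinearMap.ker_eq_bot, LinearMap.ker_eq_bot']
  intro φ hφ
  apply Subtype.ext
  funext x
  have h1 := congrFun (φ.2 (sec U x)) x
  rw [indRep_apply, sec_inv_smul] at h1
  have h2 : (φ : Γ ⧸ U → V) ((1 : Γ) : Γ ⧸ U) = 0 := congrArg Subtype.val hφ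
  rw [← h1, h2, map_zero]
  rfl

theorem sh_H0_surjective : Function.Surjective (sh 𝓤 U ρ).mapH0 := by
  intro v
  refine ⟨⟨fun x => ρ (sec U x) v, fun g => ?_⟩, ?_⟩
  · funext x
    rw [indRep_apply, ← Module.End.mul_apply, ← map_mul, ← sec_mul_fac, map_mul,
      Module.End.mul_apply]
    congr 1
    exact v.2 (fac U g x)
  · apply Subtype.ext
    change ρ (sec U ((1 : Γ) : Γ ⧸ U)) v = v
    rw [sec_one, map_one]; rfl

/-- explicit primitive, degree `1` -/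
theorem sh_H1_injective : Function.Injective (sh 𝓤 U ρ).mapH1 := by
  rw [← LinearMap.ker_eq_bot, LinearMap.ker_eq_bot']
  intro x hx
  obtain ⟨z, rfl⟩ := H1.mk_surjective x
  rw [Mor.mapH1_mk, H1.mk_eq_zero] at hx
  obtain ⟨m, hm⟩ := hx
  have hm' : ∀ u : U, (z : Γ → (Γ ⧸ U → V)) u ((1 : Γ) : Γ ⧸ U) = ρ u m - m := hm
  rw [H1.mk_eq_zero]
  set c := (z : Γ → (Γ ⧸ U → V)) with hc
  have hcoc : ∀ g h x, c (g * h) x = ρ g (c h (g⁻¹ • x)) + c g x := by
    intro g h x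
    have := congrFun (z.2.2 g h) x
    simpa using this
  refine ⟨fun x => ρ (sec U x) m - c (sec U x) x, fun g => ?_⟩
  funext x
  simp only [Pi.sub_apply, indRep_apply, map_sub]
  have h1 := hcoc g (sec U (g⁻¹ • x)) x
  rw [← sec_mul_fac, hcoc, sec_inv_smul, hm'] at h1
  have h2 : ρ g (ρ (sec U (g⁻¹ • x)) m) = ρ (sec U x) (ρ (fac U g x) m) := by
    rw [← Module.End.mul_apply, ← Module.End.mul_apply, ← map_mul, ← map_mul, sec_mul_fac]
  rw [h2]
  rw [map_sub] at h1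
  have h3 : ρ g (c (sec U (g⁻¹ • x)) (g⁻¹ • x)) =
      ρ (sec U x) (ρ (fac U g x) m) - ρ (sec U x) m + c (sec U x) x - c g x := by
    rw [h1]; abel
  rw [h3]
  abel

include hU in
theorem sh_H1_surjective : Function.Surjective (sh 𝓤 U ρ).mapH1 := by
  intro y
  obtain ⟨a, rfl⟩ := H1.mk_surjective y
  have hfi := hU.finiteIndex
  refine ⟨H1.mk 𝓤 (indRep U ρ) ⟨fun g x => ρ (sec U x) ((a : U → V) (fac U g x)), ?_, fun g h => ?_⟩, ?_⟩
  · obtain ⟨_, ⟨W, hW, rfl⟩, hWa⟩ := a.2.1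
    obtain ⟨W', hW', hWU⟩ := hU
    refine ⟨W ⊓ W', 𝓤.inf_mem _ hW _ hW', fun g u hu => ?_⟩
    funext x
    simp only
    obtain ⟨w', hw', hf⟩ := fac_mul_right U (𝓤.normal _ (𝓤.inf_mem _ hW _ hW'))
      (inf_le_right.trans hWU) g u hu x
    rw [hf, hWa _ w' hw'.1]
  · funext x
    simp only [Pi.add_apply, indRep_apply]
    rw [fac_mul, a.2.2, map_add]
    congr 1
    simp only [MonoidHom.coe_comp, Function.comp_apply, Subgroup.coe_subtype]
    rw [← Module.End.mul_apply, ← Module.End.mul_apply, ← map_mul, ← map_mul, sec_mul_fac]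
  · rw [Mor.mapH1_mk]
    congr 1
    apply Subtype.ext
    funext u
    change ρ (sec U ((1 : Γ) : Γ ⧸ U)) ((a : U → V) (fac U (u : Γ) ((1 : Γ) : Γ ⧸ U))) = _
    rw [sec_one, map_one, fac_one]
    rfl

include hU in
/-- explicit primitive, degree `2` -/
theorem sh_H2_injective : Function.Injective (sh 𝓤 U ρ).mapH2 := by
  rw [← LinearMap.ker_eq_bot, LinearMap.ker_eq_bot']
  intro x hx
  obtain ⟨z, rfl⟩ := H2.mk_surjective x
  rw [Mor.mapH2_mk, H2.mk_eq_zero] at hx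
  obtain ⟨b, hb, hbz⟩ := hx
  have hbz' : ∀ u u' : U, (z : Γ × Γ → (Γ ⧸ U → V)) (u, u') ((1 : Γ) : Γ ⧸ U) =
    ρ u (b u') - b (u * u') + b u := hbz
  rw [H2.mk_eq_zero]
  set f := (z : Γ × Γ → (Γ ⧸ U → V)) with hf
  have hcoc : ∀ g h j x, ρ g (f (h, j) (g⁻¹ • x)) =
      f (g * h, j) x + f (g, h) x - f (g, h * j) x := by
    intro g h j x
    have := congrFun (z.2.2 g h j) x
    simp only [Pi.add_apply, indRep_apply] at this
    rw [← hf] at this
    rw [this]; abel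
  have hfi := hU.finiteIndex
  refine ⟨fun g x => f (g, sec U (g⁻¹ • x)) x - f (sec U x, fac U g x) x +
    ρ (sec U x) (b (fac U g x)), ?_, fun g h => ?_⟩
  · obtain ⟨W, hW, hWf⟩ := z.2.1
    obtain ⟨_, ⟨W₁, hW₁, rfl⟩, hWb⟩ := hb
    obtain ⟨W', hW', hWU⟩ := hU
    have hN := 𝓤.inf_mem _ (𝓤.inf_mem _ hW _ hW₁) _ hW'
    refine ⟨W ⊓ W₁ ⊓ W', hN, fun g u hu => ?_⟩
    funext x
    have h1 : (g * u)⁻¹ • x = g⁻¹ • x := by
      rw [mul_inv_rev, mul_smul, fac_of_normal U (𝓤.normal _ hN) (inf_le_right.trans hWU) _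
        (Subgroup.inv_mem _ hu)]
    obtain ⟨w', hw', hfac⟩ := fac_mul_right U (𝓤.normal _ hN) (inf_le_right.trans hWU) g u hu x
    simp only
    rw [h1, hfac, hWb _ w' hw'.1.2]
    have h2 := hWf g (sec U (g⁻¹ • x)) u hu.1.1 1 W.one_mem
    rw [mul_one] at h2
    rw [← hf] at h2
    have h3 := hWf (sec U x) (fac U g x : Γ) 1 W.one_mem w' hw'.1.1
    rw [mul_one] at h3
    rw [← hf] at h3
    rw [h2, Subgroup.coe_mul, h3]
  · funext x
    simp only [Pi.add_apply, Pi.sub_apply, indRep_apply, map_add, map_sub]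
    set y := g⁻¹ • x with hy
    have hyx : (g * h)⁻¹ • x = h⁻¹ • y := by rw [mul_inv_rev, mul_smul]
    rw [hyx]
    -- the cocycle identities
    have e1 := hcoc g (sec U y) (fac U h y) x
    have e2 := hcoc g h (sec U (h⁻¹ • y)) x
    rw [← hy, sec_mul_fac] at e1
    rw [← hy] at e2
    have e3 := hcoc (sec U x) (fac U g x) (fac U h y) x
    rw [sec_inv_smul, hbz'] at e3
    have e4 : fac U (g * h) x = fac U g x * fac U h y := fac_mul U g h x
    rw [e4, Subgroup.coe_mul]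
    have e5 : ρ g (ρ (sec U y) (b (fac U h y))) =
        ρ (sec U x) (ρ (fac U g x) (b (fac U h y))) := by
      rw [← Module.End.mul_apply, ← Module.End.mul_apply, ← map_mul, ← map_mul, sec_mul_fac]
    rw [e1, e2, e5]
    rw [sec_mul_fac, map_add, map_sub, ← hy] at e3
    have e6 : ρ (sec U x) (ρ (fac U g x) (b (fac U h y))) =
      f (g * sec U y, ↑(fac U h y)) x + f (sec U x, ↑(fac U g x)) x -
        f (sec U x, ↑(fac U g x) * ↑(fac U h y)) x + ρ (sec U x) (b (fac U g x * fac U h y)) -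
        ρ (sec U x) (b (fac U g x)) := by
      rw [← e3]; abel
    rw [e6]
    abel

include hU in
theorem sh_H2_surjective : Function.Surjective (sh 𝓤 U ρ).mapH2 := by
  intro y
  obtain ⟨a, rfl⟩ := H2.mk_surjective y
  have hfi := hU.finiteIndex
  refine ⟨H2.mk 𝓤 (indRep U ρ) ⟨fun g x => ρ (sec U x)
    ((a : U × U → V) (fac U g.1 x, fac U g.2 (g.1⁻¹ • x))), ?_, fun g h j => ?_⟩, ?_⟩
  · obtain ⟨_, ⟨W, hW, rfl⟩, hWa⟩ := a.2.1
    obtain ⟨W', hW', hWU⟩ := hU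
    have hN := 𝓤.inf_mem _ hW _ hW'
    refine ⟨W ⊓ W', hN, fun g g' u hu v hv => ?_⟩
    funext x
    simp only
    obtain ⟨w, hw, hf⟩ := fac_mul_right U (𝓤.normal _ hN) (inf_le_right.trans hWU) g u hu x
    have h1 : (g * u)⁻¹ • x = g⁻¹ • x := by
      rw [mul_inv_rev, mul_smul, fac_of_normal U (𝓤.normal _ hN) (inf_le_right.trans hWU) _
        (Subgroup.inv_mem _ hu)]
    obtain ⟨w', hw', hf'⟩ := fac_mul_right U (𝓤.normal _ hN) (inf_le_right.trans hWU) g' v hv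
      (g⁻¹ • x)
    rw [h1, hf, hf', hWa _ _ w hw.1 w' hw'.1]
  · funext x
    simp only [Pi.add_apply, indRep_apply]
    have h1 := a.2.2 (fac U g x) (fac U h (g⁻¹ • x)) (fac U j (h⁻¹ • g⁻¹ • x))
    rw [fac_mul, fac_mul, mul_inv_rev, mul_smul, ← map_add, h1, map_add]
    congr 1
    simp only [MonoidHom.coe_comp, Function.comp_apply, Subgroup.coe_subtype]
    rw [← Module.End.mul_apply, ← Module.End.mul_apply, ← map_mul, ← map_mul, sec_mul_fac]
  · rw [Mor.mapH2_mk]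
    congr 1
    apply Subtype.ext
    funext u
    change ρ (sec U ((1 : Γ) : Γ ⧸ U)) ((a : U × U → V) (fac U (u.1 : Γ) ((1 : Γ) : Γ ⧸ U),
      fac U (u.2 : Γ) ((u.1 : Γ)⁻¹ • ((1 : Γ) : Γ ⧸ U)))) = _
    rw [sec_one, map_one, coe_inv_smul_one, fac_one, fac_one]
    rfl

/-- Shapiro's lemma in degree `0` -/
noncomputable def shEquiv0 (𝓤 : Fam Γ) (U : Subgroup Γ) (ρ : Representation k Γ V) :
    ↥(H0 (indRep U ρ)) ≃ₗ[k] ↥(H0 (ρ.comp U.subtype)) :=
  LinearEquiv.ofBijective (sh 𝓤 U ρ).mapH0 ⟨sh_H0_injective, sh_H0_surjective⟩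

/-- Shapiro's lemma in degree `1` -/
noncomputable def shEquiv1 (ρ : Representation k Γ V) :
    H1 𝓤 (indRep U ρ) ≃ₗ[k] H1 (𝓤.res U) (ρ.comp U.subtype) :=
  LinearEquiv.ofBijective (sh 𝓤 U ρ).mapH1 ⟨sh_H1_injective, sh_H1_surjective hU⟩

/-- Shapiro's lemma in degree `2` -/
noncomputable def shEquiv2 (ρ : Representation k Γ V) :
    H2 𝓤 (indRep U ρ) ≃ₗ[k] H2 (𝓤.res U) (ρ.comp U.subtype) :=
  LinearEquiv.ofBijective (sh 𝓤 U ρ).mapH2 ⟨sh_H2_injective hU, sh_H2_surjective hU⟩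

@[simp] theorem shEquiv1_apply (x : H1 𝓤 (indRep U ρ)) :
    shEquiv1 hU ρ x = (sh 𝓤 U ρ).mapH1 x := rfl

@[simp] theorem shEquiv2_apply (x : H2 𝓤 (indRep U ρ)) :
    shEquiv2 hU ρ x = (sh 𝓤 U ρ).mapH2 x := rfl

end Sh

section Cor

variable (𝓤 : Fam Γ) (U : Subgroup Γ) (ρ : Representation k Γ V)

/-- the constant functions -/
def constLin : V →ₗ[k] (Γ ⧸ U → V) where
  toFun v _ := v
  map_add' _ _ := rfl
  map_smul' _ _ := rfl

@[simp] theorem constLin_apply (v : V) (x : Γ ⧸ U) : constLin (k := k) U v x = v := rfl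

theorem constLin_comm (g : Γ) (v : V) :
    constLin (k := k) U (ρ g v) = indRep U ρ g (constLin (k := k) U v) := rfl

/-- the embedding `V → Ind V` -/
abbrev constMor : Mor 𝓤 𝓤 ρ (indRep U ρ) := Mor.coeff (constLin U) (constLin_comm U ρ)

theorem sh_const_H1 (x : H1 𝓤 ρ) :
    (sh 𝓤 U ρ).mapH1 ((constMor 𝓤 U ρ).mapH1 x) = (Mor.res 𝓤 ρ U).mapH1 x := by
  obtain ⟨z, rfl⟩ := H1.mk_surjective x
  rfl

theorem sh_const_H2 (x : H2 𝓤 ρ) :
    (sh 𝓤 U ρ).mapH2 ((constMor 𝓤 U ρ).mapH2 x) = (Mor.res 𝓤 ρ U).mapH2 x := by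
  obtain ⟨z, rfl⟩ := H2.mk_surjective x
  rfl

variable [Fintype (Γ ⧸ U)]

/-- the sum of the values -/
def sumLin : (Γ ⧸ U → V) →ₗ[k] V where
  toFun φ := ∑ x, φ x
  map_add' φ ψ := by simp [Finset.sum_add_distrib]
  map_smul' c φ := by simp [Finset.smul_sum]

@[simp] theorem sumLin_apply (φ : Γ ⧸ U → V) : sumLin (k := k) U φ = ∑ x, φ x := rfl

theorem sumLin_comm (g : Γ) (φ : Γ ⧸ U → V) :
    sumLin (k := k) U (indRep U ρ g φ) = ρ g (sumLin (k := k) U φ) := by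
  simp only [sumLin_apply, indRep_apply, map_sum]
  exact Fintype.sum_equiv (MulAction.toPerm g⁻¹) _ _ fun x => rfl

/-- the trace `Ind V → V` -/
abbrev sumMor : Mor 𝓤 𝓤 (indRep U ρ) ρ := Mor.coeff (sumLin U) (sumLin_comm U ρ)

variable {𝓤 U} (hU : 𝓤.IsOpen U)

/-- corestriction in degree `1` -/
noncomputable def cor1 : H1 (𝓤.res U) (ρ.comp U.subtype) →ₗ[k] H1 𝓤 ρ :=
  (sumMor 𝓤 U ρ).mapH1 ∘ₗ (shEquiv1 hU ρ).symm.toLinearMap

/-- corestriction in degree `2` -/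
noncomputable def cor2 : H2 (𝓤.res U) (ρ.comp U.subtype) →ₗ[k] H2 𝓤 ρ :=
  (sumMor 𝓤 U ρ).mapH2 ∘ₗ (shEquiv2 hU ρ).symm.toLinearMap

theorem cor1_sh (x : H1 𝓤 (indRep U ρ)) :
    cor1 ρ hU ((sh 𝓤 U ρ).mapH1 x) = (sumMor 𝓤 U ρ).mapH1 x := by
  rw [cor1, LinearMap.comp_apply, ← shEquiv1_apply hU, LinearEquiv.coe_coe,
    LinearEquiv.symm_apply_apply]

theorem cor2_sh (x : H2 𝓤 (indRep U ρ)) :
    cor2 ρ hU ((sh 𝓤 U ρ).mapH2 x) = (sumMor 𝓤 U ρ).mapH2 x := by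
  rw [cor2, LinearMap.comp_apply, ← shEquiv2_apply hU, LinearEquiv.coe_coe,
    LinearEquiv.symm_apply_apply]

theorem cor1_res (x : H1 𝓤 ρ) : cor1 ρ hU ((Mor.res 𝓤 ρ U).mapH1 x) = U.index • x := by
  rw [← sh_const_H1, cor1_sh]
  obtain ⟨z, rfl⟩ := H1.mk_surjective x
  rw [Mor.mapH1_mk, Mor.mapH1_mk, ← map_nsmul]
  congr 1
  apply Subtype.ext
  funext g
  change ∑ _x : Γ ⧸ U, (z : Γ → V) g = _
  rw [Finset.sum_const, Finset.card_univ, Subgroup.index, Nat.card_eq_fintype_card]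
  rfl

theorem cor2_res (x : H2 𝓤 ρ) : cor2 ρ hU ((Mor.res 𝓤 ρ U).mapH2 x) = U.index • x := by
  rw [← sh_const_H2, cor2_sh]
  obtain ⟨z, rfl⟩ := H2.mk_surjective x
  rw [Mor.mapH2_mk, Mor.mapH2_mk, ← map_nsmul]
  congr 1
  apply Subtype.ext
  funext g
  change ∑ _x : Γ ⧸ U, (z : Γ × Γ → V) g = _
  rw [Finset.sum_const, Finset.card_univ, Subgroup.index, Nat.card_eq_fintype_card]
  rfl

end Cor

section Quot

/-- the quotient representation -/
def quotRep (ρ : Representation k Γ V) (S : Submodule k V) (hS : ∀ g, S ≤ S.comap (ρ g)) :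
    Representation k Γ (V ⧸ S) where
  toFun g := S.mapQ S (ρ g) (hS g)
  map_one' := by
    ext v
    simp
  map_mul' g h := by
    ext v
    simp

@[simp] theorem quotRep_mk (ρ : Representation k Γ V) (S : Submodule k V)
    (hS : ∀ g, S ≤ S.comap (ρ g)) (g : Γ) (v : V) :
    quotRep ρ S hS g (S.mkQ v) = S.mkQ (ρ g v) := rfl

/-- the short exact sequence attached to an injective map of representations -/
def SES.ofInjective {ρ' : Representation k Γ W} {ρ : Representation k Γ V} (i : W →ₗ[k] V)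
    (hi : Function.Injective i) (hcomm : ∀ g w, i (ρ' g w) = ρ g (i w))
    (hS : ∀ g, LinearMap.range i ≤ (LinearMap.range i).comap (ρ g)) :
    SES ρ' ρ (quotRep ρ (LinearMap.range i) hS) where
  i := i
  π := Submodule.mkQ _
  i_comm := hcomm
  π_comm _ _ := rfl
  inj := hi
  surj := Submodule.mkQ_surjective _
  exact v hv := by
    rw [Submodule.mkQ_apply, Submodule.Quotient.mk_eq_zero] at hv
    exact hv
  comp w := by
    rw [Submodule.mkQ_apply, Submodule.Quotient.mk_eq_zero]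
    exact ⟨w, rfl⟩

theorem constLin_range_le (U : Subgroup Γ) (ρ : Representation k Γ V) (g : Γ) :
    LinearMap.range (constLin (k := k) (V := V) U) ≤
      (LinearMap.range (constLin (k := k) (V := V) U)).comap (indRep U ρ g) := by
  rintro _ ⟨w, rfl⟩
  exact ⟨ρ g w, constLin_comm U ρ g w⟩

/-- the quotient of `Ind_U V` by `V` -/
def indQuot (U : Subgroup Γ) (ρ : Representation k Γ V) :
    Representation k Γ ((Γ ⧸ U → V) ⧸ LinearMap.range (constLin (k := k) (V := V) U)) :=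
  quotRep (indRep U ρ) _ (constLin_range_le U ρ)

theorem constLin_injective (U : Subgroup Γ) :
    Function.Injective (constLin (k := k) (V := V) U) := fun _ _ h =>
  congrFun h ((1 : Γ) : Γ ⧸ U)

/-- `0 → V → Ind_U V → Q → 0` -/
def indSES (U : Subgroup Γ) (ρ : Representation k Γ V) : SES ρ (indRep U ρ) (indQuot U ρ) :=
  SES.ofInjective _ (constLin_injective U) (constLin_comm U ρ) (constLin_range_le U ρ)

end Quot

end Fermat.Agent.Coh
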