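import Fermat.Agent.Coh.Cyclic

/-!
# The symbol `(χ, a) ∈ H²` of a character and an invariant element
-/

set_option autoImplicit false
set_option linter.unusedSectionVars false

namespace Fermat.Agent.Coh

section Chr

variable {Γ Δ : Type*} [Group Γ] [Group Δ]

/-- smooth characters, as a subgroup -/
def ChrS (𝓤 : Fam Γ) (X : Type*) [AddCommGroup X] : AddSubgroup (Γ → X) where
  carrier := {χ | 𝓤.Sm1 χ ∧ ∀ g h, χ (g * h) = χ g + χ h}
  zero_mem' := ⟨Fam.Sm1.const 𝓤 (0 : X), fun g h => by simp⟩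
  add_mem' := by
    rintro f f' ⟨hf1, hf2⟩ ⟨hf1', hf2'⟩
    refine ⟨hf1.post₂ hf1' (· + ·), fun g h => ?_⟩
    simp only [Pi.add_apply, hf2, hf2']
    abel
  neg_mem' := by
    rintro f ⟨hf1, hf2⟩
    refine ⟨hf1.post (- ·), fun g h => ?_⟩
    simp only [Pi.neg_apply, hf2]
    abel

/-- smooth characters -/
def Chr (𝓤 : Fam Γ) (X : Type*) [AddCommGroup X] : Type _ := ↥(ChrS 𝓤 X)

variable {𝓤 : Fam Γ} {𝓤' : Fam Δ} {X : Type*} [AddCommGroup X]

instance : AddCommGroup (Chr 𝓤 X) := inferInstanceAs (AddCommGroup ↥(ChrS 𝓤 X))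

instance : CoeFun (Chr 𝓤 X) (fun _ => Γ → X) := ⟨fun χ => χ.1⟩

@[simp] theorem Chr.add_apply (χ χ' : Chr 𝓤 X) (g : Γ) : (χ + χ') g = χ g + χ' g := rfl
@[simp] theorem Chr.sub_apply (χ χ' : Chr 𝓤 X) (g : Γ) : (χ - χ') g = χ g - χ' g := rfl
@[simp] theorem Chr.neg_apply (χ : Chr 𝓤 X) (g : Γ) : (-χ) g = - χ g := rfl
@[simp] theorem Chr.zero_apply (g : Γ) : (0 : Chr 𝓤 X) g = 0 := rfl
@[simp] theorem Chr.nsmul_apply (n : ℕ) (χ : Chr 𝓤 X) (g : Γ) : (n • χ) g = n • χ g := rfl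
@[simp] theorem Chr.zsmul_apply (n : ℤ) (χ : Chr 𝓤 X) (g : Γ) : (n • χ) g = n • χ g := rfl

theorem Chr.ext {χ χ' : Chr 𝓤 X} (h : ∀ g, χ g = χ' g) : χ = χ' := Subtype.ext (funext h)

theorem Chr.sm1 (χ : Chr 𝓤 X) : 𝓤.Sm1 χ := χ.2.1

theorem Chr.map_mul (χ : Chr 𝓤 X) (g h : Γ) : χ (g * h) = χ g + χ h := χ.2.2 g h

theorem Chr.map_one (χ : Chr 𝓤 X) : χ 1 = 0 := by
  have := χ.map_mul 1 1
  simpa using this

theorem Chr.map_inv (χ : Chr 𝓤 X) (g : Γ) : χ g⁻¹ = - χ g := by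
  have := χ.map_mul g⁻¹ g
  rw [inv_mul_cancel, χ.map_one] at this
  exact (neg_eq_of_add_eq_zero_left this.symm).symm

/-- pullback of characters -/
def Chr.pull (χ : Chr 𝓤 X) (f : Δ →* Γ) (hf : ∀ U ∈ 𝓤, ∃ U' ∈ 𝓤', U' ≤ U.comap f) :
    Chr 𝓤' X :=
  ⟨fun g => χ (f g), χ.2.1.comp f hf, fun g h => by simp only [_root_.map_mul, χ.map_mul]⟩

/-- restriction of characters -/
def Chr.res (χ : Chr 𝓤 X) (U : Subgroup Γ) : Chr (𝓤.res U) X :=
  χ.pull U.subtype fun _ hW => ⟨_, Fam.comap_mem hW, le_rfl⟩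

@[simp] theorem Chr.res_apply (χ : Chr 𝓤 X) (U : Subgroup Γ) (u : U) :
    (χ.res U) u = χ u := rfl

/-- the kernel of a character -/
def Chr.ker (χ : Chr 𝓤 X) : Subgroup Γ where
  carrier := {g | χ g = 0}
  one_mem' := χ.map_one
  mul_mem' {a b} ha hb := by
    change χ (a * b) = 0
    rw [χ.map_mul, (show χ a = 0 from ha), (show χ b = 0 from hb), add_zero]
  inv_mem' {a} ha := by
    change χ a⁻¹ = 0
    rw [χ.map_inv, (show χ a = 0 from ha), neg_zero]

theorem Chr.mem_ker {χ : Chr 𝓤 X} {g : Γ} : g ∈ χ.ker ↔ χ g = 0 := Iff.rfl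

instance (χ : Chr 𝓤 X) : χ.ker.Normal := ⟨fun n hn g => by
  rw [Chr.mem_ker] at hn ⊢
  rw [χ.map_mul, χ.map_mul, hn, χ.map_inv]
  abel⟩

theorem Chr.ker_isOpen (χ : Chr 𝓤 X) : 𝓤.IsOpen χ.ker := by
  obtain ⟨U, hU, h⟩ := χ.2.1
  refine ⟨U, hU, fun u hu => ?_⟩
  have := h 1 u hu
  rw [one_mul] at this
  exact this.trans χ.map_one

end Chr

/-- the carry cocycle -/
def carry {m : ℕ} (i j : ZMod m) : ℕ := (i.val + j.val) / m

theorem carry_spec {m : ℕ} [NeZero m] (i j : ZMod m) :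
    i.val + j.val = (i + j).val + m * carry i j := by
  rw [ZMod.val_add, carry, Nat.mod_add_div]

theorem carry_eq_ite {m : ℕ} [NeZero m] (i j : ZMod m) :
    carry i j = if m ≤ i.val + j.val then 1 else 0 := by
  have h1 := ZMod.val_lt i
  have h2 := ZMod.val_lt j
  unfold carry
  split_ifs with h
  · apply Nat.div_eq_of_lt_le <;> omega
  · exact Nat.div_eq_of_lt (by omega)

variable {k : Type*} [CommRing k] {Γ Δ : Type*} [Group Γ] [Group Δ]
variable {V W : Type*} [AddCommGroup V] [Module k V] [AddCommGroup W] [Module k W]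
variable {𝓤 : Fam Γ} {𝓤' : Fam Δ} {ρ : Representation k Γ V} {τ : Representation k Δ W}
variable {m : ℕ} [NeZero m]

/-- the symbol on cocycles -/
def symZ (χ : Chr 𝓤 (ZMod m)) (a : ↥(H0 ρ)) : ↥(Z2 𝓤 ρ) :=
  ⟨fun p => carry (χ p.1) (χ p.2) • (a : V), by
    constructor
    · have h1 := (χ.2.1.sm2_fst).post₂ (χ.2.1.sm2_snd)
        (fun i j => carry (m := m) i j • (a : V))
      exact h1
    · intro g h j
      simp only [map_nsmul]
      rw [show ρ g (a : V) = a from a.2 g, ← add_smul, ← add_smul]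
      congr 1
      have e1 := carry_spec (χ (g * h)) (χ j)
      have e2 := carry_spec (χ g) (χ h)
      have e3 := carry_spec (χ h) (χ j)
      have e4 := carry_spec (χ g) (χ (h * j))
      rw [← χ.map_mul] at e1 e2 e3 e4
      rw [← mul_assoc] at e4
      have hm : 0 < m := Nat.pos_of_ne_zero (NeZero.ne m)
      apply Nat.eq_of_mul_eq_mul_left hm
      rw [mul_add, mul_add]
      omega⟩

@[simp] theorem symZ_apply (χ : Chr 𝓤 (ZMod m)) (a : ↥(H0 ρ)) (p : Γ × Γ) :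
    (symZ χ a : Γ × Γ → V) p = carry (χ p.1) (χ p.2) • (a : V) := rfl

variable (ρ) in
/-- the symbol `(χ, a)` -/
def sym (χ : Chr 𝓤 (ZMod m)) : ↥(H0 ρ) →ₗ[k] H2 𝓤 ρ where
  toFun a := H2.mk 𝓤 ρ (symZ χ a)
  map_add' a b := by
    rw [← map_add]
    congr 1
    apply Subtype.ext
    funext p
    simp [smul_add]
  map_smul' c a := by
    rw [RingHom.id_apply, ← map_smul]
    congr 1
    apply Subtype.ext
    funext p
    simp only [symZ_apply, Submodule.coe_smul, Pi.smul_apply]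
    rw [smul_comm]

theorem sym_apply (χ : Chr 𝓤 (ZMod m)) (a : ↥(H0 ρ)) : sym ρ χ a = H2.mk 𝓤 ρ (symZ χ a) := rfl

theorem sym_add_left (χ χ' : Chr 𝓤 (ZMod m)) (a : ↥(H0 ρ)) :
    sym ρ (χ + χ') a = sym ρ χ a + sym ρ χ' a := by
  rw [sym_apply, sym_apply, sym_apply, ← map_add, H2.mk_eq_mk]
  refine ⟨fun g => -(carry (χ g) (χ' g) • (a : V)),
    (χ.2.1.post₂ χ'.2.1 (fun i j => -(carry (m := m) i j • (a : V)))), fun g h => ?_⟩
  have ha : ∀ g, ρ g (a : V) = a := fun g => a.2 g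
  simp only [map_neg, map_nsmul, ha, symZ_apply, Submodule.coe_add, Pi.add_apply,
    Chr.add_apply]
  rw [sub_neg_eq_add]
  set A : Γ → ZMod m := χ.1 with hA
  set B : Γ → ZMod m := χ'.1 with hB
  have e1 := carry_spec (A g + B g) (A h + B h)
  have e2 := carry_spec (A g) (A h)
  have e3 := carry_spec (B g) (B h)
  have e4 := carry_spec (A g) (B g)
  have e5 := carry_spec (A h) (B h)
  have e6 := carry_spec (A (g * h)) (B (g * h))
  have hA' : A (g * h) = A g + A h := χ.map_mul g h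
  have hB' : B (g * h) = B g + B h := χ'.map_mul g h
  have e7 : A g + B g + (A h + B h) = A (g * h) + B (g * h) := by rw [hA', hB']; abel
  rw [e7] at e1
  rw [← hA'] at e2
  rw [← hB'] at e3
  have hm : 0 < m := Nat.pos_of_ne_zero (NeZero.ne m)
  have key : carry (A g + B g) (A h + B h) + carry (A h) (B h) + carry (A g) (B g) =
      carry (A g) (A h) + carry (B g) (B h) + carry (A (g * h)) (B (g * h)) := by
    apply Nat.eq_of_mul_eq_mul_left hm
    simp only [mul_add]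
    omega
  have key2 := congrArg (fun n : ℕ => n • (a : V)) key
  simp only [add_smul] at key2
  rw [← sub_eq_zero] at key2 ⊢
  rw [← key2]
  abel

theorem sym_zero_left (a : ↥(H0 ρ)) : sym ρ (0 : Chr 𝓤 (ZMod m)) a = 0 := by
  have h := sym_add_left (0 : Chr 𝓤 (ZMod m)) 0 a
  rw [add_zero] at h
  simpa using h

theorem sym_nsmul_left (n : ℕ) (χ : Chr 𝓤 (ZMod m)) (a : ↥(H0 ρ)) :
    sym ρ (n • χ) a = n • sym ρ χ a := by
  induction n with
  | zero => rw [zero_smul, zero_smul, sym_zero_left]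
  | succ n ih => rw [add_smul, add_smul, one_smul, one_smul, sym_add_left, ih]

theorem sym_neg_left (χ : Chr 𝓤 (ZMod m)) (a : ↥(H0 ρ)) :
    sym ρ (-χ) a = - sym ρ χ a := by
  rw [← add_eq_zero_iff_eq_neg, ← sym_add_left, neg_add_cancel, sym_zero_left]

/-- naturality of the symbol -/
theorem Mor.mapH2_sym (f : Mor 𝓤 𝓤' ρ τ) (χ : Chr 𝓤 (ZMod m)) (χ' : Chr 𝓤' (ZMod m))
    (hχ : ∀ δ, χ' δ = χ (f.f δ)) (a : ↥(H0 ρ)) (a' : ↥(H0 τ))
    (ha : (a' : W) = f.T a) : f.mapH2 (sym ρ χ a) = sym τ χ' a' := by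
  rw [sym_apply, sym_apply, Mor.mapH2_mk]
  congr 1
  apply Subtype.ext
  funext p
  rw [Mor.mapZ2_apply, symZ_apply, symZ_apply, map_nsmul, ha, hχ, hχ]

/-- change of level -/
theorem sym_level {n r : ℕ} [NeZero n] (hn : n = r * m) (hr : 0 < r) (χ : Chr 𝓤 (ZMod m))
    (χ' : Chr 𝓤 (ZMod n))
    (h : ∀ g, (χ' g).val = r * (χ g).val) (a : ↥(H0 ρ)) :
    sym ρ χ' a = sym ρ χ a := by
  subst hn
  rw [sym_apply, sym_apply]
  congr 1
  apply Subtype.ext
  funext p
  rw [symZ_apply, symZ_apply, carry, carry, h, h, ← mul_add, Nat.mul_div_mul_left _ _ hr]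

/-- corestriction of a symbol (projection formula) -/
theorem cor2_sym {U : Subgroup Γ} [Fintype (Γ ⧸ U)] (hU : 𝓤.IsOpen U) (χ : Chr 𝓤 (ZMod m))
    (b : ↥(H0 (ρ.comp U.subtype))) :
    cor2 ρ hU (sym (ρ.comp U.subtype) (χ.res U) b) = sym ρ χ (nm 𝓤 U ρ b) := by
  obtain ⟨φ, rfl⟩ := (shEquiv0 𝓤 U ρ).surjective b
  have h1 : nm 𝓤 U ρ (shEquiv0 𝓤 U ρ φ) = (sumMor 𝓤 U ρ).mapH0 φ := nm_sh 𝓤 U ρ φ
  have h2 : sym (ρ.comp U.subtype) (χ.res U) (shEquiv0 𝓤 U ρ φ) =
      (sh 𝓤 U ρ).mapH2 (sym (indRep U ρ) χ φ) := by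
    rw [Mor.mapH2_sym (sh 𝓤 U ρ) χ (χ.res U) (fun _ => rfl) φ (shEquiv0 𝓤 U ρ φ) rfl]
  rw [h1, h2, cor2_sh]
  exact Mor.mapH2_sym (sumMor 𝓤 U ρ) χ χ (fun _ => rfl) φ _ rfl

section cyc

variable {U : Subgroup Γ} [hN : U.Normal] [Fintype (Γ ⧸ U)] (σ : Γ)
  (hσ : ∀ x : Γ ⧸ U, x ∈ Subgroup.zpowers (σ : Γ ⧸ U)) (hUo : 𝓤.IsOpen U) (hρ : SmRep 𝓤 ρ)

/-- the cyclic class is the (negative of the) symbol of the corresponding character -/
theorem cyc_eq_neg_sym (χ : Chr 𝓤 (ZMod m)) (hχU : ∀ g, χ g = 0 ↔ g ∈ U)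
    (hχσ : χ σ = 1) (a : ↥(H0 ρ)) :
    cyc U σ hσ hUo hρ a = - sym ρ χ a := by
  classical
  set X : Γ → ZMod m := χ.1 with hX
  have hXmul : ∀ g h, X (g * h) = X g + X h := χ.map_mul
  have ha : ∀ g, ρ g (a : V) = a := fun g => a.2 g
  have hi := smRep_indRep hUo hρ
  -- the character on the quotient
  set r : Γ ⧸ U → ℕ := fun x => (X (sec U x)).val with hr
  have hXeq : ∀ g h : Γ, (g : Γ ⧸ U) = (h : Γ ⧸ U) ↔ X g = X h := by
    intro g h
    rw [QuotientGroup.eq, ← hχU, hXmul, show X g⁻¹ = - X g from χ.map_inv g, neg_add_eq_zero]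
  have hrmk : ∀ g : Γ, r (g : Γ ⧸ U) = (X g).val := by
    intro g
    rw [hr]
    simp only
    rw [(hXeq _ _).mp (mk_sec U (g : Γ ⧸ U))]
  have hrinj : ∀ x y, r x = r y → x = y := by
    intro x y hxy
    obtain ⟨g, rfl⟩ := QuotientGroup.mk_surjective x
    obtain ⟨h, rfl⟩ := QuotientGroup.mk_surjective y
    rw [hrmk, hrmk] at hxy
    exact (hXeq _ _).mpr (ZMod.val_injective m hxy)
  have hrlt : ∀ x, r x < m := fun x => ZMod.val_lt _
  have hr1 : r 1 = 0 := by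
    have : ((1 : Γ) : Γ ⧸ U) = 1 := rfl
    rw [← this, hrmk, hX, χ.map_one, ZMod.val_zero]
  have hrs : ∀ x : Γ ⧸ U, r (x * (σ : Γ ⧸ U)) = if r x + 1 < m then r x + 1 else 0 := by
    intro x
    obtain ⟨g, rfl⟩ := QuotientGroup.mk_surjective x
    rw [← QuotientGroup.mk_mul, hrmk, hrmk, hXmul, hχσ]
    have h1 : (X g).val < m := ZMod.val_lt _
    have h2 : X g + 1 = (((X g).val + 1 : ℕ) : ZMod m) := by
      rw [Nat.cast_add, ZMod.natCast_zmod_val, Nat.cast_one]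
    rw [h2, ZMod.val_natCast]
    split_ifs with h3
    · exact Nat.mod_eq_of_lt h3
    · have : (X g).val + 1 = m := by omega
      rw [this, Nat.mod_self]
  -- the lift
  set v : Γ ⧸ U → V := Pi.single 1 (a : V) with hv
  have hv0 : (cycSES2 U ρ).π v = (a : V) := by
    change ∑ x, v x = _
    rw [hv, Finset.sum_pi_single']
    simp
  have hva : (cycSES2 U ρ).π v ∈ H0 ρ := by rw [hv0]; exact a.2
  set z := (cycSES2 U ρ).cocycle0 hi v hva with hz
  have hzi : ∀ g, (((z : Γ → ↥(trKer (k := k) (V := V) U)) g : ↥(trKer (k := k) (V := V) U)) :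
      Γ ⧸ U → V) = indRep U ρ g v - v :=
    fun g => (cycSES2 U ρ).i_cocycle0 hi v hva g
  have e1 : (cycSES2 U ρ).delta0 hi a = H1.mk 𝓤 (trKerRep U ρ) z :=
    (cycSES2 U ρ).delta0_eq hi a v hv0 z hzi
  set ψ : Γ → (Γ ⧸ U → V) := fun g x =>
    if 0 < r x ∧ r x ≤ (X g).val then -(a : V) else 0 with hψ
  have hψs : 𝓤.Sm1 ψ :=
    χ.2.1.post (fun i x => if 0 < r x ∧ r x ≤ i.val then -(a : V) else 0)
  have hgv : ∀ g x, indRep U ρ g v x = if r x = (X g).val then (a : V) else 0 := by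
    intro g x
    rw [indRep_apply, hv, Pi.single_apply]
    have : (g⁻¹ • x = 1) ↔ r x = (X g).val := by
      rw [inv_smul_eq_iff, ← hrmk]
      have h3 : g • (1 : Γ ⧸ U) = (g : Γ ⧸ U) := by
        change g • ((1 : Γ) : Γ ⧸ U) = _
        rw [MulAction.Quotient.smul_coe, smul_eq_mul, mul_one]
      rw [h3]
      exact ⟨fun h => by rw [h], hrinj _ _⟩
    simp only [this]
    split_ifs
    · exact ha g
    · exact map_zero _
  have hvx : ∀ x, v x = if r x = 0 then (a : V) else 0 := by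
    intro x
    have h1 := hgv 1 x
    rw [map_one, Module.End.one_apply, hX, χ.map_one, ZMod.val_zero] at h1
    exact h1
  have hψz : ∀ g, rtLin (k := k) U σ (ψ g) = (((z : Γ → ↥(trKer (k := k) (V := V) U)) g : ↥(trKer (k := k) (V := V) U)) : Γ ⧸ U → V) := by
    intro g
    rw [hzi]
    funext x
    rw [rtLin_apply, Pi.sub_apply, hgv, hvx]
    simp only [hψ, hrs]
    have h1 : (X g).val < m := ZMod.val_lt _
    have h2 := hrlt x
    by_cases h3 : r x + 1 < m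
    · rw [if_pos h3]
      by_cases h4 : r x = 0
      · by_cases h5 : 1 ≤ (X g).val
        · rw [if_pos (by omega), if_neg (by omega), if_neg (by omega), if_pos h4]
          abel
        · rw [if_neg (by omega), if_neg (by omega), if_pos (by omega), if_pos h4]
          abel
      · by_cases h5 : r x = (X g).val
        · rw [if_neg (by omega), if_pos (by omega), if_pos h5, if_neg h4]
          abel
        · by_cases h6 : r x < (X g).val
          · rw [if_pos (by omega), if_pos (by omega), if_neg h5, if_neg h4]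
            abel
          · rw [if_neg (by omega), if_neg (by omega), if_neg h5, if_neg h4]
    · rw [if_neg h3]
      by_cases h4 : r x = 0
      · rw [if_neg (by omega), if_neg (by omega), if_pos (by omega), if_pos h4]
        abel
      · by_cases h5 : r x = (X g).val
        · rw [if_neg (by omega), if_pos (by omega), if_pos h5, if_neg h4]
          abel
        · rw [if_neg (by omega), if_neg (by omega), if_neg h5, if_neg h4]
  have e2 : (cycSES1 U ρ σ hσ).delta1 hi (H1.mk 𝓤 (trKerRep U ρ) z) = H2.mk 𝓤 ρ (-(symZ χ a)) := by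
    refine (cycSES1 U ρ σ hσ).delta1_eq hi z ψ hψs (fun g => Subtype.ext (hψz g)) _ ?_
    rintro ⟨g, h⟩
    -- `d1 ψ (g, h)` is constant
    have h0 : rtLin (k := k) U σ (d1 (indRep U ρ) ψ (g, h)) = 0 := by
      rw [d1_apply, map_add, map_sub, rtLin_comm, hψz, hψz, hψz]
      have h1 := congrArg Subtype.val (z.2.2 g h)
      have h2 : (((z : Γ → ↥(trKer (k := k) (V := V) U)) (g * h) : ↥(trKer (k := k) (V := V) U)) : Γ ⧸ U → V) =
        indRep U ρ g (((z : Γ → ↥(trKer (k := k) (V := V) U)) h : ↥(trKer (k := k) (V := V) U)) : Γ ⧸ U → V) + (((z : Γ → ↥(trKer (k := k) (V := V) U)) g : ↥(trKer (k := k) (V := V) U)) : Γ ⧸ U → V) := h1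
      rw [h2]
      abel
    obtain ⟨w, hw⟩ := (rtLin_eq_zero_iff (k := k) U σ hσ _).mp h0
    rw [← hw]
    change constLin (k := k) U _ = _
    congr 1
    have h1 := congrFun hw 1
    rw [constLin_apply] at h1
    rw [h1, d1_apply]
    have hψ1 : ∀ g, ψ g 1 = 0 := fun g => by
      simp only [hψ, hr1]
      rw [if_neg (by omega)]
    rw [Pi.add_apply, Pi.sub_apply, hψ1, hψ1, sub_zero, add_zero, indRep_apply]
    simp only [Submodule.coe_neg, Pi.neg_apply, symZ_apply]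
    have h3 : g⁻¹ • (1 : Γ ⧸ U) = ((g⁻¹ : Γ) : Γ ⧸ U) := by
      change g⁻¹ • ((1 : Γ) : Γ ⧸ U) = _
      rw [MulAction.Quotient.smul_coe, smul_eq_mul, mul_one]
    rw [h3]
    simp only [hψ, hrmk]
    rw [show X g⁻¹ = - X g from χ.map_inv g, carry_eq_ite, ZMod.neg_val]
    have h4 : (X g).val < m := ZMod.val_lt _
    have h5 : (X h).val < m := ZMod.val_lt _
    have h9 : (χ h).val = (X h).val := rfl
    have h10 : (χ g).val = (X g).val := rfl
    have h6 : X g = 0 ↔ (X g).val = 0 := (ZMod.val_eq_zero _).symm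
    simp only [h6]
    by_cases h7 : (X g).val = 0
    · rw [if_pos h7, if_neg (by omega), if_neg (by omega), zero_smul, neg_zero, map_zero]
    · rw [if_neg h7]
      by_cases h8 : m ≤ (X g).val + (X h).val
      · rw [if_pos h8, if_pos (by omega), one_smul, map_neg, ha]
      · rw [if_neg h8, if_neg (by omega), zero_smul, neg_zero, map_zero]
  rw [cyc, LinearMap.comp_apply, e1, e2, map_neg]
  rfl

end cyc

end Fermat.Agent.Coh
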